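import Fermat.Agent.S27.Defs
import Fermat.Agent.S24.FF.RiemannHurwitz
import Fermat.Agent.S26.FF.Basic

/-! # S27 / A / Basic  (TASK S27/A0a): bridge `FF1` ↔ S24/FF, API of `OrdGE` and `val`.

Everything here is easy from `Fermat.Agent.S24.FF.*` (which takes `(y) (hy : Transcendental K y)
[FiniteDimensional K⟮y⟯ F]` as arguments) and `Fermat.Agent.S26.FF.Basic`. -/

set_option autoImplicit false
set_option linter.unusedSectionVars false
set_option linter.style.haveILetI false

namespace Fermat.Agent.S27

open AlgebraicCurve Fermat.Agent.S26 IntermediateField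

variable {K F : Type*} [Field K] [Field F] [Algebra K F]

/-! ### `OrdGE` (no hypotheses on `K`, `F`) -/

theorem OrdGE.zero (v : Place K F) (n : ℤ) : OrdGE v n (0 : F) := Or.inl rfl

theorem ordGE_iff {v : Place K F} {n : ℤ} {f : F} (hf : f ≠ 0) : OrdGE v n f ↔ n ≤ v.ord f := by
  unfold OrdGE
  simp [hf]

theorem OrdGE.mono {v : Place K F} {n m : ℤ} {f : F} (h : OrdGE v n f) (hmn : m ≤ n) : OrdGE v m f := by
  rcases h with h | h
  · exact Or.inl h
  · exact Or.inr (hmn.trans h)

theorem OrdGE.add {v : Place K F} {n : ℤ} {f g : F} (hf : OrdGE v n f) (hg : OrdGE v n g) :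
    OrdGE v n (f + g) := by
  by_cases hf0 : f = 0
  · simpa [hf0] using hg
  by_cases hg0 : g = 0
  · simpa [hg0] using hf
  by_cases hfg : f + g = 0
  · exact Or.inl hfg
  have h1 := (ordGE_iff hf0).1 hf
  have h2 := (ordGE_iff hg0).1 hg
  have h3 := Fermat.Agent.S24.FF.ord_add v hf0 hg0 hfg
  exact Or.inr (by omega)

theorem OrdGE.neg {v : Place K F} {n : ℤ} {f : F} (hf : OrdGE v n f) : OrdGE v n (-f) := by
  rcases hf with h | h
  · exact Or.inl (by simp [h])
  · exact Or.inr (by rwa [Fermat.Agent.S24.FF.ord_neg])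

theorem OrdGE.sub {v : Place K F} {n : ℤ} {f g : F} (hf : OrdGE v n f) (hg : OrdGE v n g) :
    OrdGE v n (f - g) := by
  rw [sub_eq_add_neg]
  exact hf.add hg.neg

theorem OrdGE.mul {v : Place K F} {n m : ℤ} {f g : F} (hf : OrdGE v n f) (hg : OrdGE v m g) :
    OrdGE v (n + m) (f * g) := by
  by_cases hf0 : f = 0
  · exact Or.inl (by simp [hf0])
  by_cases hg0 : g = 0
  · exact Or.inl (by simp [hg0])
  have h1 := (ordGE_iff hf0).1 hf
  have h2 := (ordGE_iff hg0).1 hg
  refine Or.inr ?_
  rw [v.ord_mul hf0 hg0]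
  omega

theorem OrdGE.sum {v : Place K F} {n : ℤ} {ι : Type*} (s : Finset ι) (f : ι → F)
    (hf : ∀ i ∈ s, OrdGE v n (f i)) : OrdGE v n (∑ i ∈ s, f i) := by
  classical
  induction s using Finset.induction_on with
  | empty => simpa using OrdGE.zero v n
  | insert a s ha ih =>
    rw [Finset.sum_insert ha]
    exact (hf a (Finset.mem_insert_self a s)).add
      (ih fun i hi => hf i (Finset.mem_insert_of_mem hi))

theorem OrdGE.algebraMap (v : Place K F) (c : K) : OrdGE v 0 (algebraMap K F c) :=
  Or.inr (by rw [Fermat.Agent.S24.FF.ord_algebraMap])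

theorem OrdGE.smul {v : Place K F} {n : ℤ} {f : F} (c : K) (hf : OrdGE v n f) : OrdGE v n (c • f) := by
  rw [Algebra.smul_def]
  simpa using (OrdGE.algebraMap v c).mul hf

theorem OrdGE.pow {v : Place K F} {n : ℤ} {f : F} (hf : OrdGE v n f) (k : ℕ) :
    OrdGE v (k * n) (f ^ k) := by
  induction k with
  | zero => exact Or.inr (by simp)
  | succ k ih =>
    rw [pow_succ]
    have := ih.mul hf
    convert this using 1
    push_cast
    ring

theorem ordGE_zero_iff_mem {v : Place K F} {f : F} : OrdGE v 0 f ↔ f ∈ v.toValuationSubring := by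
  constructor
  · rintro (h | h)
    · rw [h]; exact zero_mem _
    · exact Fermat.Agent.S24.FF.mem_of_ord_nonneg v h
  · intro h
    exact Or.inr (Fermat.Agent.S24.FF.ord_nonneg_of_mem v h)

/-- division by a power of a uniformizer -/
theorem OrdGE.exists_eq_mul {v : Place K F} {t : F} (ht : v.ord t = 1) {n : ℤ} {f : F}
    (hf : OrdGE v n f) : ∃ g : F, OrdGE v 0 g ∧ f = t ^ n * g := by
  have ht0 : t ≠ 0 := Fermat.Agent.S24.FF.ne_zero_of_ord_ne_zero v (by rw [ht]; exact one_ne_zero)
  refine ⟨t ^ (-n) * f, ?_, ?_⟩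
  · have h1 : OrdGE v (-n) (t ^ (-n)) := Or.inr (by rw [v.ord_zpow, ht, mul_one])
    simpa using h1.mul hf
  · rw [← mul_assoc, ← zpow_add₀ ht0]
    simp

/-- a constant which vanishes at a place is zero -/
theorem eq_zero_of_ordGE_one_algebraMap {v : Place K F} {c : K} (h : OrdGE v 1 (algebraMap K F c)) :
    c = 0 := by
  rcases h with h | h
  · simpa using h
  · rw [Fermat.Agent.S24.FF.ord_algebraMap] at h
    omega

/-! ### bridge -/

section FF

variable [IsAlgClosed K] [CharZero K] [FF1 K F]

variable (K F) in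
theorem exists_transcendental : ∃ x : F, Transcendental K x :=
  Fermat.Agent.S26.exists_transcendental

theorem finiteDimensional_adjoin {x : F} (hx : Transcendental K x) : FiniteDimensional K⟮x⟯ F :=
  finiteDimensional_adjoin_of_transcendental hx

theorem transcendental_iff {f : F} : Transcendental K f ↔ f ∉ Set.range (algebraMap K F) := by
  constructor
  · rintro h ⟨c, rfl⟩
    exact h (isAlgebraic_algebraMap c)
  · intro h halg
    exact h (Fermat.Agent.S24.FF.DegOne.exists_algebraMap_eq_of_isAlgebraic K halg)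

theorem transcendental_of_ord_ne_zero (v : Place K F) {f : F} (h : v.ord f ≠ 0) :
    Transcendental K f :=
  Fermat.Agent.S26.transcendental_of_ord_ne_zero v h

theorem deg_eq_one (v : Place K F) : v.deg = 1 := by
  obtain ⟨x, hx⟩ := exists_transcendental K F
  haveI := finiteDimensional_adjoin hx
  exact Fermat.Agent.S24.FF.deg_eq_one K x hx v

theorem degree_eq_sum (D : Divisor K F) : Divisor.degree D = D.sum fun _ n => n := by
  rw [DivisorOf.degree_eq_sum]
  simp [Finsupp.sum, deg_eq_one]

theorem degree_sumDiv {ι : Type*} [Fintype ι] (R : ι → Place K F) :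
    Divisor.degree (sumDiv R) = Fintype.card ι := by
  unfold sumDiv
  rw [map_sum]
  simp [deg_eq_one]

variable (K F) in
instance instHasPrincipalDivisors : HasPrincipalDivisors K F :=
  ⟨fun f _ => ⟨divisorOf f, fun v => divisorOf_apply f v, degree_divisorOf f⟩⟩

/-- for `f` transcendental and `c : K` there is a place with `f(v) = c`. -/
theorem exists_place_val_eq {f : F} (hf : Transcendental K f) (c : K) :
    ∃ v : Place K F, 0 < v.ord (f - algebraMap K F c) := by
  apply exists_ord_pos
  rw [transcendental_iff] at hf ⊢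
  rintro ⟨d, hd⟩
  exact hf ⟨d + c, by rw [map_add, hd]; ring⟩

variable (K F) in
/-- there are infinitely many places -/
theorem infinite_place : Infinite (Place K F) := by
  obtain ⟨x, hx⟩ := exists_transcendental K F
  choose w hw using fun c : K => exists_place_val_eq hx c
  haveI : Infinite K := IsAlgClosed.instInfinite
  refine Infinite.of_injective w fun c d hcd => ?_
  have h1 : OrdGE (w c) 1 (x - algebraMap K F c) := Or.inr (by have := hw c; omega)
  have h2 : OrdGE (w c) 1 (x - algebraMap K F d) := Or.inr (by have := hw d; rw [← hcd] at this; omega)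
  have h3 : OrdGE (w c) 1 (algebraMap K F (c - d)) := by
    have := h2.sub h1
    rw [map_sub]
    convert this using 1
    ring
  exact sub_eq_zero.mp (eq_zero_of_ordGE_one_algebraMap h3)

/-! ### `val` -/

theorem exists_val {v : Place K F} {f : F} (hf : OrdGE v 0 f) :
    ∃ c : K, OrdGE v 1 (f - algebraMap K F c) := by
  obtain ⟨x, hx⟩ := exists_transcendental K F
  haveI := finiteDimensional_adjoin hx
  rcases hf with rfl | hf
  · exact ⟨0, Or.inl (by simp)⟩
  obtain ⟨c, hc | hc⟩ := Fermat.Agent.S24.FF.exists_sub_ord_pos K x hx v hf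
  · exact ⟨c, Or.inl (sub_eq_zero.mpr hc)⟩
  · exact ⟨c, Or.inr (by omega)⟩

omit [IsAlgClosed K] [CharZero K] [FF1 K F] in
theorem val_eq_of {v : Place K F} {f : F} {c : K} (h : OrdGE v 1 (f - algebraMap K F c)) :
    val v f = c := by
  have hex : ∃ c : K, OrdGE v 1 (f - algebraMap K F c) := ⟨c, h⟩
  unfold val
  rw [dif_pos hex]
  have h1 := hex.choose_spec
  have h3 : OrdGE v 1 (algebraMap K F (hex.choose - c)) := by
    have := h.sub h1
    rw [map_sub]
    convert this using 1
    ring
  exact sub_eq_zero.mp (eq_zero_of_ordGE_one_algebraMap h3)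

theorem val_spec {v : Place K F} {f : F} (hf : OrdGE v 0 f) :
    OrdGE v 1 (f - algebraMap K F (val v f)) := by
  obtain ⟨c, hc⟩ := exists_val hf
  rwa [val_eq_of hc]

omit [IsAlgClosed K] [CharZero K] [FF1 K F] in
theorem val_of_pole {v : Place K F} {f : F} (h : v.ord f < 0) : val v f = 0 := by
  unfold val
  rw [dif_neg]
  rintro ⟨c, hc⟩
  have h1 : OrdGE v 0 f := by
    have := (hc.mono zero_le_one).add (OrdGE.algebraMap v c)
    simpa using this
  rcases h1 with rfl | h1
  · simp at h
  · omega

omit [IsAlgClosed K] [CharZero K] [FF1 K F] in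
@[simp] theorem val_algebraMap (v : Place K F) (c : K) : val v (algebraMap K F c) = c :=
  val_eq_of (Or.inl (sub_self _))

omit [IsAlgClosed K] [CharZero K] [FF1 K F] in
@[simp] theorem val_zero (v : Place K F) : val v (0 : F) = 0 := by
  simpa using val_algebraMap v (0 : K)

omit [IsAlgClosed K] [CharZero K] [FF1 K F] in
@[simp] theorem val_one (v : Place K F) : val v (1 : F) = 1 := by
  simpa using val_algebraMap v (1 : K)

theorem val_add {v : Place K F} {f g : F} (hf : OrdGE v 0 f) (hg : OrdGE v 0 g) :
    val v (f + g) = val v f + val v g := by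
  apply val_eq_of
  have := (val_spec hf).add (val_spec hg)
  rw [map_add]
  convert this using 1
  ring

theorem val_neg {v : Place K F} {f : F} : val v (-f) = - val v f := by
  by_cases hf : OrdGE v 0 f
  · apply val_eq_of
    have := (val_spec hf).neg
    rw [map_neg]
    convert this using 1
    ring
  · have h : v.ord f < 0 := by
      by_contra hh
      exact hf (Or.inr (not_lt.mp hh))
    rw [val_of_pole h, val_of_pole (by rwa [Fermat.Agent.S24.FF.ord_neg]), neg_zero]

theorem val_sub {v : Place K F} {f g : F} (hf : OrdGE v 0 f) (hg : OrdGE v 0 g) :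
    val v (f - g) = val v f - val v g := by
  rw [sub_eq_add_neg, val_add hf hg.neg, val_neg, sub_eq_add_neg]

theorem val_mul {v : Place K F} {f g : F} (hf : OrdGE v 0 f) (hg : OrdGE v 0 g) :
    val v (f * g) = val v f * val v g := by
  apply val_eq_of
  have h1 : OrdGE v 1 ((f - algebraMap K F (val v f)) * g) := by
    simpa using (val_spec hf).mul hg
  have h2 : OrdGE v 1 (algebraMap K F (val v f) * (g - algebraMap K F (val v g))) := by
    simpa using (OrdGE.algebraMap v (val v f)).mul (val_spec hg)
  have := h1.add h2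
  rw [map_mul]
  convert this using 1
  ring

theorem val_smul {v : Place K F} (c : K) (f : F) : val v (c • f) = c * val v f := by
  by_cases hc : c = 0
  · simp [hc]
  by_cases hf : OrdGE v 0 f
  · rw [Algebra.smul_def, val_mul (OrdGE.algebraMap v c) hf, val_algebraMap]
  · have h : v.ord f < 0 := by
      by_contra hh
      exact hf (Or.inr (not_lt.mp hh))
    have hf0 : f ≠ 0 := Fermat.Agent.S24.FF.ne_zero_of_ord_ne_zero v h.ne
    have hc' : algebraMap K F c ≠ 0 := by simpa using hc
    rw [val_of_pole h, val_of_pole, mul_zero]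
    rw [Algebra.smul_def, v.ord_mul hc' hf0, Fermat.Agent.S24.FF.ord_algebraMap]
    simpa using h

theorem val_sum {v : Place K F} {ι : Type*} (s : Finset ι) (f : ι → F)
    (hf : ∀ i ∈ s, OrdGE v 0 (f i)) : val v (∑ i ∈ s, f i) = ∑ i ∈ s, val v (f i) := by
  classical
  induction s using Finset.induction_on with
  | empty => simp
  | insert a s ha ih =>
    rw [Finset.sum_insert ha, Finset.sum_insert ha,
      val_add (hf a (Finset.mem_insert_self a s))
        (OrdGE.sum s f fun i hi => hf i (Finset.mem_insert_of_mem hi)),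
      ih fun i hi => hf i (Finset.mem_insert_of_mem hi)]

theorem val_pow {v : Place K F} {f : F} (hf : OrdGE v 0 f) (k : ℕ) : val v (f ^ k) = val v f ^ k := by
  induction k with
  | zero => simp
  | succ k ih =>
    have h := hf.pow k
    rw [mul_zero] at h
    rw [pow_succ, pow_succ, val_mul h hf, ih]

theorem val_eq_zero_iff {v : Place K F} {f : F} (hf : OrdGE v 0 f) : val v f = 0 ↔ OrdGE v 1 f := by
  constructor
  · intro h
    have := val_spec hf
    rwa [h, map_zero, sub_zero] at this
  · intro h
    exact val_eq_of (by simpa using h)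

theorem val_ne_zero_iff {v : Place K F} {f : F} (hf : OrdGE v 0 f) :
    val v f ≠ 0 ↔ (f ≠ 0 ∧ v.ord f = 0) := by
  rw [Ne, val_eq_zero_iff hf]
  constructor
  · intro h
    have hf0 : f ≠ 0 := fun h0 => h (Or.inl h0)
    refine ⟨hf0, ?_⟩
    have h1 := (ordGE_iff hf0).1 hf
    have h2 : ¬ (1 ≤ v.ord f) := fun h2 => h (Or.inr h2)
    omega
  · rintro ⟨hf0, h0⟩ h
    have := (ordGE_iff hf0).1 h
    omega

theorem val_inv {v : Place K F} {f : F} (hf0 : f ≠ 0) (hf : v.ord f = 0) : val v f⁻¹ = (val v f)⁻¹ := by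
  have h1 : OrdGE v 0 f := Or.inr hf.ge
  have h2 : OrdGE v 0 f⁻¹ := Or.inr (by rw [v.ord_inv, hf]; simp)
  have h3 : val v f ≠ 0 := (val_ne_zero_iff h1).2 ⟨hf0, hf⟩
  have h4 := val_mul h1 h2
  rw [mul_inv_cancel₀ hf0, val_one] at h4
  exact eq_inv_of_mul_eq_one_right h4.symm

theorem val_div {v : Place K F} {f g : F} (hf : OrdGE v 0 f) (hg0 : g ≠ 0) (hg : v.ord g = 0) :
    val v (f / g) = val v f / val v g := by
  have h2 : OrdGE v 0 g⁻¹ := Or.inr (by rw [v.ord_inv, hg]; simp)
  rw [div_eq_mul_inv, div_eq_mul_inv, val_mul hf h2, val_inv hg0 hg]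

/-- two places with the same values of all functions regular at the first one are equal -/
theorem place_ext_of_ordGE {v w : Place K F} (h : ∀ f : F, OrdGE v 0 f → OrdGE w 0 f) : v = w :=
  Fermat.Agent.S24.FF.eq_of_le fun f hf => ordGE_zero_iff_mem.1 (h f (ordGE_zero_iff_mem.2 hf))

/-- distinct places are separated by a function -/
theorem exists_separating {v w : Place K F} (h : v ≠ w) :
    ∃ f : F, OrdGE v 1 f ∧ OrdGE w 1 (f - 1) := by
  classical
  obtain ⟨y, hy⟩ := exists_approx ({v, w} : Finset (Place K F)) (fun u => if u = v then 0 else 1)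
    (fun _ => 1)
  refine ⟨y, ?_, ?_⟩
  · have := hy v (by simp)
    simpa [OrdGE] using this
  · have := hy w (by simp)
    simpa [OrdGE, h.symm, sub_eq_zero] using this

end FF

end Fermat.Agent.S27
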