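import Fermat.Agent.S27.A.TraceBasic
import Fermat.Agent.S24.FF.SumFormula

/-! # S27 / A / Charpoly  (TASK S27/A3b)

The characteristic polynomial of `φ` over `K(u)` reduces mod `u` to `∏_{P | u = 0} (Y - φ(P))^{e_P}`. -/

set_option autoImplicit false
set_option linter.unusedSectionVars false
set_option linter.style.haveILetI false

namespace Fermat.Agent.S27

open AlgebraicCurve Fermat.Agent.S26 IntermediateField
open scoped IntermediateField.algebraAdjoinAdjoin

namespace Charpoly

variable {K F : Type*} [Field K] [Field F] [Algebra K F] [IsAlgClosed K] [CharZero K] [FF1 K F]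

/-! ### a dimension bound -/

/-- the space of `x ∈ X` with `ord_v x ≥ c` and `x = 0` as soon as `ord_v x ≥ c + 1` has dimension `≤ 1`. -/
theorem finrank_le_one_of_ord (X : Submodule K F) (v : Place K F) (c : ℕ)
    (h1 : ∀ x ∈ X, OrdGE v c x) (h2 : ∀ x ∈ X, OrdGE v (c + 1) x → x = 0) :
    Module.finrank K X ≤ 1 := by
  by_cases hX : ∀ x ∈ X, x = 0
  · have : X = ⊥ := by
      rw [Submodule.eq_bot_iff]; exact hX
    rw [this]; simp
  push Not at hX
  obtain ⟨x₀, hx₀, hx₀0⟩ := hX
  set t := unif v with ht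
  have hto : v.ord t = 1 := ord_unif v
  have ht0 : t ≠ 0 := Fermat.Agent.S24.FF.ne_zero_of_ord_ne_zero v (by rw [hto]; exact one_ne_zero)
  have htinv : OrdGE v (-(c : ℤ)) (t ^ (-(c : ℤ))) := Or.inr (by rw [v.ord_zpow, hto, mul_one])
  have hreg : ∀ x ∈ X, OrdGE v 0 (t ^ (-(c : ℤ)) * x) := by
    intro x hx
    have := htinv.mul (h1 x hx)
    simpa using this
  -- if the leading coefficient vanishes then `x = 0`
  have hker : ∀ x ∈ X, val v (t ^ (-(c : ℤ)) * x) = 0 → x = 0 := by
    intro x hx h0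
    apply h2 x hx
    have h3 : OrdGE v 1 (t ^ (-(c : ℤ)) * x) := (val_eq_zero_iff (hreg x hx)).mp h0
    have h4 : OrdGE v (c : ℤ) (t ^ (c : ℤ)) := Or.inr (by rw [v.ord_zpow, hto, mul_one])
    have h5 := h4.mul h3
    rwa [← mul_assoc, ← zpow_add₀ ht0, add_neg_cancel, zpow_zero, one_mul] at h5
  have hl0 : val v (t ^ (-(c : ℤ)) * x₀) ≠ 0 := fun h => hx₀0 (hker x₀ hx₀ h)
  refine finrank_le_one (⟨x₀, hx₀⟩ : X) fun w => ?_
  refine ⟨val v (t ^ (-(c : ℤ)) * (w : F)) / val v (t ^ (-(c : ℤ)) * x₀), ?_⟩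
  apply Subtype.ext
  set a := val v (t ^ (-(c : ℤ)) * (w : F)) / val v (t ^ (-(c : ℤ)) * x₀) with ha
  have hmem : (w : F) - a • x₀ ∈ X := X.sub_mem w.2 (X.smul_mem a hx₀)
  have : (w : F) - a • x₀ = 0 := by
    apply hker _ hmem
    rw [mul_sub, mul_smul_comm, val_sub (hreg _ w.2) ((hreg _ hx₀).smul a), val_smul, ha]
    field_simp
    ring
  rw [sub_eq_zero] at this
  exact this.symm

/-- **dimension bound**: a space of functions regular on `T` in which only `0` vanishes to order `e v` at all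
`v ∈ T` has dimension at most `∑ e v`. -/
theorem finrank_le_sum (T : Finset (Place K F)) :
    ∀ (m : ℕ) (e : Place K F → ℕ) (X : Submodule K F), ∑ v ∈ T, e v = m →
      (∀ x ∈ X, ∀ v ∈ T, OrdGE v 0 x) →
      (∀ x ∈ X, (∀ v ∈ T, OrdGE v (e v) x) → x = 0) → Module.finrank K X ≤ m := by
  classical
  intro m
  induction m with
  | zero =>
    intro e X he hreg hsep
    have h0 : ∀ v ∈ T, e v = 0 := by
      intro v hv
      exact (Finset.sum_eq_zero_iff.mp he) v hv
    have : X = ⊥ := by
      rw [Submodule.eq_bot_iff]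
      intro x hx
      apply hsep x hx
      intro v hv
      rw [h0 v hv]
      exact hreg x hx v hv
    rw [this]; simp
  | succ m ih =>
    intro e X he hreg hsep
    obtain ⟨v₀, hv₀, hpos⟩ : ∃ v ∈ T, 0 < e v := by
      by_contra hcon
      push Not at hcon
      have : ∑ v ∈ T, e v = 0 := Finset.sum_eq_zero fun v hv => Nat.le_zero.mp (hcon v hv)
      omega
    set c := e v₀ - 1 with hc
    set e' := Function.update e v₀ c with he'
    have he'v₀ : e' v₀ = c := by simp [he']
    have he'ne : ∀ v, v ≠ v₀ → e' v = e v := fun v hv => by simp [he', hv]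
    have hsum : ∑ v ∈ T, e' v = m := by
      have h1 := Finset.add_sum_erase T e hv₀
      have h2 := Finset.add_sum_erase T e' hv₀
      have h3 : ∑ v ∈ T.erase v₀, e' v = ∑ v ∈ T.erase v₀, e v :=
        Finset.sum_congr rfl fun v hv => he'ne v (Finset.ne_of_mem_erase hv)
      rw [he'v₀, h3] at h2
      omega
    -- the subspace `X'`
    let X' : Submodule K F :=
      { carrier := {x | x ∈ X ∧ ∀ v ∈ T, OrdGE v (e' v) x}
        zero_mem' := ⟨X.zero_mem, fun v _ => OrdGE.zero v _⟩
        add_mem' := fun {a b} ha hb => ⟨X.add_mem ha.1 hb.1, fun v hv => (ha.2 v hv).add (hb.2 v hv)⟩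
        smul_mem' := fun a x hx => ⟨X.smul_mem a hx.1, fun v hv => (hx.2 v hv).smul a⟩ }
    have hX'le : X' ≤ X := fun x hx => hx.1
    have hX'1 : Module.finrank K X' ≤ 1 := by
      apply finrank_le_one_of_ord X' v₀ c
      · intro x hx
        have := hx.2 v₀ hv₀
        rwa [he'v₀] at this
      · intro x hx h
        apply hsep x hx.1
        intro v hv
        by_cases hvv : v = v₀
        · subst hvv
          have : ((e v : ℕ) : ℤ) = (c : ℤ) + 1 := by omega
          rw [this]; exact h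
        · have := hx.2 v hv
          rwa [he'ne v hvv] at this
    obtain ⟨C, hC⟩ := Submodule.exists_isCompl X'
    set X'' := X ⊓ C with hX''
    have hX''m : Module.finrank K X'' ≤ m := by
      apply ih e' X'' hsum
      · intro x hx v hv
        exact hreg x hx.1 v hv
      · intro x hx h
        have h1 : x ∈ X' := ⟨hx.1, h⟩
        have h2 : x ∈ X' ⊓ C := ⟨h1, hx.2⟩
        rw [hC.inf_eq_bot] at h2
        simpa using h2
    have hsup : X' ⊔ X'' = X := by
      rw [hX'', inf_comm, ← sup_inf_assoc_of_le C hX'le, hC.sup_eq_top, top_inf_eq]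
    by_cases hfd : Module.Finite K X
    · haveI : FiniteDimensional K X' := Submodule.finiteDimensional_of_le hX'le
      haveI : FiniteDimensional K X'' := Submodule.finiteDimensional_of_le inf_le_left
      have := Submodule.finrank_add_le_finrank_add_finrank X' X''
      rw [hsup] at this
      omega
    · rw [Module.finrank_of_not_finite hfd]
      omega

/-! ### polynomials in `u` -/

open Fermat.Agent.S24.FF in
theorem isIntegral_of_forall_ordGE (u : F) [FiniteDimensional K⟮u⟯ F] {f : F}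
    (h : ∀ v : Place K F, 0 ≤ v.ord u → OrdGE v 0 f) : IsIntegral (Ry K u) f := by
  have key := IsDedekindDomain.HeightOneSpectrum.mem_integers_of_valuation_le_one (R := Sy K u) F f
    (fun P => by
      have h1 : 0 ≤ (placeOf K u P).ord u := placeOf_ord_nonneg K u P (yS K u)
      have h2 := h _ h1
      rw [ordGE_zero_iff_mem] at h2
      exact (Valuation.mem_valuationSubring_iff _ _).mp h2)
  obtain ⟨s, hs⟩ := key
  rw [← hs]
  exact s.2

theorem ordGE_aeval {v : Place K F} {u : F} (hu : OrdGE v 0 u) (P : Polynomial K) :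
    OrdGE v 0 (Polynomial.aeval u P) := by
  rw [Polynomial.aeval_eq_sum_range]
  apply OrdGE.sum
  intro i _
  have := hu.pow i
  rw [mul_zero] at this
  exact this.smul _

theorem val_aeval {v : Place K F} {u : F} (hu : OrdGE v 0 u) (P : Polynomial K) :
    val v (Polynomial.aeval u P) = P.eval (val v u) := by
  rw [Polynomial.aeval_eq_sum_range, Polynomial.eval_eq_sum_range, val_sum]
  · refine Finset.sum_congr rfl fun i _ => ?_
    rw [val_smul, val_pow hu]
  · intro i _
    have := hu.pow i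
    rw [mul_zero] at this
    exact this.smul _

theorem ordGE_self (v : Place K F) (u : F) : OrdGE v (v.ord u) u := Or.inr le_rfl

theorem val_of_pos {v : Place K F} {u : F} (hv : 0 < v.ord u) : val v u = 0 :=
  val_eq_of (by rw [map_zero, sub_zero]; exact Or.inr (by omega))

/-- `P(u) ≡ P(0) mod u`. -/
theorem ordGE_aeval_sub {v : Place K F} {u : F} (hv : 0 < v.ord u) (P : Polynomial K) :
    OrdGE v (v.ord u) (Polynomial.aeval u P - algebraMap K F (P.eval 0)) := by
  have hu0 : OrdGE v 0 u := Or.inr hv.le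
  have h1 : Polynomial.aeval u P - algebraMap K F (P.eval 0) = u * Polynomial.aeval u P.divX := by
    conv_lhs => rw [← Polynomial.X_mul_divX_add P]
    simp [Polynomial.coeff_zero_eq_eval_zero]
  rw [h1]
  simpa using (ordGE_self v u).mul (ordGE_aeval hu0 P.divX)

theorem aeval_ne_zero_and_ord {v : Place K F} {u : F} (hv : 0 < v.ord u) {d : Polynomial K}
    (hd : d.eval 0 ≠ 0) : Polynomial.aeval u d ≠ 0 ∧ v.ord (Polynomial.aeval u d) = 0 := by
  have hu0 : OrdGE v 0 u := Or.inr hv.le
  rw [← val_ne_zero_iff (ordGE_aeval hu0 d), val_aeval hu0, val_of_pos hv]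
  exact hd

/-- `P(u)/d(u) ≡ P(0)/d(0) mod u`. -/
theorem ordGE_aeval_div_sub {v : Place K F} {u : F} (hv : 0 < v.ord u) (P : Polynomial K)
    {d : Polynomial K} (hd : d.eval 0 ≠ 0) :
    OrdGE v (v.ord u)
      (Polynomial.aeval u P / Polynomial.aeval u d - algebraMap K F (P.eval 0 / d.eval 0)) := by
  obtain ⟨hd0, hdo⟩ := aeval_ne_zero_and_ord hv hd
  have hinv : OrdGE v 0 (Polynomial.aeval u d)⁻¹ := Or.inr (by rw [v.ord_inv, hdo]; simp)
  have h1 := ordGE_aeval_sub hv (P - Polynomial.C (P.eval 0 / d.eval 0) * d)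
  have h2 : (P - Polynomial.C (P.eval 0 / d.eval 0) * d).eval 0 = 0 := by
    simp only [Polynomial.eval_sub, Polynomial.eval_mul, Polynomial.eval_C]
    field_simp
    ring
  rw [h2, map_zero, sub_zero] at h1
  have h3 := h1.mul hinv
  rw [add_zero] at h3
  convert h3 using 1
  simp only [map_sub, map_mul, Polynomial.aeval_C]
  field_simp

/-- clearing denominators: if `φ` is regular at the zeros of `u` then `d(u) φ` is integral over `K[u]` for
some polynomial `d` with `d(0) ≠ 0`. -/
theorem exists_denominator {u : F} (hu : Transcendental K u) [FiniteDimensional K⟮u⟯ F] {φ : F}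
    (hφ : ∀ v : Place K F, 0 < v.ord u → OrdGE v 0 φ) :
    ∃ d : Polynomial K, d.eval 0 ≠ 0 ∧
      IsIntegral (Fermat.Agent.S24.FF.Ry K u) (Polynomial.aeval u d * φ) := by
  classical
  by_cases hφ0 : φ = 0
  · exact ⟨1, by simp, by rw [hφ0, mul_zero]; exact isIntegral_zero⟩
  have hfin := Fermat.Agent.S24.FF.finite_ord_ne_zero K u hu hφ0
  set Z := hfin.toFinset.filter (fun v => v.ord φ < 0 ∧ 0 ≤ v.ord u) with hZ
  set d : Polynomial K := ∏ v ∈ Z, (Polynomial.X - Polynomial.C (val v u)) ^ (-(v.ord φ)).toNat with hd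
  have hmemZ : ∀ v : Place K F, v ∈ Z ↔ (v.ord φ < 0 ∧ 0 ≤ v.ord u) := by
    intro v
    rw [hZ, Finset.mem_filter, Set.Finite.mem_toFinset]
    constructor
    · exact fun h => h.2
    · exact fun h => ⟨by simp only [Set.mem_ofPred_eq]; omega, h⟩
  refine ⟨d, ?_, ?_⟩
  · rw [hd, Polynomial.eval_prod, Finset.prod_ne_zero_iff]
    intro v hv
    rw [hmemZ] at hv
    rw [Polynomial.eval_pow]
    apply pow_ne_zero
    simp only [Polynomial.eval_sub, Polynomial.eval_X, Polynomial.eval_C, zero_sub, ne_eq, neg_eq_zero]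
    intro h0
    have hu0 : OrdGE v 0 u := Or.inr hv.2
    have h1 := (val_eq_zero_iff hu0).mp h0
    have hune : u ≠ 0 := fun h => hu (h ▸ isAlgebraic_zero)
    have h2 := (ordGE_iff hune).mp h1
    have h3 := (ordGE_iff hφ0).mp (hφ v (by omega))
    omega
  · apply isIntegral_of_forall_ordGE
    intro v hv
    have hu0 : OrdGE v 0 u := Or.inr hv
    by_cases hpole : v.ord φ < 0
    · have hvZ : v ∈ Z := (hmemZ v).mpr ⟨hpole, hv⟩
      rw [hd, ← Finset.mul_prod_erase Z _ hvZ, map_mul, mul_right_comm]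
      have h1 : OrdGE v ((-(v.ord φ)).toNat : ℤ)
          (Polynomial.aeval u ((Polynomial.X - Polynomial.C (val v u)) ^ (-(v.ord φ)).toNat)) := by
        have h2 : OrdGE v 1 (u - algebraMap K F (val v u)) := val_spec hu0
        have h3 := h2.pow (-(v.ord φ)).toNat
        rw [mul_one] at h3
        simpa using h3
      have h4 : OrdGE v (v.ord φ) φ := Or.inr le_rfl
      have h5 := (h1.mul h4).mul (ordGE_aeval hu0
        (∏ x ∈ Z.erase v, (Polynomial.X - Polynomial.C (val x u)) ^ (-(x.ord φ)).toNat))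
      refine h5.mono ?_
      rw [Int.toNat_of_nonneg (by omega)]
      omega
    · have h4 : OrdGE v 0 φ := Or.inr (not_lt.mp hpole)
      simpa using (ordGE_aeval hu0 d).mul h4

/-! ### pure polynomial lemmas -/

open Polynomial in
theorem eq_prod_of_rootMultiplicity_le {K ι : Type*} [Field K] [IsAlgClosed K] [DecidableEq K]
    (p : K[X]) (hp : p.Monic)
    (Z : Finset ι) (c : ι → K) (e : ι → ℕ) (hdeg : ∑ v ∈ Z, e v ≤ p.natDegree)
    (h : ∀ μ, p.rootMultiplicity μ ≤ ∑ v ∈ Z.filter (fun v => c v = μ), e v) :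
    p = ∏ v ∈ Z, (X - C (c v)) ^ e v := by
  classical
  set q : K[X] := ∏ v ∈ Z, (X - C (c v)) ^ e v with hq
  have hqm : q.Monic := monic_prod_of_monic _ _ fun v _ => (monic_X_sub_C _).pow _
  have hqd : q.natDegree = ∑ v ∈ Z, e v := by
    rw [hq, natDegree_prod_of_monic _ _ fun v _ => (monic_X_sub_C _).pow _]
    refine Finset.sum_congr rfl fun v _ => ?_
    rw [natDegree_pow, natDegree_X_sub_C, mul_one]
  have hle : p.roots ≤ q.roots := by
    rw [Multiset.le_iff_count]
    intro μ
    rw [count_roots, count_roots]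
    refine (h μ).trans ?_
    rw [le_rootMultiplicity_iff hqm.ne_zero, ← Finset.prod_pow_eq_pow_sum]
    have h1 : ∏ v ∈ Z.filter (fun v => c v = μ), (X - C μ) ^ e v
        = ∏ v ∈ Z.filter (fun v => c v = μ), (X - C (c v)) ^ e v := by
      refine Finset.prod_congr rfl fun v hv => ?_
      rw [(Finset.mem_filter.mp hv).2]
    rw [h1]
    exact Finset.prod_dvd_prod_of_subset _ _ _ (Finset.filter_subset _ _)
  have hpc : Multiset.card p.roots = p.natDegree := (IsAlgClosed.splits p).natDegree_eq_card_roots.symm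
  have hqc : Multiset.card q.roots ≤ q.natDegree := card_roots' q
  have heq : p.roots = q.roots := Multiset.eq_of_le_of_card_le hle (by omega)
  have hqc' : Multiset.card q.roots = q.natDegree := by
    rw [← heq]; rw [← heq] at hqc; omega
  rw [← prod_multiset_X_sub_C_of_monic_of_roots_card_eq hp hpc,
    ← prod_multiset_X_sub_C_of_monic_of_roots_card_eq hqm hqc', heq]

open Polynomial in
theorem roots_sum_prod {K ι : Type*} [Field K] (Z : Finset ι) (c : ι → K) (e : ι → ℕ) :
    (∏ v ∈ Z, (X - C (c v)) ^ e v).roots.sum = ∑ v ∈ Z, (e v : K) * c v := by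
  classical
  rw [roots_prod _ _ (Finset.prod_ne_zero_iff.mpr fun v _ => pow_ne_zero _ (X_sub_C_ne_zero _))]
  simp only [roots_pow, roots_X_sub_C]
  rw [Multiset.sum_bind]
  simp [Multiset.sum_nsmul]

/-! ### reduction of matrices -/

/-- the residue map as a ring homomorphism -/
noncomputable def valHom (w : Place K F) : w.toValuationSubring →+* K where
  toFun x := val w (x : F)
  map_one' := val_one w
  map_zero' := val_zero w
  map_mul' x y := val_mul (ordGE_zero_iff_mem.mpr x.2) (ordGE_zero_iff_mem.mpr y.2)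
  map_add' x y := val_add (ordGE_zero_iff_mem.mpr x.2) (ordGE_zero_iff_mem.mpr y.2)

/-- the characteristic polynomial commutes with reduction at `w`. -/
theorem charpoly_coeff_ordGE {L : Type*} [Field L] [Algebra L F] {n : ℕ} (w : Place K F)
    (A : Matrix (Fin n) (Fin n) L) (A' : Matrix (Fin n) (Fin n) K)
    (h : ∀ i j, OrdGE w 1 (algebraMap L F (A i j) - algebraMap K F (A' i j))) (k : ℕ) :
    OrdGE w 1 (algebraMap L F (A.charpoly.coeff k) - algebraMap K F (A'.charpoly.coeff k)) := by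
  have hreg : ∀ i j, algebraMap L F (A i j) ∈ w.toValuationSubring := by
    intro i j
    rw [← ordGE_zero_iff_mem]
    have := ((h i j).mono zero_le_one).add (OrdGE.algebraMap w (A' i j))
    simpa using this
  let B : Matrix (Fin n) (Fin n) w.toValuationSubring := fun i j => ⟨_, hreg i j⟩
  have h1 : B.map w.toValuationSubring.subtype = A.map (algebraMap L F) := by
    ext i j; rfl
  have h2 : B.map (valHom w) = A' := by
    ext i j
    exact val_eq_of (h i j)
  have h3 : algebraMap L F (A.charpoly.coeff k) = ((B.charpoly.coeff k : w.toValuationSubring) : F) := by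
    rw [← Polynomial.coeff_map, ← Matrix.charpoly_map, ← h1, Matrix.charpoly_map, Polynomial.coeff_map]
    rfl
  have h4 : A'.charpoly.coeff k = val w ((B.charpoly.coeff k : w.toValuationSubring) : F) := by
    rw [← h2, Matrix.charpoly_map, Polynomial.coeff_map]
    rfl
  rw [h3, h4]
  exact val_spec (ordGE_zero_iff_mem.mpr (B.charpoly.coeff k).2)

/-! ### an integral basis -/

open Fermat.Agent.S24.FF in
theorem isLoc (u : F) [FiniteDimensional K⟮u⟯ F] :
    IsLocalization (Algebra.algebraMapSubmonoid (Sy K u) (nonZeroDivisors (Ry K u))) F := by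
  haveI : Algebra.IsAlgebraic K⟮u⟯ F := Algebra.IsAlgebraic.of_finite _ _
  exact IsIntegralClosure.isLocalization (Ry K u) K⟮u⟯ F (Sy K u)

open Fermat.Agent.S24.FF in
/-- an integral basis -/
theorem exists_integral_basis (u : F) [FiniteDimensional K⟮u⟯ F] :
    ∃ (n : ℕ) (b : Module.Basis (Fin n) K⟮u⟯ F), (∀ i, IsIntegral (Ry K u) (b i)) ∧
      ∀ s : F, IsIntegral (Ry K u) s → ∀ i, ∃ P : Polynomial K,
        algebraMap K⟮u⟯ F (b.repr s i) = Polynomial.aeval u P := by
  haveI := isLoc (K := K) u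
  let b0 := Module.finBasis (Ry K u) (Sy K u)
  refine ⟨_, b0.localizationLocalization K⟮u⟯ (nonZeroDivisors (Ry K u)) F, ?_, ?_⟩
  · intro i
    rw [Module.Basis.localizationLocalization_apply]
    exact (b0 i).2
  · intro s hs i
    have := Module.Basis.localizationLocalization_repr_algebraMap K⟮u⟯ (nonZeroDivisors (Ry K u)) F b0
      (⟨s, hs⟩ : Sy K u) i
    obtain ⟨P, hP⟩ := exists_aeval_eq K u (b0.repr ⟨s, hs⟩ i)
    refine ⟨P, ?_⟩
    rw [hP]
    have h2 : (algebraMap (Sy K u) F) (⟨s, hs⟩ : Sy K u) = s := rfl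
    rw [h2] at this
    rw [this]
    rfl

/-! ### the geometry -/

/-- `a ↦ ∑ a i • b i` -/
noncomputable def xmap {n : ℕ} (b : Fin n → F) : (Fin n → K) →ₗ[K] F := Fintype.linearCombination K b

theorem xmap_apply {n : ℕ} (b : Fin n → F) (a : Fin n → K) : xmap b a = ∑ i, a i • b i :=
  Fintype.linearCombination_apply K b a

theorem ordGE_xmap {n : ℕ} {b : Fin n → F} {v : Place K F} (hb : ∀ i, OrdGE v 0 (b i)) (a : Fin n → K) :
    OrdGE v 0 (xmap b a) := by
  rw [xmap_apply]
  exact OrdGE.sum _ _ fun i _ => (hb i).smul _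

open Fermat.Agent.S24.FF in
theorem eq_zero_of_van {u : F} [FiniteDimensional K⟮u⟯ F] {n : ℕ} (b : Module.Basis (Fin n) K⟮u⟯ F)
    (hb : ∀ i, IsIntegral (Ry K u) (b i))
    (hrepr : ∀ s : F, IsIntegral (Ry K u) s → ∀ i, ∃ P : Polynomial K,
        algebraMap K⟮u⟯ F (b.repr s i) = Polynomial.aeval u P)
    {w : Place K F} (hw : 0 < w.ord u) (a : Fin n → K)
    (h : ∀ v : Place K F, 0 < v.ord u → OrdGE v (v.ord u) (xmap b a)) : a = 0 := by
  have hu0 : u ≠ 0 := ne_zero_of_ord_ne_zero w hw.ne'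
  set f := xmap (K := K) b a with hf
  have hint : IsIntegral (Ry K u) (u⁻¹ * f) := by
    apply isIntegral_of_forall_ordGE
    intro v hv
    have hinv : OrdGE v (-(v.ord u)) u⁻¹ := Or.inr (by rw [v.ord_inv])
    rcases hv.lt_or_eq with hv' | hv'
    · simpa using hinv.mul (h v hv')
    · have h1 : OrdGE v 0 f := ordGE_xmap (fun i => Or.inr (ord_nonneg_of_isIntegral K u v hv (hb i))) a
      have := hinv.mul h1
      rwa [← hv', neg_zero, add_zero] at this
  funext i
  obtain ⟨P, hP⟩ := hrepr _ hint i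
  have h1 : f = (AdjoinSimple.gen K u) • (u⁻¹ * f) := by
    rw [Algebra.smul_def, AdjoinSimple.algebraMap_gen, ← mul_assoc, mul_inv_cancel₀ hu0, one_mul]
  have h2 : f = ∑ i, (algebraMap K K⟮u⟯ (a i)) • b i := by
    rw [hf, xmap_apply]
    refine Finset.sum_congr rfl fun i _ => ?_
    rw [algebraMap_smul]
  have h3 : b.repr f i = algebraMap K K⟮u⟯ (a i) := by
    rw [h2, b.repr_sum_self]
  have h4 : b.repr f i = AdjoinSimple.gen K u * b.repr (u⁻¹ * f) i := by
    conv_lhs => rw [h1]
    rw [map_smul]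
    rfl
  have h5 : algebraMap K F (a i) = u * Polynomial.aeval u P := by
    have h6 := congrArg (algebraMap K⟮u⟯ F) (h3.symm.trans h4)
    rw [map_mul, AdjoinSimple.algebraMap_gen, hP] at h6
    exact h6
  apply eq_zero_of_ordGE_one_algebraMap (v := w)
  rw [h5]
  have := (ordGE_self w u).mul (ordGE_aeval (Or.inr hw.le) P)
  exact this.mono (by omega)

/-- `φ · x(a) ≡ x(Ā a)` modulo `u`. -/
theorem mul_xmap_sub {u : F} {n : ℕ} (b : Module.Basis (Fin n) K⟮u⟯ F) (φ : F)
    (A' : Matrix (Fin n) (Fin n) K) {v : Place K F} (hb : ∀ i, OrdGE v 0 (b i))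
    (hA : ∀ i j, OrdGE v (v.ord u)
      (algebraMap K⟮u⟯ F (Algebra.leftMulMatrix b φ i j) - algebraMap K F (A' i j)))
    (a : Fin n → K) :
    OrdGE v (v.ord u) (φ * xmap b a - xmap b (A'.mulVec a)) := by
  have h1 : ∀ j, φ * b j = ∑ i, algebraMap K⟮u⟯ F (Algebra.leftMulMatrix b φ i j) * b i := by
    intro j
    conv_lhs => rw [← b.sum_repr (φ * b j)]
    refine Finset.sum_congr rfl fun i _ => ?_
    rw [Algebra.smul_def, Algebra.leftMulMatrix_eq_repr_mul]
  have h2 : φ * xmap b a - xmap b (A'.mulVec a)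
      = ∑ j, ∑ i, a j • ((algebraMap K⟮u⟯ F (Algebra.leftMulMatrix b φ i j) - algebraMap K F (A' i j)) * b i) := by
    rw [xmap_apply, xmap_apply, Finset.mul_sum]
    have h3 : ∑ i, (A'.mulVec a) i • b i = ∑ j, ∑ i, a j • (algebraMap K F (A' i j) * b i) := by
      rw [Finset.sum_comm]
      refine Finset.sum_congr rfl fun i _ => ?_
      rw [Matrix.mulVec, dotProduct, Finset.sum_smul]
      refine Finset.sum_congr rfl fun j _ => ?_
      rw [Algebra.smul_def, Algebra.smul_def, map_mul]
      ring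
    rw [h3, ← Finset.sum_sub_distrib]
    refine Finset.sum_congr rfl fun j _ => ?_
    rw [mul_smul_comm, h1 j, Finset.smul_sum, ← Finset.sum_sub_distrib]
    refine Finset.sum_congr rfl fun i _ => ?_
    rw [← smul_sub, sub_mul]
  rw [h2]
  refine OrdGE.sum _ _ fun j _ => OrdGE.sum _ _ fun i _ => OrdGE.smul _ ?_
  simpa using (hA i j).mul (hb i)

/-- `(φ - μ)^k · x(a) ≡ x((Ā - μ)^k a)` modulo `u`. -/
theorem pow_mul_xmap_sub {u : F} {n : ℕ} (b : Module.Basis (Fin n) K⟮u⟯ F) (φ : F)
    (A' : Matrix (Fin n) (Fin n) K) {v : Place K F} (hb : ∀ i, OrdGE v 0 (b i)) (hφ : OrdGE v 0 φ)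
    (hA : ∀ i j, OrdGE v (v.ord u)
      (algebraMap K⟮u⟯ F (Algebra.leftMulMatrix b φ i j) - algebraMap K F (A' i j)))
    (μ : K) (k : ℕ) : ∀ a : Fin n → K,
    OrdGE v (v.ord u) ((φ - algebraMap K F μ) ^ k * xmap b a
      - xmap b (((Matrix.toLin' A' - μ • (1 : Module.End K (Fin n → K))) ^ k) a)) := by
  have hφμ : OrdGE v 0 (φ - algebraMap K F μ) := hφ.sub (OrdGE.algebraMap v μ)
  induction k with
  | zero => intro a; simp [OrdGE.zero]
  | succ k ih =>
    intro a
    set T := Matrix.toLin' A' - μ • (1 : Module.End K (Fin n → K)) with hT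
    have hTa : T a = A'.mulVec a - μ • a := by
      rw [hT]; simp
    have h1 : (T ^ (k + 1)) a = (T ^ k) (T a) := by
      rw [pow_succ]; rfl
    have h2 : (φ - algebraMap K F μ) ^ (k + 1) * xmap b a - xmap b ((T ^ (k + 1)) a)
        = ((φ - algebraMap K F μ) ^ k * xmap b (T a) - xmap b ((T ^ k) (T a)))
          + (φ - algebraMap K F μ) ^ k * (φ * xmap b a - xmap b (A'.mulVec a)) := by
      have hx : xmap b (T a) = xmap b (A'.mulVec a) - algebraMap K F μ * xmap b a := by
        rw [hTa, map_sub, map_smul, Algebra.smul_def]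
      rw [h1, hx]
      ring
    rw [h2]
    refine (ih (T a)).add ?_
    have h3 := (hφμ.pow k).mul (mul_xmap_sub b φ A' hb hA a)
    simpa using h3

open Fermat.Agent.S24.FF in
/-- the generalized eigenspaces of the reduced matrix are small. -/
theorem finrank_maxGenEigenspace_le {u : F} [FiniteDimensional K⟮u⟯ F] {n : ℕ}
    (b : Module.Basis (Fin n) K⟮u⟯ F) (hb : ∀ i, IsIntegral (Ry K u) (b i))
    (hrepr : ∀ s : F, IsIntegral (Ry K u) s → ∀ i, ∃ P : Polynomial K,
        algebraMap K⟮u⟯ F (b.repr s i) = Polynomial.aeval u P)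
    {w : Place K F} (hw : 0 < w.ord u) {φ : F}
    (hφ : ∀ v : Place K F, 0 < v.ord u → OrdGE v 0 φ)
    (A' : Matrix (Fin n) (Fin n) K)
    (hA : ∀ v : Place K F, 0 < v.ord u → ∀ i j, OrdGE v (v.ord u)
      (algebraMap K⟮u⟯ F (Algebra.leftMulMatrix b φ i j) - algebraMap K F (A' i j)))
    [DecidableEq K] (μ : K) :
    Module.finrank K (Module.End.maxGenEigenspace (Matrix.toLin' A') μ)
      ≤ ∑ v ∈ (zeros K u).filter (fun v => val v φ = μ), (v.ord u).toNat := by
  have hbreg : ∀ v : Place K F, 0 < v.ord u → ∀ i, OrdGE v 0 (b i) := fun v hv i =>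
    Or.inr (ord_nonneg_of_isIntegral K u v hv.le (hb i))
  have hinj : Function.Injective (xmap (K := K) b) := by
    rw [injective_iff_map_eq_zero]
    intro a ha
    apply eq_zero_of_van b hb hrepr hw a
    intro v _
    rw [ha]
    exact OrdGE.zero _ _
  rw [(Submodule.equivMapOfInjective (xmap (K := K) b) hinj
    (Module.End.maxGenEigenspace (Matrix.toLin' A') μ)).finrank_eq]
  refine finrank_le_sum _ _ (fun v => (v.ord u).toNat) _ rfl ?_ ?_
  · rintro x ⟨a, -, rfl⟩ v hv
    rw [Finset.mem_filter, mem_zeros] at hv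
    exact ordGE_xmap (hbreg v hv.1) a
  · rintro x ⟨a, ha, rfl⟩ hvan
    have : a = 0 := by
      apply eq_zero_of_van b hb hrepr hw a
      intro v hv
      by_cases hμ : val v φ = μ
      · have := hvan v (by rw [Finset.mem_filter, mem_zeros]; exact ⟨hv, hμ⟩)
        rwa [Int.toNat_of_nonneg hv.le] at this
      · obtain ⟨k, hk⟩ := (Module.End.mem_maxGenEigenspace _ _ _).mp ha
        have h1 := pow_mul_xmap_sub b φ A' (hbreg v hv) (hφ v hv) (hA v hv) μ k a
        rw [hk, map_zero, sub_zero] at h1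
        have hreg : OrdGE v 0 (φ - algebraMap K F μ) := (hφ v hv).sub (OrdGE.algebraMap v μ)
        have hval : val v (φ - algebraMap K F μ) ≠ 0 := by
          rw [val_sub (hφ v hv) (OrdGE.algebraMap v μ), val_algebraMap]
          exact sub_ne_zero.mpr hμ
        obtain ⟨hne, hord⟩ := (val_ne_zero_iff hreg).mp hval
        have hinv : OrdGE v 0 ((φ - algebraMap K F μ) ^ k)⁻¹ := Or.inr (by
          rw [v.ord_inv, ← zpow_natCast, v.ord_zpow, hord]; simp)
        have h2 := hinv.mul h1
        rwa [← mul_assoc, inv_mul_cancel₀ (pow_ne_zero k hne), one_mul, zero_add] at h2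
    rw [this, map_zero]

open Fermat.Agent.S24.FF in
/-- the characteristic polynomial of the reduced matrix. -/
theorem charpoly_reduced {u : F} (hu : Transcendental K u) [FiniteDimensional K⟮u⟯ F] {n : ℕ}
    (b : Module.Basis (Fin n) K⟮u⟯ F) (hb : ∀ i, IsIntegral (Ry K u) (b i))
    (hrepr : ∀ s : F, IsIntegral (Ry K u) s → ∀ i, ∃ P : Polynomial K,
        algebraMap K⟮u⟯ F (b.repr s i) = Polynomial.aeval u P)
    {w : Place K F} (hw : 0 < w.ord u) {φ : F}
    (hφ : ∀ v : Place K F, 0 < v.ord u → OrdGE v 0 φ)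
    (A' : Matrix (Fin n) (Fin n) K)
    (hA : ∀ v : Place K F, 0 < v.ord u → ∀ i j, OrdGE v (v.ord u)
      (algebraMap K⟮u⟯ F (Algebra.leftMulMatrix b φ i j) - algebraMap K F (A' i j))) :
    A'.charpoly = ∏ v ∈ zeros K u, (Polynomial.X - Polynomial.C (val v φ)) ^ (v.ord u).toNat := by
  classical
  apply eq_prod_of_rootMultiplicity_le _ (Matrix.charpoly_monic A')
  · rw [Matrix.charpoly_natDegree_eq_dim, Fintype.card_fin]
    have h1 := sum_ord_zeros (K := K) hu
    rw [Module.finrank_eq_card_basis b, Fintype.card_fin] at h1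
    have h2 : ((∑ v ∈ zeros K u, (v.ord u).toNat : ℕ) : ℤ) = ∑ v ∈ zeros K u, v.ord u := by
      rw [Nat.cast_sum]
      refine Finset.sum_congr rfl fun v hv => ?_
      rw [mem_zeros] at hv
      exact Int.toNat_of_nonneg hv.le
    omega
  · intro μ
    rw [← Matrix.charpoly_toLin', ← LinearMap.finrank_maxGenEigenspace_eq]
    exact finrank_maxGenEigenspace_le b hb hrepr hw hφ A' hA μ

open Fermat.Agent.S24.FF in
/-- **reduction mod `u`** of the matrix of multiplication by `φ`. -/
theorem exists_reduction {u : F} (hu : Transcendental K u) [FiniteDimensional K⟮u⟯ F] {φ : F}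
    (hφ : ∀ v : Place K F, 0 < v.ord u → OrdGE v 0 φ) {w : Place K F} (hw : 0 < w.ord u) :
    ∃ (n : ℕ) (b : Module.Basis (Fin n) K⟮u⟯ F) (A' : Matrix (Fin n) (Fin n) K),
      (∀ v : Place K F, 0 < v.ord u → ∀ i j, OrdGE v (v.ord u)
        (algebraMap K⟮u⟯ F (Algebra.leftMulMatrix b φ i j) - algebraMap K F (A' i j))) ∧
      A'.charpoly = ∏ v ∈ zeros K u, (Polynomial.X - Polynomial.C (val v φ)) ^ (v.ord u).toNat := by
  obtain ⟨n, b, hb, hrepr⟩ := exists_integral_basis (K := K) u
  obtain ⟨d, hd0, hdint⟩ := exists_denominator hu hφ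
  have hP : ∀ i j, ∃ P : Polynomial K,
      algebraMap K⟮u⟯ F (b.repr (Polynomial.aeval u d * φ * b j) i) = Polynomial.aeval u P :=
    fun i j => hrepr _ (hdint.mul (hb j)) i
  choose P hP using hP
  have hentry : ∀ i j, algebraMap K⟮u⟯ F (Algebra.leftMulMatrix b φ i j)
      = Polynomial.aeval u (P i j) / Polynomial.aeval u d := by
    intro i j
    have hd1 : Polynomial.aeval u d ≠ 0 := (aeval_ne_zero_and_ord hw hd0).1
    rw [eq_div_iff hd1, ← hP i j, Algebra.leftMulMatrix_eq_repr_mul]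
    have h1 : Polynomial.aeval u d * φ * b j
        = (Polynomial.aeval (AdjoinSimple.gen K u) d) • (φ * b j) := by
      rw [Algebra.smul_def, ← Polynomial.aeval_algebraMap_apply, AdjoinSimple.algebraMap_gen, mul_assoc]
    rw [h1, map_smul, Finsupp.smul_apply, smul_eq_mul, map_mul (algebraMap K⟮u⟯ F),
      ← Polynomial.aeval_algebraMap_apply, AdjoinSimple.algebraMap_gen, mul_comm]
  let A' : Matrix (Fin n) (Fin n) K := fun i j => (P i j).eval 0 / d.eval 0
  have hA : ∀ v : Place K F, 0 < v.ord u → ∀ i j, OrdGE v (v.ord u)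
      (algebraMap K⟮u⟯ F (Algebra.leftMulMatrix b φ i j) - algebraMap K F (A' i j)) := by
    intro v hv i j
    rw [hentry]
    exact ordGE_aeval_div_sub hv (P i j) hd0
  exact ⟨n, b, A', hA, charpoly_reduced hu b hb hrepr hw hφ A' hA⟩

end Charpoly

variable {K F : Type*} [Field K] [Field F] [Algebra K F] [IsAlgClosed K] [CharZero K] [FF1 K F]

/-- **TR, master form**: the characteristic polynomial of `φ` over `K(u)` reduces mod `u` to `∏_{P | u = 0} (Y - φ(P))^{e_P}`. -/
theorem charpoly_ordGE {u : F} (hu : Transcendental K u) [FiniteDimensional K⟮u⟯ F] {φ : F}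
    (hφ : ∀ v : Place K F, 0 < v.ord u → OrdGE v 0 φ) {w : Place K F} (hw : 0 < w.ord u) (i : ℕ) :
    OrdGE w 1
      (algebraMap K⟮u⟯ F ((LinearMap.mulLeft K⟮u⟯ φ).charpoly.coeff i) - algebraMap K F
        ((∏ v ∈ zeros K u, (Polynomial.X - Polynomial.C (val v φ)) ^ (v.ord u).toNat).coeff i)) := by
  obtain ⟨n, b, A', hA, hchar⟩ := Charpoly.exists_reduction hu hφ hw
  rw [← hchar, ← LinearMap.charpoly_toMatrix _ b, Algebra.toMatrix_lmul_eq]
  exact Charpoly.charpoly_coeff_ordGE w _ A' (fun i j => (hA w hw i j).mono (by omega)) i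

/-- **TR**: `Tr φ ≡ ∑_{P | u = 0} e_P φ(P)  mod u`. -/
theorem trF_ordGE {u : F} (hu : Transcendental K u) {φ : F}
    (hφ : ∀ v : Place K F, 0 < v.ord u → OrdGE v 0 φ) {w : Place K F} (hw : 0 < w.ord u) :
    OrdGE w (w.ord u)
      (trF K u φ - algebraMap K F (∑ v ∈ zeros K u, (v.ord u : K) * val v φ)) := by
  haveI := finiteDimensional_adjoin hu
  obtain ⟨n, b, A', hA, hchar⟩ := Charpoly.exists_reduction hu hφ hw
  have h1 : ∑ v ∈ zeros K u, (v.ord u : K) * val v φ = A'.trace := by
    rw [Matrix.trace_eq_sum_roots_charpoly, hchar, Charpoly.roots_sum_prod]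
    refine Finset.sum_congr rfl fun v hv => ?_
    rw [mem_zeros] at hv
    congr 1
    conv_lhs => rw [← Int.toNat_of_nonneg hv.le]
    exact Int.cast_natCast _
  rw [h1, trF, Algebra.trace_eq_matrix_trace b, Matrix.trace, Matrix.trace, map_sum, map_sum,
    ← Finset.sum_sub_distrib]
  exact OrdGE.sum _ _ fun i _ => hA w hw i i

end Fermat.Agent.S27
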