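import Fermat.Agent.S27.A.Basic

/-! # S27 / A / Adele  (TASKS S27/A1*): adelic Riemann–Roch  `ℓ(D) - dim H¹(D) = deg D + 1 - g`.

Reference: Stichtenoth, *Algebraic function fields and codes*, §1.5 (1.5.3, 1.5.4), with
`A = repartitions K F`, `A(D) = repartitionsOf D`, `F = principalRepartitions K F`, `H1 D = A / (A(D) + F)`,
`genusFF K F = dim H1 0` (Prelude `Def_AlgebraicCurve_Repartitions`).  All places have degree one.
Input: `Fermat.Agent.S26.exists_genus` (Riemann's theorem), the `LSpace` lemmas.

Organisation of the proof (one-step induction):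
* `S D = A(D) + F`.  For `D' = D + v`: `S D' = S D ⊔ K ∙ e`, `e` the adele `t^-(D v + 1)` at `v`, `0` elsewhere
  (`SD_add_single`), and `e ∈ S D ↔ L(D) ≠ L(D')` (`sAdele_mem_SD_iff`).
* hence `Good D χ := H1 D finite ∧ ℓ(D) - dim H1 D - deg D = χ` is invariant under `D ↦ D + v` (`good_add_single_iff`).
* if `deg D ≥ c` (`c` from Riemann's theorem) then `S D = S D'` for all `D' ≥ D`, so `S D = ⊤`, `H1 D = 0`. -/

set_option autoImplicit false
set_option linter.unusedSectionVars false
set_option linter.style.haveILetI false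

namespace Fermat.Agent.S27

open AlgebraicCurve Fermat.Agent.S26 IntermediateField

variable {K F : Type*} [Field K] [Field F] [Algebra K F]

theorem ordGE_zero_iff_not_lt {v : Place K F} {f : F} : OrdGE v 0 f ↔ ¬ v.ord f < 0 := by
  constructor
  · rintro (rfl | h)
    · simp
    · omega
  · intro h
    exact Or.inr (not_lt.mp h)

variable [IsAlgClosed K] [CharZero K] [FF1 K F]

theorem mem_repartitions_iff (α : Place K F → F) :
    α ∈ repartitions K F ↔ {v : Place K F | v.ord (α v) < 0}.Finite := by
  refine ⟨fun h => ?_, mem_repartitions_of_finite_ord⟩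
  unfold repartitions at h
  induction h using Algebra.adjoin_induction with
  | mem x hx =>
    have hx : {v : Place K F | ¬v.adicValuation (x v) ≤ 1}.Finite := hx
    rwa [show {v : Place K F | ¬v.adicValuation (x v) ≤ 1}
        = {v : Place K F | v.ord (x v) < 0} from
      Set.ext fun v => v.not_adicValuation_le_one_iff] at hx
  | algebraMap r =>
    by_cases hr : r = 0
    · subst hr
      simp
    · refine (finite_ord_ne_zero (Ω := K) hr).subset fun v hv => ?_
      have : v.ord r < 0 := hv
      exact this.ne
  | add x y _ _ hx hy =>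
    refine (hx.union hy).subset fun v hv => ?_
    by_contra hcon
    simp only [Set.mem_union, Set.mem_ofPred_eq, not_or] at hcon
    have := (ordGE_zero_iff_not_lt.2 hcon.1).add (ordGE_zero_iff_not_lt.2 hcon.2)
    exact ordGE_zero_iff_not_lt.1 this hv
  | mul x y _ _ hx hy =>
    refine (hx.union hy).subset fun v hv => ?_
    by_contra hcon
    simp only [Set.mem_union, Set.mem_ofPred_eq, not_or] at hcon
    have := (ordGE_zero_iff_not_lt.2 hcon.1).mul (ordGE_zero_iff_not_lt.2 hcon.2)
    rw [add_zero] at this
    exact ordGE_zero_iff_not_lt.1 this hv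

omit [IsAlgClosed K] [CharZero K] [FF1 K F] in
theorem mem_repartitionsOf_iff' {D : Divisor K F} {α : ↥(repartitions K F)} :
    α ∈ repartitionsOf D ↔ ∀ v : Place K F, OrdGE v (-D v) ((α : Place K F → F) v) :=
  mem_repartitionsOf_iff

omit [IsAlgClosed K] [CharZero K] [FF1 K F] in
theorem mem_LSpace_iff_ordGE {D : Divisor K F} {f : F} :
    f ∈ LSpace D ↔ ∀ v : Place K F, OrdGE v (-D v) f := by
  rw [mem_LSpace]
  constructor
  · rintro (h | h) v
    · exact Or.inl h
    · exact Or.inr (by have := h v; omega)
  · intro h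
    by_cases hf : f = 0
    · exact Or.inl hf
    · exact Or.inr fun v => by have := (ordGE_iff hf).1 (h v); omega

theorem LSpace_zero_eq : LSpace (0 : Divisor K F) = K ∙ (1 : F) := by
  ext f
  rw [Submodule.mem_span_singleton, mem_LSpace]
  constructor
  · rintro (rfl | h)
    · exact ⟨0, by simp⟩
    · by_contra hcon
      have htr : Transcendental K f := by
        rw [transcendental_iff]
        rintro ⟨c, rfl⟩
        exact hcon ⟨c, by rw [Algebra.smul_def, mul_one]⟩
      obtain ⟨v, hv⟩ := exists_ord_neg htr
      have := h v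
      simp at this
      omega
  · rintro ⟨c, rfl⟩
    right
    intro v
    rw [Algebra.smul_def, mul_one, Fermat.Agent.S24.FF.ord_algebraMap]
    simp

theorem finrank_LSpace_zero : Module.finrank K (LSpace (0 : Divisor K F)) = 1 := by
  rw [LSpace_zero_eq]
  exact finrank_span_singleton one_ne_zero

/-! ### the one-step analysis -/

/-- `A(D) + F`. -/
noncomputable def SD (D : Divisor K F) : Submodule K ↥(repartitions K F) :=
  repartitionsOf D ⊔ principalRepartitions K F

open Classical in
/-- the adele with value `f` at `v` and `0` elsewhere. -/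
noncomputable def sAdele (v : Place K F) (f : F) : ↥(repartitions K F) :=
  ⟨Pi.single v f, mem_repartitions_of_finite_ord ((Set.finite_singleton v).subset (by
    intro w hw
    by_contra hne
    have hne' : w ≠ v := hne
    simp [Pi.single_eq_of_ne hne'] at hw))⟩

theorem sAdele_same (v : Place K F) (f : F) : (sAdele v f : Place K F → F) v = f := by
  simp [sAdele]

theorem sAdele_of_ne {v w : Place K F} (h : w ≠ v) (f : F) : (sAdele v f : Place K F → F) w = 0 := by
  classical
  simp [sAdele, Pi.single_eq_of_ne h]

/-- the principal adele. -/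
noncomputable def pAdele (f : F) : ↥(repartitions K F) := algebraMap F ↥(repartitions K F) f

theorem pAdele_apply (f : F) (v : Place K F) : (pAdele (K := K) f : Place K F → F) v = f := rfl

theorem pAdele_mem (f : F) : pAdele (K := K) f ∈ principalRepartitions K F :=
  mem_principalRepartitions_iff.2 ⟨f, rfl⟩

theorem coe_smul_apply (c : K) (α : ↥(repartitions K F)) (v : Place K F) :
    ((c • α : ↥(repartitions K F)) : Place K F → F) v = c • (α : Place K F → F) v := rfl

theorem coe_sub_apply (α β : ↥(repartitions K F)) (v : Place K F) :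
    ((α - β : ↥(repartitions K F)) : Place K F → F) v
      = (α : Place K F → F) v - (β : Place K F → F) v := rfl

theorem coe_add_apply (α β : ↥(repartitions K F)) (v : Place K F) :
    ((α + β : ↥(repartitions K F)) : Place K F → F) v
      = (α : Place K F → F) v + (β : Place K F → F) v := rfl

theorem add_single_apply_same (D : Divisor K F) (v : Place K F) :
    (D + Finsupp.single v 1 : Divisor K F) v = D v + 1 := by
  simp

theorem add_single_apply_of_ne (D : Divisor K F) {v w : Place K F} (h : w ≠ v) :
    (D + Finsupp.single v 1 : Divisor K F) w = D w := by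
  rw [Finsupp.add_apply, Finsupp.single_eq_of_ne h, add_zero]

/-- the generator of `A(D + v) / A(D)`. -/
noncomputable def eAdele (D : Divisor K F) (v : Place K F) : ↥(repartitions K F) :=
  sAdele v (unif v ^ (-(D v + 1)))

theorem unif_ne_zero (v : Place K F) : unif v ≠ 0 :=
  Fermat.Agent.S24.FF.ne_zero_of_ord_ne_zero v (by rw [ord_unif]; exact one_ne_zero)

theorem eAdele_mem (D : Divisor K F) (v : Place K F) :
    eAdele D v ∈ repartitionsOf (D + Finsupp.single v 1) := by
  rw [mem_repartitionsOf_iff']
  intro w
  by_cases hw : w = v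
  · subst hw
    rw [eAdele, sAdele_same, add_single_apply_same]
    exact Or.inr (by rw [w.ord_zpow, ord_unif, mul_one])
  · rw [eAdele, sAdele_of_ne hw]
    exact OrdGE.zero _ _

/-- key computation: an adele in `A(D + v)` is congruent mod `A(D)` to a multiple of `e`. -/
theorem sub_smul_eAdele_mem (D : Divisor K F) (v : Place K F) {α : ↥(repartitions K F)}
    (hα : α ∈ repartitionsOf (D + Finsupp.single v 1)) :
    α - val v (unif v ^ (D v + 1) * (α : Place K F → F) v) • eAdele D v ∈ repartitionsOf D := by
  rw [mem_repartitionsOf_iff'] at hα ⊢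
  intro w
  by_cases hw : w = v
  · subst hw
    have h1 := hα w
    rw [add_single_apply_same] at h1
    set t := unif w with ht
    have ht0 : t ≠ 0 := unif_ne_zero w
    set h := t ^ (D w + 1) * (α : Place K F → F) w with hh
    have h2 : OrdGE w 0 h := by
      have h3 : OrdGE w (D w + 1) (t ^ (D w + 1)) := Or.inr (by rw [w.ord_zpow, ord_unif, mul_one])
      have := h3.mul h1
      simpa using this
    have h3 := val_spec h2
    rw [coe_sub_apply, coe_smul_apply, eAdele, sAdele_same]
    have h4 : (α : Place K F → F) w - val w h • t ^ (-(D w + 1))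
        = t ^ (-(D w + 1)) * (h - algebraMap K F (val w h)) := by
      rw [hh, Algebra.smul_def, mul_sub, ← mul_assoc, ← zpow_add₀ ht0]
      simp [mul_comm]
    rw [h4]
    have h5 : OrdGE w (-(D w + 1)) (t ^ (-(D w + 1))) := Or.inr (by rw [w.ord_zpow, ord_unif, mul_one])
    have := h5.mul h3
    convert this using 1
    ring
  · have h1 := hα w
    rw [add_single_apply_of_ne D hw] at h1
    rw [coe_sub_apply, coe_smul_apply, eAdele, sAdele_of_ne hw, smul_zero, sub_zero]
    exact h1

theorem repartitionsOf_le_add_single (D : Divisor K F) (v : Place K F) :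
    repartitionsOf D ≤ repartitionsOf (D + Finsupp.single v 1) :=
  repartitionsOf_mono (by
    rw [Finsupp.le_def]
    intro w
    by_cases hw : w = v
    · subst hw; rw [add_single_apply_same]; omega
    · rw [add_single_apply_of_ne D hw])

theorem repartitionsOf_add_single (D : Divisor K F) (v : Place K F) :
    repartitionsOf (D + Finsupp.single v 1) = repartitionsOf D ⊔ K ∙ eAdele D v := by
  apply le_antisymm
  · intro α hα
    have h := sub_smul_eAdele_mem D v hα
    rw [Submodule.mem_sup]
    exact ⟨_, h, _, Submodule.smul_mem _ _ (Submodule.mem_span_singleton_self _), sub_add_cancel _ _⟩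
  · refine sup_le (repartitionsOf_le_add_single D v) ?_
    rw [Submodule.span_singleton_le_iff_mem]
    exact eAdele_mem D v

theorem SD_add_single (D : Divisor K F) (v : Place K F) :
    SD (D + Finsupp.single v 1) = SD D ⊔ K ∙ eAdele D v := by
  unfold SD
  rw [repartitionsOf_add_single, sup_assoc, sup_assoc, sup_comm (K ∙ eAdele D v)]

theorem pAdele_mem_repartitionsOf_iff {D : Divisor K F} {f : F} :
    pAdele (K := K) f ∈ repartitionsOf D ↔ f ∈ LSpace D := by
  rw [mem_repartitionsOf_iff', mem_LSpace_iff_ordGE]
  rfl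

theorem eAdele_mem_SD_iff (D : Divisor K F) (v : Place K F) :
    eAdele D v ∈ SD D ↔ ∃ f ∈ LSpace (D + Finsupp.single v 1), f ∉ LSpace D := by
  constructor
  · intro h
    unfold SD at h
    rw [Submodule.mem_sup] at h
    obtain ⟨β, hβ, γ, hγ, hsum⟩ := h
    obtain ⟨f, hf⟩ := mem_principalRepartitions_iff.1 hγ
    have hγ' : γ = pAdele f := Subtype.ext hf
    subst hγ'
    refine ⟨f, ?_, ?_⟩
    · rw [← pAdele_mem_repartitionsOf_iff]
      have : pAdele (K := K) f = eAdele D v - β := by rw [← hsum]; abel
      rw [this]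
      exact Submodule.sub_mem _ (eAdele_mem D v) (repartitionsOf_le_add_single D v hβ)
    · intro hfD
      rw [← pAdele_mem_repartitionsOf_iff] at hfD
      have he : eAdele D v ∈ repartitionsOf D := by
        rw [← hsum]
        exact Submodule.add_mem _ hβ hfD
      rw [mem_repartitionsOf_iff'] at he
      have := he v
      rw [eAdele, sAdele_same, ordGE_iff (zpow_ne_zero _ (unif_ne_zero v)), v.ord_zpow, ord_unif] at this
      omega
  · rintro ⟨f, hf', hf⟩
    have h1 := sub_smul_eAdele_mem D v (pAdele_mem_repartitionsOf_iff.2 hf')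
    set c := val v (unif v ^ (D v + 1) * (pAdele (K := K) f : Place K F → F) v) with hc
    have hc0 : c ≠ 0 := by
      intro h0
      rw [h0, zero_smul, sub_zero] at h1
      exact hf (pAdele_mem_repartitionsOf_iff.1 h1)
    have h2 : eAdele D v = c⁻¹ • (pAdele f - (pAdele f - c • eAdele D v)) := by
      rw [sub_sub_cancel, smul_smul, inv_mul_cancel₀ hc0, one_smul]
    rw [h2]
    apply Submodule.smul_mem
    apply Submodule.sub_mem
    · exact Submodule.mem_sup_right (pAdele_mem f)
    · exact Submodule.mem_sup_left h1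

theorem LSpace_le_add_single (D : Divisor K F) (v : Place K F) :
    LSpace D ≤ LSpace (D + Finsupp.single v 1) :=
  LSpace_mono (fun w => by
    by_cases hw : w = v
    · subst hw; rw [add_single_apply_same]; omega
    · rw [add_single_apply_of_ne D hw])

/-- `ℓ(D + v) = ℓ(D) + 1` if `L(D) ≠ L(D + v)`. -/
theorem finrank_LSpace_add_single_of_exists (D : Divisor K F) (v : Place K F)
    (h : ∃ f ∈ LSpace (D + Finsupp.single v 1), f ∉ LSpace D) :
    Module.finrank K (LSpace (D + Finsupp.single v 1)) = Module.finrank K (LSpace D) + 1 := by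
  haveI := finite_LSpace (Ω := K) (D + Finsupp.single v 1)
  have h1 := finrank_LSpace_add_single_le D v
  rw [deg_eq_one] at h1
  have h2 : LSpace D < LSpace (D + Finsupp.single v 1) := by
    refine lt_of_le_of_ne (LSpace_le_add_single D v) ?_
    intro heq
    obtain ⟨f, hf', hf⟩ := h
    exact hf (heq ▸ hf')
  have h3 := Submodule.finrank_lt_finrank_of_lt h2
  omega

theorem finrank_LSpace_add_single_of_not_exists (D : Divisor K F) (v : Place K F)
    (h : ¬ ∃ f ∈ LSpace (D + Finsupp.single v 1), f ∉ LSpace D) :
    Module.finrank K (LSpace (D + Finsupp.single v 1)) = Module.finrank K (LSpace D) := by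
  have : LSpace (D + Finsupp.single v 1) = LSpace D := by
    apply le_antisymm _ (LSpace_le_add_single D v)
    intro f hf
    by_contra hcon
    exact h ⟨f, hf, hcon⟩
  rw [this]

/-! ### linear algebra -/

omit [IsAlgClosed K] [CharZero K] [FF1 K F] in
theorem quot_sup_span_singleton {V : Type*} [AddCommGroup V] [Module K V] (S : Submodule K V) (e : V)
    (he : e ∉ S) :
    (Module.Finite K (V ⧸ S) ↔ Module.Finite K (V ⧸ (S ⊔ K ∙ e))) ∧
    (Module.Finite K (V ⧸ S) →
      Module.finrank K (V ⧸ S) = Module.finrank K (V ⧸ (S ⊔ K ∙ e)) + 1) := by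
  set T := S ⊔ K ∙ e with hT
  have hN : T.map S.mkQ = K ∙ (S.mkQ e) := by
    rw [hT, Submodule.map_sup, Submodule.map_span, Set.image_singleton]
    have : S.map S.mkQ = ⊥ := by
      rw [← LinearMap.le_ker_iff_map, Submodule.ker_mkQ]
    rw [this, bot_sup_eq]
  have hne : S.mkQ e ≠ 0 := by
    rw [Submodule.mkQ_apply, Ne, Submodule.Quotient.mk_eq_zero]
    exact he
  let φ := Submodule.quotientQuotientEquivQuotient S T le_sup_left
  have hfinN : Module.Finite K (T.map S.mkQ) := by
    rw [hN]
    infer_instance
  have hrkN : Module.finrank K (T.map S.mkQ) = 1 := by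
    rw [hN]
    exact finrank_span_singleton hne
  refine ⟨⟨fun h => ?_, fun h => ?_⟩, fun h => ?_⟩
  · exact Module.Finite.equiv φ
  · haveI : Module.Finite K ((V ⧸ S) ⧸ T.map S.mkQ) := Module.Finite.equiv φ.symm
    exact Module.Finite.of_submodule_quotient (T.map S.mkQ)
  · have h1 := Submodule.finrank_quotient_add_finrank (T.map S.mkQ)
    rw [hrkN, LinearEquiv.finrank_eq φ] at h1
    exact h1.symm

/-! ### the invariant -/

/-- `H¹(D)` is finite dimensional and `ℓ(D) - dim H¹(D) - deg D = χ`. -/
def Good (D : Divisor K F) (χ : ℤ) : Prop :=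
  Module.Finite K (↥(repartitions K F) ⧸ SD D) ∧
    (Module.finrank K (LSpace D) : ℤ) - Module.finrank K (↥(repartitions K F) ⧸ SD D)
      - Divisor.degree D = χ

theorem SD_add_single_of_exists (D : Divisor K F) (v : Place K F)
    (h : ∃ f ∈ LSpace (D + Finsupp.single v 1), f ∉ LSpace D) :
    SD (D + Finsupp.single v 1) = SD D := by
  rw [SD_add_single, sup_eq_left, Submodule.span_singleton_le_iff_mem]
  exact (eAdele_mem_SD_iff D v).2 h

theorem degree_add_single (D : Divisor K F) (v : Place K F) :
    Divisor.degree (D + Finsupp.single v 1) = Divisor.degree D + 1 := by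
  rw [map_add, Divisor.degree_single, deg_eq_one]
  simp

theorem good_add_single_iff (D : Divisor K F) (v : Place K F) (χ : ℤ) :
    Good (D + Finsupp.single v 1) χ ↔ Good D χ := by
  by_cases h : ∃ f ∈ LSpace (D + Finsupp.single v 1), f ∉ LSpace D
  · unfold Good
    rw [SD_add_single_of_exists D v h, finrank_LSpace_add_single_of_exists D v h, degree_add_single]
    constructor
    · rintro ⟨h1, h2⟩
      refine ⟨h1, ?_⟩
      push_cast at h2
      omega
    · rintro ⟨h1, h2⟩
      refine ⟨h1, ?_⟩
      push_cast
      omega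
  · have he : eAdele D v ∉ SD D := fun he => h ((eAdele_mem_SD_iff D v).1 he)
    obtain ⟨hfin, hrk⟩ := quot_sup_span_singleton (SD D) (eAdele D v) he
    unfold Good
    rw [SD_add_single, finrank_LSpace_add_single_of_not_exists D v h, degree_add_single]
    constructor
    · rintro ⟨h1, h2⟩
      have h3 := hfin.2 h1
      refine ⟨h3, ?_⟩
      have := hrk h3
      omega
    · rintro ⟨h1, h2⟩
      refine ⟨hfin.1 h1, ?_⟩
      have := hrk h1
      omega

omit [IsAlgClosed K] [CharZero K] [FF1 K F] in
/-- induction along `D ≤ D'`. -/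
theorem castDiv_induction {P : Divisor K F → Prop} (D : Divisor K F) (h0 : P D)
    (hstep : ∀ (D' : Divisor K F) (v : Place K F), (∀ w, D w ≤ D' w) → P D' →
      P (D' + Finsupp.single v 1))
    (E : Place K F →₀ ℕ) : P (D + castDiv E) ∧ ∀ w, D w ≤ (D + castDiv E) w := by
  induction E using Finsupp.induction with
  | zero =>
    rw [map_zero, add_zero]
    exact ⟨h0, fun _ => le_rfl⟩
  | single_add a b f _ _ ih =>
    have key : ∀ n : ℕ, P (D + castDiv f + Finsupp.single a (n : ℤ)) ∧
        ∀ w, D w ≤ (D + castDiv f + Finsupp.single a (n : ℤ)) w := by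
      intro n
      induction n with
      | zero =>
        simpa using ih
      | succ n ihn =>
        have e : D + castDiv f + Finsupp.single a ((n + 1 : ℕ) : ℤ)
            = D + castDiv f + Finsupp.single a (n : ℤ) + Finsupp.single a 1 := by
          rw [add_assoc (D + castDiv f), ← Finsupp.single_add]
          push_cast
          rfl
        rw [e]
        refine ⟨hstep _ a ihn.2 ihn.1, fun w => ?_⟩
        have h1 := ihn.2 w
        rw [Finsupp.add_apply _ (Finsupp.single a (1 : ℤ))]
        have h2 : 0 ≤ (Finsupp.single a (1 : ℤ)) w := by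
          by_cases hw : w = a
          · subst hw; simp
          · rw [Finsupp.single_eq_of_ne hw]
        omega
    have e : D + castDiv (Finsupp.single a b + f) = D + castDiv f + Finsupp.single a (b : ℤ) := by
      rw [map_add, castDiv_single]
      abel
    rw [e]
    exact key b

theorem good_iff_of_le {D D' : Divisor K F} (h : ∀ v, D v ≤ D' v) (χ : ℤ) :
    Good D' χ ↔ Good D χ := by
  obtain ⟨E, rfl⟩ := exists_eq_add_castDiv h
  exact (castDiv_induction (P := fun D' => Good D' χ ↔ Good D χ) D Iff.rfl
    (fun D' v _ hD' => (good_add_single_iff D' v χ).trans hD') E).1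

/-- above the Riemann bound `A(D) + F` does not grow. -/
theorem SD_eq_of_le {g : ℕ} {c : ℤ}
    (hc : ∀ D : Divisor K F, c ≤ Divisor.degree D →
        (Module.finrank K (LSpace D) : ℤ) = Divisor.degree D + 1 - g)
    {D D' : Divisor K F} (hD : c ≤ Divisor.degree D) (h : ∀ v, D v ≤ D' v) : SD D' = SD D := by
  obtain ⟨E, rfl⟩ := exists_eq_add_castDiv h
  refine (castDiv_induction (P := fun D' => SD D' = SD D) D rfl
    (fun D' v hle hD' => ?_) E).1
  rw [← hD']
  apply SD_add_single_of_exists
  by_contra hcon
  have h1 := finrank_LSpace_add_single_of_not_exists D' v hcon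
  have h2 : c ≤ Divisor.degree D' := hD.trans (degree_mono hle)
  have h3 := hc D' h2
  have h4 := hc (D' + Finsupp.single v 1) (by rw [degree_add_single]; omega)
  rw [degree_add_single, h1] at h4
  omega

theorem exists_mem_repartitionsOf (D : Divisor K F) (α : ↥(repartitions K F)) :
    ∃ D' : Divisor K F, (∀ v, D v ≤ D' v) ∧ α ∈ repartitionsOf D' := by
  classical
  have hfin := (mem_repartitions_iff (α : Place K F → F)).1 α.2
  let D' : Divisor K F := Finsupp.onFinset (hfin.toFinset ∪ D.support)
    (fun w => max (D w) (-(w.ord ((α : Place K F → F) w)))) (by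
      intro w hw
      by_contra hcon
      rw [Finset.mem_union, not_or, Set.Finite.mem_toFinset, Finsupp.mem_support_iff, not_not] at hcon
      apply hw
      have h1 : ¬ w.ord ((α : Place K F → F) w) < 0 := hcon.1
      rw [hcon.2]
      omega)
  have hD' : ∀ w, D' w = max (D w) (-(w.ord ((α : Place K F → F) w))) := fun w => rfl
  refine ⟨D', fun v => by rw [hD']; exact le_max_left _ _, ?_⟩
  rw [mem_repartitionsOf_iff']
  intro v
  right
  rw [hD']
  have := le_max_right (D v) (-(v.ord ((α : Place K F → F) v)))
  omega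

theorem SD_eq_top {g : ℕ} {c : ℤ}
    (hc : ∀ D : Divisor K F, c ≤ Divisor.degree D →
        (Module.finrank K (LSpace D) : ℤ) = Divisor.degree D + 1 - g)
    {D : Divisor K F} (hD : c ≤ Divisor.degree D) : SD D = ⊤ := by
  rw [eq_top_iff]
  intro α _
  obtain ⟨D', hle, hα⟩ := exists_mem_repartitionsOf D α
  rw [← SD_eq_of_le hc hD hle]
  exact Submodule.mem_sup_left hα

theorem good_of_genus {g : ℕ} {c : ℤ}
    (hc : ∀ D : Divisor K F, c ≤ Divisor.degree D →
        (Module.finrank K (LSpace D) : ℤ) = Divisor.degree D + 1 - g)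
    (D : Divisor K F) : Good D (1 - g) := by
  obtain ⟨v₀⟩ := nonempty_place (Ω := K) (𝕃 := F)
  set n : ℕ := (c - Divisor.degree D).toNat with hn
  set D' : Divisor K F := D + Finsupp.single v₀ (n : ℤ) with hD'
  have hle : ∀ v, D v ≤ D' v := by
    intro v
    rw [hD', Finsupp.add_apply]
    have h2 : 0 ≤ (Finsupp.single v₀ (n : ℤ)) v := by
      by_cases hw : v = v₀
      · subst hw; simp
      · rw [Finsupp.single_eq_of_ne hw]
    omega
  have hdeg : c ≤ Divisor.degree D' := by
    rw [hD', map_add, Divisor.degree_single, deg_eq_one]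
    have := Int.self_le_toNat (c - Divisor.degree D)
    push_cast
    omega
  rw [← good_iff_of_le hle]
  unfold Good
  rw [SD_eq_top hc hdeg, hc D' hdeg]
  haveI : Subsingleton (↥(repartitions K F) ⧸ (⊤ : Submodule K ↥(repartitions K F))) :=
    (Submodule.QuotientTop.unique).instSubsingleton
  refine ⟨Module.Finite.of_finite, ?_⟩
  rw [Module.finrank_zero_of_subsingleton]
  push_cast
  ring

theorem exists_good_adele : ∃ g : ℕ, ∀ D : Divisor K F, Good D (1 - g) := by
  obtain ⟨g, c, -, hc⟩ := exists_genus (Ω := K) (𝕃 := F) finrank_LSpace_zero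
  exact ⟨g, good_of_genus hc⟩

theorem finite_H1 (D : Divisor K F) : Module.Finite K (H1 D) := by
  obtain ⟨g, hg⟩ := exists_good_adele (K := K) (F := F)
  exact (hg D).1

/-- adelic Riemann–Roch -/
theorem rr_adelic (D : Divisor K F) :
    (Module.finrank K (LSpace D) : ℤ) - Module.finrank K (H1 D)
      = Divisor.degree D + 1 - genusFF K F := by
  obtain ⟨g, hg⟩ := exists_good_adele (K := K) (F := F)
  have h0 := (hg 0).2
  rw [finrank_LSpace_zero, map_zero] at h0
  have hgen : (genusFF K F : ℤ) = g := by
    have : (Module.finrank K (↥(repartitions K F) ⧸ SD (0 : Divisor K F)) : ℤ) = genusFF K F := rfl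
    rw [← this]
    push_cast at h0
    omega
  have h1 := (hg D).2
  have : (Module.finrank K (↥(repartitions K F) ⧸ SD D) : ℤ) = Module.finrank K (H1 D) := rfl
  rw [this] at h1
  rw [hgen]
  omega

end Fermat.Agent.S27
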