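import Fermat.Agent.S27.A.Basic

/-! # S27 / A / Deriv  (TASK S27/A0b): the derivations `dd t = d/dt`, the order `ordDx x v` of `dx`.

Sources: `Fermat.Agent.S24.FF.OrdDeriv` (`exists_derivation`, `deriv_mem`, `ord_of_D_eq_smul_D`),
`Fermat.Agent.S24.FF.Differential` (`exists_eq_smul_D`: `Ω[F/K]` is spanned by `D y`).

`finite_ordDx_ne_zero`: let `S` = integral closure of `K[x]` in `F` (`Fermat.Agent.S24.FF.Sy`), a finite `K[x]`-module
generated by `s₁..s_m`.  For every place `v` with `x` regular at `v` and all `dd x sᵢ` regular at `v`, `dd x` maps `S` into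
`O_v`, hence (`Fermat.Agent.S24.FF.exists_div_of_ord_nonneg`: `O_v` is a localization of `S`) `O_v` into `O_v`; so
`ord_v (dd x t) ≥ 0` for a uniformizer `t`, i.e. `ordDx x v = - ord_v (dd x t) ≤ 0`, while
`ordDx x v = ord_v (x - x(v)) - 1 ≥ 0`. -/

set_option autoImplicit false
set_option linter.unusedSectionVars false
set_option linter.style.haveILetI false
set_option linter.unusedVariables false

namespace Fermat.Agent.S27

open AlgebraicCurve Fermat.Agent.S26 IntermediateField

variable {K F : Type*} [Field K] [Field F] [Algebra K F] [IsAlgClosed K] [CharZero K] [FF1 K F]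

theorem dd_self {t : F} (ht : Transcendental K t) : dd (K := K) t t = 1 := by
  haveI := finiteDimensional_adjoin ht
  obtain ⟨δ, hδ, -⟩ := Fermat.Agent.S24.FF.OrdDeriv.exists_derivation K t ht
  have h : ∃ δ : Derivation K F F, δ t = 1 := ⟨δ, hδ⟩
  unfold dd
  rw [dif_pos h]
  exact h.choose_spec

/-- `Der_K(F,F)` is one-dimensional. -/
theorem derivation_eq {t : F} (ht : Transcendental K t) (δ : Derivation K F F) (f : F) :
    δ f = δ t * dd (K := K) t f := by
  haveI := finiteDimensional_adjoin ht
  obtain ⟨g, hg⟩ := Fermat.Agent.S24.FF.exists_eq_smul_D K t ht (KaehlerDifferential.D K F f)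
  have key : ∀ ε : Derivation K F F, ε f = g * ε t := by
    intro ε
    have h := congrArg ε.liftKaehlerDifferential hg
    rw [map_smul, Derivation.liftKaehlerDifferential_comp_D,
      Derivation.liftKaehlerDifferential_comp_D] at h
    simpa using h
  rw [key δ, key (dd t), dd_self ht]
  ring

theorem dd_chain {t s : F} (ht : Transcendental K t) (hs : Transcendental K s) (f : F) :
    dd (K := K) t f = dd (K := K) s f * dd (K := K) t s := by
  rw [derivation_eq hs (dd t) f, mul_comm]

theorem dd_ne_zero {t s : F} (ht : Transcendental K t) (hs : Transcendental K s) :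
    dd (K := K) t s ≠ 0 := by
  intro h
  have := dd_chain ht hs t
  rw [h, mul_zero, dd_self ht] at this
  exact one_ne_zero this

theorem dd_mul_dd {t s : F} (ht : Transcendental K t) (hs : Transcendental K s) :
    dd (K := K) t s * dd (K := K) s t = 1 := by
  rw [mul_comm, ← dd_chain ht hs t, dd_self ht]

theorem dd_eq_zero_iff {t : F} (ht : Transcendental K t) (f : F) :
    dd (K := K) t f = 0 ↔ f ∈ Set.range (algebraMap K F) := by
  constructor
  · intro h
    by_contra hf
    exact dd_ne_zero ht (transcendental_iff.2 hf) h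
  · rintro ⟨c, rfl⟩
    exact Derivation.map_algebraMap _ _

theorem dd_sub_algebraMap (t : F) (c : K) : dd (K := K) (t - algebraMap K F c) = dd (K := K) t := by
  classical
  have h : (fun δ : Derivation K F F => δ (t - algebraMap K F c) = 1) = fun δ => δ t = 1 := by
    funext δ
    rw [map_sub, Derivation.map_algebraMap, sub_zero]
  exact congrArg (fun p : Derivation K F F → Prop => if h : ∃ δ, p δ then h.choose else 0) h

/-- `d/dt` preserves `O_v` if `t` is a uniformizer at `v`. -/
theorem OrdGE.dd {v : Place K F} {t : F} (ht : v.ord t = 1) {f : F} (hf : OrdGE v 0 f) :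
    OrdGE v 0 (dd (K := K) t f) := by
  have htt : Transcendental K t := transcendental_of_ord_ne_zero v (by rw [ht]; exact one_ne_zero)
  haveI := finiteDimensional_adjoin htt
  rcases hf with rfl | hf
  · left; simp
  · right
    exact (Fermat.Agent.S24.FF.OrdDeriv.mem_valSubalgebra v).1
      (Fermat.Agent.S24.FF.OrdDeriv.deriv_mem t htt v ht (Fermat.Agent.S27.dd t) (dd_self htt) f
        ((Fermat.Agent.S24.FF.OrdDeriv.mem_valSubalgebra v).2 hf))

theorem OrdGE.dd' {v : Place K F} {t : F} (ht : v.ord t = 1) {n : ℤ} {f : F} (hf : OrdGE v n f) :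
    OrdGE v (n - 1) (Fermat.Agent.S27.dd (K := K) t f) := by
  have htt : Transcendental K t := transcendental_of_ord_ne_zero v (by rw [ht]; exact one_ne_zero)
  have ht0 : t ≠ 0 := Fermat.Agent.S24.FF.ne_zero_of_ord_ne_zero v (by rw [ht]; exact one_ne_zero)
  obtain ⟨g, hg, rfl⟩ := hf.exists_eq_mul ht
  rw [Derivation.leibniz, Derivation.leibniz_zpow, dd_self htt]
  simp only [smul_eq_mul, zsmul_eq_mul, mul_one]
  have h1 : OrdGE v n (t ^ n) := Or.inr (by rw [v.ord_zpow, ht, mul_one])
  have h2 : OrdGE v (n - 1) (t ^ (n - 1)) := Or.inr (by rw [v.ord_zpow, ht, mul_one])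
  have h3 : OrdGE v 0 ((n : F)) := by
    have : (n : F) = Algebra.algebraMap K F (n : K) := by simp
    rw [this]; exact OrdGE.algebraMap v _
  refine OrdGE.add ?_ ?_
  · have := h1.mul (OrdGE.dd ht hg)
    exact this.mono (by omega)
  · have := hg.mul (h3.mul h2)
    exact this.mono (by omega)

theorem D_eq_dd_smul {t : F} (ht : Transcendental K t) (f : F) :
    KaehlerDifferential.D K F f = dd (K := K) t f • KaehlerDifferential.D K F t := by
  haveI := finiteDimensional_adjoin ht
  obtain ⟨g, hg⟩ := Fermat.Agent.S24.FF.exists_eq_smul_D K t ht (KaehlerDifferential.D K F f)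
  have h := congrArg (dd (K := K) t).liftKaehlerDifferential hg
  rw [map_smul, Derivation.liftKaehlerDifferential_comp_D,
    Derivation.liftKaehlerDifferential_comp_D, dd_self ht] at h
  rw [hg, h]
  simp

theorem ord_dd {v : Place K F} {t : F} (ht : v.ord t = 1) {f : F} (hf : v.ord f ≠ 0) :
    v.ord (dd (K := K) t f) = v.ord f - 1 := by
  have htt : Transcendental K t := transcendental_of_ord_ne_zero v (by rw [ht]; exact one_ne_zero)
  haveI := finiteDimensional_adjoin htt
  exact Fermat.Agent.S24.FF.ord_of_D_eq_smul_D K t htt v ht hf (D_eq_dd_smul htt f)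

theorem ord_dd_unif {v : Place K F} {t s : F} (ht : v.ord t = 1) (hs : v.ord s = 1) :
    v.ord (dd (K := K) t s) = 0 := by
  rw [ord_dd ht (by rw [hs]; exact one_ne_zero), hs]; rfl

/-- `f = f(v) + t g` with `g` regular and `g(v) = (df/dt)(v)`. -/
theorem exists_taylor_one {v : Place K F} {t : F} (ht : v.ord t = 1) {f : F} (hf : OrdGE v 0 f) :
    ∃ g : F, OrdGE v 0 g ∧ f - algebraMap K F (val v f) = t * g ∧
      val v (dd (K := K) t f) = val v g := by
  have htt : Transcendental K t := transcendental_of_ord_ne_zero v (by rw [ht]; exact one_ne_zero)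
  obtain ⟨g, hg, hfg⟩ := (val_spec hf).exists_eq_mul ht
  rw [zpow_one] at hfg
  refine ⟨g, hg, hfg, ?_⟩
  have h1 : dd (K := K) t f = g + t * dd (K := K) t g := by
    have : dd (K := K) t f = dd (K := K) t (f - algebraMap K F (val v f)) := by
      rw [map_sub, Derivation.map_algebraMap, sub_zero]
    rw [this, hfg, Derivation.leibniz, dd_self htt]
    simp only [smul_eq_mul, mul_one]
    ring
  have h2 : OrdGE v 1 (t * dd (K := K) t g) := by
    have : OrdGE v 1 t := Or.inr ht.ge
    simpa using this.mul (OrdGE.dd ht hg)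
  rw [h1, val_add hg (h2.mono zero_le_one), (val_eq_zero_iff (h2.mono zero_le_one)).2 h2, add_zero]

/-- first order Taylor expansion -/
theorem taylor_two {v : Place K F} {t : F} (ht : v.ord t = 1) {f : F} (hf : OrdGE v 0 f) :
    OrdGE v 2 (f - algebraMap K F (val v f) - algebraMap K F (val v (dd (K := K) t f)) * t) := by
  obtain ⟨g, hg, hfg, hval⟩ := exists_taylor_one ht hf
  rw [hfg, hval]
  have h1 : t * g - algebraMap K F (val v g) * t = t * (g - algebraMap K F (val v g)) := by ring
  rw [h1]
  have h2 : OrdGE v 1 t := Or.inr ht.ge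
  exact h2.mul (val_spec hg)

/-- simple zero ⇔ nonvanishing derivative -/
theorem val_dd_ne_zero_iff {v : Place K F} {t : F} (ht : v.ord t = 1) {f : F} (hf : OrdGE v 1 f) :
    val v (dd (K := K) t f) ≠ 0 ↔ v.ord f = 1 := by
  have ht0 : t ≠ 0 := Fermat.Agent.S24.FF.ne_zero_of_ord_ne_zero v (by rw [ht]; exact one_ne_zero)
  obtain ⟨g, hg, hfg, hval⟩ := exists_taylor_one ht (hf.mono zero_le_one)
  rw [(val_eq_zero_iff (hf.mono zero_le_one)).2 hf, map_zero, sub_zero] at hfg
  rw [hval, val_ne_zero_iff hg]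
  constructor
  · rintro ⟨hg0, hg1⟩
    rw [hfg, v.ord_mul ht0 hg0, ht, hg1]; rfl
  · intro h
    have hg0 : g ≠ 0 := by
      rintro rfl
      rw [hfg, mul_zero, Place.ord_zero] at h
      exact zero_ne_one h
    refine ⟨hg0, ?_⟩
    rw [hfg, v.ord_mul ht0 hg0, ht] at h
    omega

/-! ### the order of `dx` -/

theorem ordDx_eq {x : F} (hx : Transcendental K x) {v : Place K F} {t : F} (ht : v.ord t = 1) :
    v.ord (dd (K := K) t x) = ordDx x v := by
  have htt : Transcendental K t := transcendental_of_ord_ne_zero v (by rw [ht]; exact one_ne_zero)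
  have hu : Transcendental K (unif v) :=
    transcendental_of_ord_ne_zero v (by rw [ord_unif]; exact one_ne_zero)
  rw [dd_chain htt hu x, v.ord_mul (dd_ne_zero hu hx) (dd_ne_zero htt hu),
    ord_dd_unif ht (ord_unif v), add_zero]
  rfl

theorem ordDx_of_pole {x : F} {v : Place K F} (h : v.ord x < 0) : ordDx x v = v.ord x - 1 :=
  ord_dd (ord_unif v) h.ne

theorem ordDx_of_regular {x : F} (hx : Transcendental K x) {v : Place K F} (h : 0 ≤ v.ord x) :
    ordDx x v = v.ord (x - algebraMap K F (val v x)) - 1 := by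
  have h1 : OrdGE v 1 (x - algebraMap K F (val v x)) := val_spec (Or.inr h)
  have h0 : x - algebraMap K F (val v x) ≠ 0 := by
    intro h0
    exact transcendental_iff.1 hx ⟨val v x, (sub_eq_zero.1 h0).symm⟩
  have h2 := (ordGE_iff h0).1 h1
  have h3 : dd (K := K) (unif v) x = dd (K := K) (unif v) (x - algebraMap K F (val v x)) := by
    rw [map_sub, Derivation.map_algebraMap, sub_zero]
  unfold ordDx
  rw [h3]
  exact ord_dd (ord_unif v) (by omega)

theorem ordDx_nonneg {x : F} (hx : Transcendental K x) {v : Place K F} (h : 0 ≤ v.ord x) :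
    0 ≤ ordDx x v := by
  have h1 : OrdGE v 1 (x - algebraMap K F (val v x)) := val_spec (Or.inr h)
  have h0 : x - algebraMap K F (val v x) ≠ 0 := by
    intro h0
    exact transcendental_iff.1 hx ⟨val v x, (sub_eq_zero.1 h0).symm⟩
  have h2 := (ordGE_iff h0).1 h1
  rw [ordDx_of_regular hx h]
  omega

theorem ordDx_change {x z : F} (hx : Transcendental K x) (hz : Transcendental K z) (v : Place K F) :
    ordDx z v = v.ord (dd (K := K) x z) + ordDx x v := by
  have hu : Transcendental K (unif v) :=
    transcendental_of_ord_ne_zero v (by rw [ord_unif]; exact one_ne_zero)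
  unfold ordDx
  rw [dd_chain hu hx z, v.ord_mul (dd_ne_zero hx hz) (dd_ne_zero hu hx)]

theorem finite_ord_ne_zero' (f : F) : {v : Place K F | v.ord f ≠ 0}.Finite := by
  obtain ⟨y, hy⟩ := exists_transcendental K F
  haveI := finiteDimensional_adjoin hy
  rcases eq_or_ne f 0 with rfl | hf
  · simp [Place.ord_zero]
  · exact Fermat.Agent.S24.FF.finite_ord_ne_zero K y hy hf

/-- if `x` and the `dd x sᵢ` are regular at `v` (`sᵢ` generators of the integral closure of `K[x]`)
then `dd x` preserves `O_v`. -/
theorem ordGE_dd_of_generators {x : F} (hx : Transcendental K x) [FiniteDimensional K⟮x⟯ F]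
    (s : Finset (Fermat.Agent.S24.FF.Sy K x))
    (hs : Submodule.span (Fermat.Agent.S24.FF.Ry K x) (s : Set (Fermat.Agent.S24.FF.Sy K x)) = ⊤)
    {v : Place K F} (hv : 0 ≤ v.ord x) (hsv : ∀ z ∈ s, OrdGE v 0 (dd (K := K) x (z : F)))
    {f : F} (hf : OrdGE v 0 f) : OrdGE v 0 (dd (K := K) x f) := by
  -- Step 1 : `K[x]`
  have h1 : ∀ r : Fermat.Agent.S24.FF.Ry K x, OrdGE v 0 (r : F) := fun r =>
    ordGE_zero_iff_mem.2 (Fermat.Agent.S24.FF.Ry_le K x v hv r)
  have h1' : ∀ r : Fermat.Agent.S24.FF.Ry K x, OrdGE v 0 (dd (K := K) x (r : F)) := by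
    intro r
    obtain ⟨p, hp⟩ := Fermat.Agent.S24.FF.exists_aeval_eq K x r
    rw [← hp, Derivation.map_aeval, dd_self hx, smul_eq_mul, mul_one]
    exact h1 (Fermat.Agent.S24.FF.polyToRy K x (Polynomial.derivative p))
  -- Step 2 : the integral closure
  have h2 : ∀ z : Fermat.Agent.S24.FF.Sy K x, OrdGE v 0 (z : F) := fun z =>
    Or.inr (Fermat.Agent.S24.FF.ord_nonneg_of_isIntegral K x v hv z.2)
  have h2' : ∀ z : Fermat.Agent.S24.FF.Sy K x, OrdGE v 0 (dd (K := K) x (z : F)) := by
    intro z
    have hz : z ∈ Submodule.span (Fermat.Agent.S24.FF.Ry K x)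
        (s : Set (Fermat.Agent.S24.FF.Sy K x)) := by rw [hs]; exact Submodule.mem_top
    induction hz using Submodule.span_induction with
    | mem z hz => exact hsv z hz
    | zero => left; simp
    | add a b _ _ ha hb =>
      have : ((a + b : Fermat.Agent.S24.FF.Sy K x) : F) = (a : F) + (b : F) := rfl
      rw [this, map_add]
      exact ha.add hb
    | smul r a _ ha =>
      have : ((r • a : Fermat.Agent.S24.FF.Sy K x) : F) = (r : F) * (a : F) := rfl
      rw [this, Derivation.leibniz]
      simp only [smul_eq_mul]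
      refine OrdGE.add ?_ ?_
      · simpa using (h1 r).mul ha
      · simpa using (h2 a).mul (h1' r)
  -- Step 3 : the local ring
  rcases hf with rfl | hf
  · left; simp
  obtain ⟨a, b, ha, hb, hb0, hbv, rfl⟩ := Fermat.Agent.S24.FF.exists_div_of_ord_nonneg K x v hv hf
  rw [Derivation.leibniz_div]
  simp only [smul_eq_mul]
  have hA := h2 ⟨a, ha⟩
  have hB := h2 ⟨b, hb⟩
  have hA' := h2' ⟨a, ha⟩
  have hB' := h2' ⟨b, hb⟩
  simp only at hA hB hA' hB'
  have hnum : OrdGE v 0 (b * dd (K := K) x a - a * dd (K := K) x b) := by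
    refine OrdGE.sub ?_ ?_
    · simpa using hB.mul hA'
    · simpa using hA.mul hB'
  have hden : OrdGE v 0 (b⁻¹ ^ 2) := by
    right
    rw [Fermat.Agent.S24.FF.ord_pow, Place.ord_inv, hbv]
    simp
  simpa using hden.mul hnum

theorem finite_ordDx_ne_zero {x : F} (hx : Transcendental K x) :
    {v : Place K F | ordDx x v ≠ 0}.Finite := by
  classical
  haveI := finiteDimensional_adjoin hx
  obtain ⟨s, hs⟩ := (Fermat.Agent.S24.FF.instFiniteSy K x).fg_top
  have hfin : ({v : Place K F | v.ord x ≠ 0} ∪
      ⋃ z ∈ s, {v : Place K F | v.ord (dd (K := K) x (z : F)) ≠ 0}).Finite :=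
    (finite_ord_ne_zero' x).union (Set.Finite.biUnion s.finite_toSet fun z _ => finite_ord_ne_zero' _)
  refine hfin.subset ?_
  intro v hv
  by_contra hcon
  simp only [Set.mem_union, Set.mem_ofPred_eq, Set.mem_iUnion, not_or, not_not, not_exists] at hcon
  obtain ⟨hvx, hvs⟩ := hcon
  apply hv
  have hu : Transcendental K (unif v) :=
    transcendental_of_ord_ne_zero v (by rw [ord_unif]; exact one_ne_zero)
  have h1 : OrdGE v 0 (dd (K := K) x (unif v)) :=
    ordGE_dd_of_generators hx s hs hvx.ge (fun z hz => Or.inr (hvs z hz).ge)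
      (Or.inr (by rw [ord_unif]; exact zero_le_one))
  have h2 := (ordGE_iff (dd_ne_zero hx hu)).1 h1
  have h3 := congrArg v.ord (dd_mul_dd hx hu)
  rw [v.ord_mul (dd_ne_zero hx hu) (dd_ne_zero hu hx), Place.ord_one] at h3
  have h4 := ordDx_nonneg hx hvx.ge
  unfold ordDx at h4 ⊢
  omega

/-- The divisor of the differential `dx`. -/
noncomputable def divDx {x : F} (hx : Transcendental K x) : Divisor K F :=
  Finsupp.ofSupportFinite (fun v => ordDx x v) (finite_ordDx_ne_zero hx)

@[simp] theorem divDx_apply {x : F} (hx : Transcendental K x) (v : Place K F) :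
    divDx hx v = ordDx x v := rfl

/-- `Ω(D) ≅ L(div dx - D)` (equality of subspaces of `F`). -/
theorem Omega_eq_LSpace {x : F} (hx : Transcendental K x) (D : Divisor K F) :
    Omega x D = LSpace (divDx hx - D) := by
  ext ω
  rw [mem_Omega, mem_LSpace]
  refine or_congr Iff.rfl (forall_congr' fun v => ?_)
  rw [Finsupp.sub_apply, divDx_apply]
  constructor <;> intro h <;> omega

/-- for `ω ∈ Ω(D)` and a uniformizer `t` at `v`, `ω dx/dt` has order `≥ D v` at `v`. -/
theorem ordGE_of_mem_Omega {x : F} (hx : Transcendental K x) {D : Divisor K F} {ω : F}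
    (hω : ω ∈ Omega x D) {v : Place K F} {t : F} (ht : v.ord t = 1) :
    OrdGE v (D v) (ω * dd (K := K) t x) := by
  have htt : Transcendental K t := transcendental_of_ord_ne_zero v (by rw [ht]; exact one_ne_zero)
  rcases hω with rfl | hω
  · left; simp
  by_cases h0 : ω = 0
  · left; simp [h0]
  right
  rw [v.ord_mul h0 (dd_ne_zero htt hx), ordDx_eq hx ht]
  exact hω v

end Fermat.Agent.S27
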