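import Fermat.Agent.S27.A.Residue
import Fermat.Agent.S27.A.Adele

/-! # S27 / A / Duality  (TASKS S27/A5*): Serre duality  `dim H¹(D) = dim Ω(D)`.

Notation: `A = repartitions K F`.  `J(D)` := `K`-linear forms on `A` vanishing on `A(D) + F` (`= (H1 D)^*`), `J = ⋃_D J(D)`, an
`F`-vector space via `(f λ)(α) = λ(f α)`; `f J(D) ⊆ J(D + div f)`.

* A5a (`Weil`): `dim_F J ≤ 1`.  If `λ, λ' ∈ J(D)` were `F`-independent, `L(Δ)² → J(D - Δ)`, `(f,g) ↦ f λ + g λ'` is injective; with
  `Δ = n P`: `2 ℓ(nP) ≥ 2 (n + 1 - g)` but `dim J(D - nP) = dim H1 (D - nP) = ℓ(D - nP) - deg D + n - 1 + g = n + const` for `n` large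
  (`rr_adelic`, `LSpace_eq_bot_of_degree_neg`).  Contradiction.
* A5b the residue pairing `θ ω α = ∑ᶠ v, resDx x v (α v * ω)`: well defined (finite support), `K`-bilinear,
  `θ (f ω) α = θ ω (f α)`, vanishes on principal adeles (`residue_theorem_finsum`), vanishes on `A(D)` if `ω ∈ Ω(D)`;
  conversely if `θ ω` vanishes on `A(D)` then `ω ∈ Ω(D)` (if `ord_v (ω dx) < D v` take `α` supported at `v` with
  `α_v = t^(-1 - ord_v(ω dx))`: it lies in `A(D)` and the residue is `≠ 0`); in particular `θ ω = 0 → ω = 0`.
* A5c conclusion: `θ : Ω(D) → J(D)` is injective; surjective because for `λ ∈ J(D)`, `λ ≠ 0`, and `θ 1 ≠ 0` there is `f` with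
  `λ = f • θ 1 = θ f` (A5a), and then `f ∈ Ω(D)` by A5b.  `dim H1 D = dim (H1 D)^* = dim J(D) = dim Ω(D)`. -/

set_option autoImplicit false

namespace Fermat.Agent.S27

open AlgebraicCurve Fermat.Agent.S26 IntermediateField

variable {K F : Type*} [Field K] [Field F] [Algebra K F]

namespace Duality

/-- the adele ring -/
abbrev Ad (K F : Type*) [Field K] [Field F] [Algebra K F] : Type _ := ↥(repartitions K F)

/-- the `F`-action on linear forms on the adeles: `(f λ)(α) = λ(f α)`, as a `K`-linear map in `f`. -/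
noncomputable def actL (l : Module.Dual K (Ad K F)) : F →ₗ[K] Module.Dual K (Ad K F) where
  toFun f := l ∘ₗ LinearMap.mulLeft K (algebraMap F (Ad K F) f)
  map_add' f g := by
    ext α
    simp [add_mul]
  map_smul' c f := by
    ext α
    simp only [LinearMap.comp_apply, LinearMap.mulLeft_apply, RingHom.id_apply,
      LinearMap.smul_apply]
    rw [← map_smul]
    congr 1
    rw [Algebra.smul_def c f, map_mul, ← IsScalarTower.algebraMap_apply, mul_assoc,
      ← Algebra.smul_def]

theorem actL_apply (l : Module.Dual K (Ad K F)) (f : F) (α : Ad K F) :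
    actL l f α = l (algebraMap F (Ad K F) f * α) := rfl

theorem coe_algebraMap_mul (f : F) (α : Ad K F) (v : Place K F) :
    ((algebraMap F (Ad K F) f * α : Ad K F) : Place K F → F) v = f * (α : Place K F → F) v := rfl

/-- `J(D)`: the linear forms vanishing on `A(D) + F`. -/
noncomputable def J (D : Divisor K F) : Submodule K (Module.Dual K (Ad K F)) :=
  (repartitionsOf D ⊔ principalRepartitions K F).dualAnnihilator

theorem mem_J {D : Divisor K F} {l : Module.Dual K (Ad K F)} :
    l ∈ J D ↔ (∀ α ∈ repartitionsOf D, l α = 0) ∧ ∀ α ∈ principalRepartitions K F, l α = 0 := by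
  rw [J, Submodule.dualAnnihilator_sup_eq, Submodule.mem_inf, Submodule.mem_dualAnnihilator,
    Submodule.mem_dualAnnihilator]

theorem J_anti {D D' : Divisor K F} (h : D' ≤ D) : J D ≤ J D' := by
  intro l hl
  rw [mem_J] at hl ⊢
  exact ⟨fun α hα => hl.1 α (repartitionsOf_mono h hα), hl.2⟩

theorem algebraMap_mul_mem_principal (f : F) {α : Ad K F} (hα : α ∈ principalRepartitions K F) :
    algebraMap F (Ad K F) f * α ∈ principalRepartitions K F := by
  rw [mem_principalRepartitions_iff] at hα ⊢
  obtain ⟨g, hg⟩ := hα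
  exact ⟨f * g, by funext v; rw [coe_algebraMap_mul, hg]⟩

/-- `L(Δ) J(D) ⊆ J(D - Δ)` -/
theorem actL_mem_J {D Δ : Divisor K F} {l : Module.Dual K (Ad K F)} (hl : l ∈ J D) {f : F}
    (hf : f ∈ LSpace Δ) : actL l f ∈ J (D - Δ) := by
  rw [mem_J] at hl ⊢
  refine ⟨fun α hα => ?_, fun α hα => hl.2 _ (algebraMap_mul_mem_principal f hα)⟩
  rw [actL_apply]
  apply hl.1
  rw [mem_repartitionsOf_iff] at hα ⊢
  intro v
  rw [coe_algebraMap_mul]
  rcases eq_or_ne f 0 with rfl | hf0
  · left; simp
  rcases hα v with h | h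
  · left; rw [h, mul_zero]
  by_cases hα0 : (α : Place K F → F) v = 0
  · left; rw [hα0, mul_zero]
  right
  rw [v.ord_mul hf0 hα0]
  have h1 := (hf.resolve_left hf0) v
  rw [Finsupp.sub_apply] at h
  omega

theorem finrank_J [IsAlgClosed K] [CharZero K] [FF1 K F] (D : Divisor K F) :
    Module.finrank K (J D) = Module.finrank K (H1 D) := by
  have := finite_H1 D
  rw [J, ← (Submodule.dualQuotEquivDualAnnihilator
    (repartitionsOf D ⊔ principalRepartitions K F)).finrank_eq, Subspace.dual_finrank_eq]

theorem finite_J [IsAlgClosed K] [CharZero K] [FF1 K F] (D : Divisor K F) :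
    Module.Finite K (J D) := by
  have := finite_H1 D
  exact Module.Finite.equiv (Submodule.dualQuotEquivDualAnnihilator
    (repartitionsOf D ⊔ principalRepartitions K F))

/-- A5a (Weil): the space of Weil differentials has dimension `≤ 1` over `F`. -/
theorem exists_dependence [IsAlgClosed K] [CharZero K] [FF1 K F] (D : Divisor K F)
    (l l' : Module.Dual K (Ad K F)) (hl : l ∈ J D) (hl' : l' ∈ J D) :
    ∃ f g : F, (f ≠ 0 ∨ g ≠ 0) ∧ actL l f + actL l' g = 0 := by
  by_contra hcon
  push Not at hcon
  obtain ⟨P⟩ : Nonempty (Place K F) := (infinite_place K F).nonempty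
  set n : ℕ := (Divisor.degree D).natAbs + 3 * genusFF K F + 1 with hn
  set Δ : Divisor K F := Finsupp.single P (n : ℤ) with hΔ
  have hdegΔ : Divisor.degree Δ = n := by
    rw [hΔ, Divisor.degree_single, deg_eq_one]; simp
  let Φ : (LSpace Δ × LSpace Δ) →ₗ[K] J (D - Δ) :=
    LinearMap.codRestrict (J (D - Δ))
      ((actL l ∘ₗ (LSpace Δ).subtype).coprod (actL l' ∘ₗ (LSpace Δ).subtype))
      (by
        rintro ⟨f, g⟩
        exact add_mem (actL_mem_J hl f.2) (actL_mem_J hl' g.2))
  have hΦ : Function.Injective Φ := by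
    rw [injective_iff_map_eq_zero]
    rintro ⟨f, g⟩ h
    have h1 : actL l (f : F) + actL l' (g : F) = 0 := congrArg Subtype.val h
    by_contra hne
    have h2 : (f : F) ≠ 0 ∨ (g : F) ≠ 0 := by
      by_contra h3
      push Not at h3
      apply hne
      ext
      · exact h3.1
      · exact h3.2
    exact hcon _ _ h2 h1
  have := finite_J (D - Δ)
  have := finite_LSpace (Ω := K) Δ
  have h1 := LinearMap.finrank_le_finrank_of_injective hΦ
  rw [Module.finrank_prod, finrank_J] at h1
  have h2 := rr_adelic (D - Δ)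
  have h3 := rr_adelic Δ
  have h4 : LSpace (D - Δ) = ⊥ := by
    apply LSpace_eq_bot_of_degree_neg
    rw [map_sub, hdegΔ]
    have := le_abs_self (Divisor.degree D)
    push_cast [hn]
    omega
  rw [h4, finrank_bot, map_sub, hdegΔ] at h2
  rw [hdegΔ] at h3
  have h5 := neg_le_abs (Divisor.degree D)
  have h6 := le_abs_self (Divisor.degree D)
  push_cast [hn] at h2 h3
  omega

section Residue

variable [IsAlgClosed K] [CharZero K] [FF1 K F]

theorem finite_support_res {x : F} (hx : Transcendental K x) (α : Ad K F) :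
    (Function.support fun v : Place K F => resDx x v ((α : Place K F → F) v)).Finite := by
  refine (((mem_repartitions_iff _).mp α.2).union (finite_ordDx_ne_zero hx)).subset ?_
  intro v hv
  by_contra hcon
  simp only [Set.mem_union, Set.mem_ofPred_eq, not_or, not_lt, not_not] at hcon
  apply hv
  exact resDx_of_regular (Or.inr (by omega))

/-- A5b: the residue form `α ↦ ∑_v res_v (α_v dx)`. -/
noncomputable def resForm {x : F} (hx : Transcendental K x) : Module.Dual K (Ad K F) where
  toFun α := ∑ᶠ v : Place K F, resDx x v ((α : Place K F → F) v)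
  map_add' α β := by
    rw [← finsum_add_distrib (finite_support_res hx α) (finite_support_res hx β)]
    refine finsum_congr fun v => ?_
    exact resDx_add x v _ _
  map_smul' c α := by
    rw [RingHom.id_apply, smul_eq_mul, mul_finsum' _ _ (finite_support_res hx α)]
    refine finsum_congr fun v => ?_
    exact resDx_smul x v c _

theorem resForm_apply {x : F} (hx : Transcendental K x) (α : Ad K F) :
    resForm hx α = ∑ᶠ v : Place K F, resDx x v ((α : Place K F → F) v) := rfl

theorem actL_resForm_apply {x : F} (hx : Transcendental K x) (ω : F) (α : Ad K F) :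
    actL (resForm hx) ω α = ∑ᶠ v : Place K F, resDx x v (ω * (α : Place K F → F) v) := rfl

theorem resForm_principal {x : F} (hx : Transcendental K x) {α : Ad K F}
    (hα : α ∈ principalRepartitions K F) : resForm hx α = 0 := by
  rw [mem_principalRepartitions_iff] at hα
  obtain ⟨f, hf⟩ := hα
  rw [resForm_apply, hf]
  exact residue_theorem_finsum hx f

theorem actL_resForm_mem_J {x : F} (hx : Transcendental K x) {D : Divisor K F} {ω : F}
    (hω : ω ∈ Omega x D) : actL (resForm hx) ω ∈ J D := by
  rw [mem_J]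
  refine ⟨fun α hα => ?_, fun α hα => resForm_principal hx (algebraMap_mul_mem_principal ω hα)⟩
  rw [actL_resForm_apply]
  apply finsum_eq_zero_of_forall_eq_zero
  intro v
  apply resDx_of_regular
  rw [mem_repartitionsOf_iff] at hα
  rcases eq_or_ne ω 0 with rfl | hω0
  · left; simp
  by_cases hα0 : (α : Place K F → F) v = 0
  · left; rw [hα0, mul_zero]
  right
  rw [v.ord_mul hω0 hα0]
  have h1 := (hω.resolve_left hω0) v
  have h2 := (hα v).resolve_left hα0
  omega

theorem resDx_zero (x : F) (v : Place K F) : resDx x v 0 = 0 := resDx_of_regular (Or.inl rfl)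

theorem mem_Omega_of_vanish {x : F} (hx : Transcendental K x) {D : Divisor K F} {ω : F}
    (h : ∀ α ∈ repartitionsOf D, actL (resForm hx) ω α = 0) : ω ∈ Omega x D := by
  classical
  rcases eq_or_ne ω 0 with rfl | hω0
  · exact Or.inl rfl
  right
  intro v
  by_contra hlt
  rw [not_le] at hlt
  set t := unif v with ht
  have hordt : v.ord t = 1 := ord_unif v
  have ht0 : t ≠ 0 := Fermat.Agent.S24.FF.ne_zero_of_ord_ne_zero v (by rw [hordt]; exact one_ne_zero)
  have httr : Transcendental K t := transcendental_of_ord_ne_zero v (by rw [hordt]; exact one_ne_zero)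
  set m := v.ord ω + ordDx x v with hm
  set a : F := t ^ (-1 - m) with ha
  have ha0 : a ≠ 0 := zpow_ne_zero _ ht0
  have horda : v.ord a = -1 - m := by rw [ha, v.ord_zpow, hordt, mul_one]
  have hmem : (Pi.single v a : Place K F → F) ∈ repartitions K F := by
    apply mem_repartitions_of_finite_ord
    refine (Set.finite_singleton v).subset fun w hw => ?_
    by_contra hne
    have hne' : w ≠ v := hne
    simp only [Set.mem_ofPred_eq, Pi.single_eq_of_ne hne', Place.ord_zero, lt_self_iff_false] at hw
  have hαD : (⟨Pi.single v a, hmem⟩ : Ad K F) ∈ repartitionsOf D := by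
    rw [mem_repartitionsOf_iff]
    intro w
    by_cases hw : w = v
    · subst hw
      right
      simp only [Pi.single_eq_same]
      omega
    · left
      simp only [Pi.single_eq_of_ne hw]
  have h1 := h _ hαD
  rw [actL_resForm_apply, finsum_eq_single _ v (fun w hw => by
    simp only [Pi.single_eq_of_ne hw, mul_zero]; exact resDx_zero x w)] at h1
  simp only [Pi.single_eq_same] at h1
  have hdd0 : dd (K := K) t x ≠ 0 := dd_ne_zero httr hx
  have h2 : resDx x v (ω * a) = res v t (ω * a * dd (K := K) t x) := rfl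
  have hord : v.ord (ω * a * dd (K := K) t x) = -1 := by
    rw [v.ord_mul (mul_ne_zero hω0 ha0) hdd0, v.ord_mul hω0 ha0, horda]
    have : v.ord (dd (K := K) t x) = ordDx x v := rfl
    rw [this]
    omega
  have hne : ω * a * dd (K := K) t x ≠ 0 := mul_ne_zero (mul_ne_zero hω0 ha0) hdd0
  rw [h2, res_simple hordt (Or.inr hord.ge)] at h1
  have hord' : v.ord (t * (ω * a * dd (K := K) t x)) = 0 := by
    rw [v.ord_mul ht0 hne, hordt, hord]; norm_num
  exact (val_ne_zero_iff (Or.inr hord'.ge)).mpr ⟨mul_ne_zero ht0 hne, hord'⟩ h1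

theorem eq_zero_of_actL_resForm_eq_zero {x : F} (hx : Transcendental K x) {ω : F}
    (h : actL (resForm hx) ω = 0) : ω = 0 := by
  obtain ⟨v⟩ : Nonempty (Place K F) := (infinite_place K F).nonempty
  have h1 : ω ∈ Omega x (Finsupp.single v (v.ord ω + ordDx x v + 1)) :=
    mem_Omega_of_vanish hx (fun α _ => by rw [h]; rfl)
  rcases h1 with h1 | h1
  · exact h1
  · have := h1 v
    rw [Finsupp.single_eq_same] at this
    omega

end Residue

end Duality

variable [IsAlgClosed K] [CharZero K] [FF1 K F]

open Duality in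
theorem finrank_H1_eq_finrank_Omega {x : F} (hx : Transcendental K x) (D : Divisor K F) :
    Module.finrank K (H1 D) = Module.finrank K (Omega x D) := by
  rw [← finrank_J]
  let Θ : Omega x D →ₗ[K] J D :=
    LinearMap.codRestrict (J D) (actL (resForm hx) ∘ₗ (Omega x D).subtype)
      (fun ω => actL_resForm_mem_J hx ω.2)
  have hinj : Function.Injective Θ := by
    rw [injective_iff_map_eq_zero]
    intro ω hω
    have h1 : actL (resForm hx) (ω : F) = 0 := congrArg Subtype.val hω
    exact Subtype.ext (eq_zero_of_actL_resForm_eq_zero hx h1)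
  have hsurj : Function.Surjective Θ := by
    rintro ⟨l, hl⟩
    have hl' : l ∈ J (D ⊓ divDx hx) := J_anti inf_le_left hl
    have hone : (1 : F) ∈ Omega x (divDx hx) := by
      right
      intro v
      rw [divDx_apply, Place.ord_one, zero_add]
    have h₀ : actL (resForm hx) 1 ∈ J (D ⊓ divDx hx) :=
      J_anti inf_le_right (actL_resForm_mem_J hx hone)
    have hact1 : actL (resForm hx) 1 = resForm hx := by
      ext α
      rw [actL_apply, map_one, one_mul]
    rw [hact1] at h₀
    obtain ⟨f, g, hfg, hdep⟩ := exists_dependence _ _ _ h₀ hl'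
    have hg : g ≠ 0 := by
      rintro rfl
      rw [map_zero, add_zero] at hdep
      have := eq_zero_of_actL_resForm_eq_zero hx hdep
      rcases hfg with h | h
      · exact h this
      · exact h rfl
    have hω : actL (resForm hx) (-(f * g⁻¹)) = l := by
      ext α
      have h1 : l α = actL l g (algebraMap F (Ad K F) g⁻¹ * α) := by
        rw [actL_apply, ← mul_assoc, ← map_mul, mul_inv_cancel₀ hg, map_one, one_mul]
      have h2 : actL l g = - actL (resForm hx) f := eq_neg_of_add_eq_zero_right hdep
      rw [h1, h2, map_neg, LinearMap.neg_apply, LinearMap.neg_apply, actL_apply, actL_apply,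
        ← mul_assoc, ← map_mul]
    have hmem : -(f * g⁻¹) ∈ Omega x D := by
      apply mem_Omega_of_vanish hx
      intro α hα
      rw [hω]
      exact (mem_J.mp hl).1 α hα
    exact ⟨⟨_, hmem⟩, Subtype.ext hω⟩
  exact (LinearEquiv.ofBijective Θ ⟨hinj, hsurj⟩).finrank_eq.symm

end Fermat.Agent.S27
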