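import Fermat.Agent.S27.A.ExpandHom

/-! # S27 / A / Expand  (TASKS S27/A2*): Laurent expansion at a place, residues, local calculus.

**Construction of `Λ`** (`exists_expand`).  Let `δ = dd t`, `O = O_v`.  `δ O ⊆ O` (`OrdGE.dd`).
`T : O → K⟦X⟧`, `T f = ∑ k, val v (δ^k f) / k! · X^k` is a `K`-algebra hom (Leibniz rule for `δ^k (f g)`, `val` is a ring hom on `O`),
`T t = X`, injective; if `f = t^m u`, `u` a unit, then `T f = X^m T u` with `T u` of nonzero constant coefficient.
`F = Frac O`, extend to `Λ : F → K⸨X⸩`.  `T (δ f) = d/dX (T f)` is immediate from the formula, and extends to `F` by the quotient rule.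

**Residue** `res v t f` = coefficient of `X⁻¹` of `Λ f`  ("`res_v (f dt)`"). -/

set_option autoImplicit false

namespace Fermat.Agent.S27

open AlgebraicCurve Fermat.Agent.S26 IntermediateField

variable {K F : Type*} [Field K] [Field F] [Algebra K F] [IsAlgClosed K] [CharZero K] [FF1 K F]

open Classical in
/-- `res_v (f dt)`, `t` a uniformizer at `v`. -/
noncomputable def res (v : Place K F) (t : F) (f : F) : K :=
  if ht : v.ord t = 1 then ((exists_expand v t ht).choose f).coeff (-1) else 0

/-- the chosen expansion -/
noncomputable def Lam (v : Place K F) (t : F) (ht : v.ord t = 1) : F →ₐ[K] LaurentSeries K :=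
  (exists_expand v t ht).choose

theorem Lam_t (v : Place K F) (t : F) (ht : v.ord t = 1) : Lam v t ht t = HahnSeries.single 1 1 :=
  (exists_expand v t ht).choose_spec.1

theorem order_Lam (v : Place K F) (t : F) (ht : v.ord t = 1) {f : F} (hf : f ≠ 0) :
    (Lam v t ht f).order = v.ord f :=
  (exists_expand v t ht).choose_spec.2.1 f hf

theorem coeff_Lam_dd (v : Place K F) (t : F) (ht : v.ord t = 1) (f : F) (n : ℤ) :
    (Lam v t ht (dd (K := K) t f)).coeff n = ((n : K) + 1) * (Lam v t ht f).coeff (n + 1) :=
  (exists_expand v t ht).choose_spec.2.2 f n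

theorem res_eq (v : Place K F) (t : F) (ht : v.ord t = 1) (f : F) :
    res v t f = (Lam v t ht f).coeff (-1) := by
  unfold res Lam
  rw [dif_pos ht]

theorem res_of_not (v : Place K F) (t : F) (ht : ¬ v.ord t = 1) (f : F) : res v t f = 0 := by
  unfold res
  rw [dif_neg ht]

theorem coeff_Lam_eq_zero {v : Place K F} {t : F} (ht : v.ord t = 1) {n m : ℤ} {f : F}
    (hf : OrdGE v n f) (hm : m < n) : (Lam v t ht f).coeff m = 0 := by
  rcases hf with rfl | hf
  · simp
  · by_cases hf0 : f = 0
    · simp [hf0]
    · apply HahnSeries.coeff_eq_zero_of_lt_order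
      rw [order_Lam v t ht hf0]
      omega

omit [IsAlgClosed K] [CharZero K] in
theorem algebraMap_laurent (c : K) :
    algebraMap K (LaurentSeries K) c = HahnSeries.single 0 c := by
  rw [HahnSeries.algebraMap_apply', PowerSeries.algebraMap_apply]
  simp

theorem coeff_zero_Lam {v : Place K F} {t : F} (ht : v.ord t = 1) {f : F} (hf : OrdGE v 0 f) :
    (Lam v t ht f).coeff 0 = val v f := by
  have h1 := coeff_Lam_eq_zero ht (val_spec hf) (m := 0) one_pos
  rw [map_sub, HahnSeries.coeff_sub, AlgHom.commutes, sub_eq_zero] at h1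
  rw [h1, algebraMap_laurent]
  simp

theorem res_add (v : Place K F) (t f g : F) : res v t (f + g) = res v t f + res v t g := by
  by_cases ht : v.ord t = 1
  · rw [res_eq v t ht, res_eq v t ht, res_eq v t ht, map_add, HahnSeries.coeff_add]
  · simp [res_of_not v t ht]

theorem res_smul (v : Place K F) (t : F) (c : K) (f : F) : res v t (c • f) = c * res v t f := by
  by_cases ht : v.ord t = 1
  · rw [res_eq v t ht, res_eq v t ht, Algebra.smul_def, map_mul, AlgHom.commutes,
      algebraMap_laurent, HahnSeries.coeff_single_mul, sub_zero]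
  · simp [res_of_not v t ht]

theorem res_sum (v : Place K F) (t : F) {ι : Type*} (s : Finset ι) (f : ι → F) :
    res v t (∑ i ∈ s, f i) = ∑ i ∈ s, res v t (f i) := by
  classical
  induction s using Finset.induction_on with
  | empty =>
    have := res_smul v t 0 0
    simpa using this
  | insert a s ha ih => rw [Finset.sum_insert ha, Finset.sum_insert ha, res_add, ih]

theorem res_neg (v : Place K F) (t f : F) : res v t (-f) = - res v t f := by
  have := res_smul v t (-1) f
  simpa using this

theorem res_sub (v : Place K F) (t f g : F) : res v t (f - g) = res v t f - res v t g := by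
  rw [sub_eq_add_neg, res_add, res_neg, sub_eq_add_neg]

theorem res_of_regular {v : Place K F} {t f : F} (hf : OrdGE v 0 f) : res v t f = 0 := by
  by_cases ht : v.ord t = 1
  · rw [res_eq v t ht]
    exact coeff_Lam_eq_zero ht hf (by norm_num)
  · exact res_of_not v t ht f

theorem res_simple {v : Place K F} {t f : F} (ht : v.ord t = 1) (hf : OrdGE v (-1) f) :
    res v t f = val v (t * f) := by
  have ht1 : OrdGE v 1 t := Or.inr ht.ge
  have h1 : OrdGE v 0 (t * f) := by simpa using ht1.mul hf
  rw [res_eq v t ht, ← coeff_zero_Lam ht h1, map_mul, Lam_t]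
  have := HahnSeries.coeff_single_mul_add (r := (1 : K)) (x := Lam v t ht f) (a := (-1 : ℤ)) (b := 1)
  simpa using this.symm

theorem res_dd (v : Place K F) (t h : F) : res v t (dd (K := K) t h) = 0 := by
  by_cases ht : v.ord t = 1
  · rw [res_eq v t ht, coeff_Lam_dd]
    simp
  · exact res_of_not v t ht _

theorem res_dlog {v : Place K F} {t g : F} (ht : v.ord t = 1) (hg : g ≠ 0) :
    res v t (dd (K := K) t g / g) = (v.ord g : K) := by
  have ht0 : t ≠ 0 := Fermat.Agent.S24.FF.ne_zero_of_ord_ne_zero v (by rw [ht]; exact one_ne_zero)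
  have htr : Transcendental K t := transcendental_of_ord_ne_zero v (by rw [ht]; exact one_ne_zero)
  obtain ⟨u, hu, hgu⟩ := OrdGE.exists_eq_mul ht (n := v.ord g) (f := g) (Or.inr le_rfl)
  have hu0 : u ≠ 0 := by
    rintro rfl
    exact hg (by rw [hgu, mul_zero])
  have hordu : v.ord u = 0 := by
    have := congrArg v.ord hgu
    rw [v.ord_mul (zpow_ne_zero _ ht0) hu0, v.ord_zpow, ht] at this
    omega
  set m := v.ord g with hm
  have e : dd (K := K) t g / g = algebraMap K F (m : K) * t⁻¹ + dd (K := K) t u * u⁻¹ := by
    rw [hgu, Derivation.leibniz, Derivation.leibniz_zpow, dd_self htr]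
    have hz : t ^ (m - 1) = t ^ m * t⁻¹ := by rw [zpow_sub₀ ht0, zpow_one, div_eq_mul_inv]
    have hz0 : t ^ m ≠ 0 := zpow_ne_zero _ ht0
    rw [hz]
    simp only [smul_eq_mul, zsmul_eq_mul, mul_one, map_intCast]
    field_simp
    ring
  rw [e, res_add]
  have h1 : res v t (algebraMap K F (m : K) * t⁻¹) = (m : K) := by
    rw [res_simple ht]
    · rw [show t * (algebraMap K F (m : K) * t⁻¹) = algebraMap K F (m : K) by field_simp]
      exact val_algebraMap v _
    · have h2 : OrdGE v (-1) t⁻¹ := Or.inr (by rw [v.ord_inv, ht])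
      simpa using (OrdGE.algebraMap v (m : K)).mul h2
  have h2 : res v t (dd (K := K) t u * u⁻¹) = 0 := by
    apply res_of_regular
    have h3 : OrdGE v 0 u⁻¹ := Or.inr (by rw [v.ord_inv, hordu, neg_zero])
    simpa using (OrdGE.dd ht hu).mul h3
  rw [h1, h2, add_zero]

/-- polar part = `c/t` + exact (characteristic zero). -/
theorem exists_polar_primitive {v : Place K F} {t : F} (ht : v.ord t = 1) (f : F) :
    ∃ h : F, OrdGE v 0 (f - algebraMap K F (res v t f) * t⁻¹ - dd (K := K) t h) := by
  have ht0 : t ≠ 0 := Fermat.Agent.S24.FF.ne_zero_of_ord_ne_zero v (by rw [ht]; exact one_ne_zero)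
  have htr : Transcendental K t := transcendental_of_ord_ne_zero v (by rw [ht]; exact one_ne_zero)
  have ht1 : OrdGE v 1 t := Or.inr ht.ge
  have hti : OrdGE v (-1) t⁻¹ := Or.inr (by rw [v.ord_inv, ht])
  have key : ∀ n : ℕ, ∀ f : F, OrdGE v (-((n : ℤ) + 1)) f →
      ∃ h : F, OrdGE v 0 (f - algebraMap K F (res v t f) * t⁻¹ - dd (K := K) t h) := by
    intro n
    induction n with
    | zero =>
      intro f hf
      refine ⟨0, ?_⟩
      have hf' : OrdGE v (-1) f := by simpa using hf
      have h1 : OrdGE v 0 (t * f) := by simpa using ht1.mul hf'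
      rw [res_simple ht hf', map_zero, sub_zero]
      have h2 := hti.mul (val_spec h1)
      have e : t⁻¹ * (t * f - algebraMap K F (val v (t * f))) =
          f - algebraMap K F (val v (t * f)) * t⁻¹ := by field_simp
      rw [e] at h2
      simpa using h2
    | succ n ih =>
      intro f hf
      -- leading polar coefficient
      have hpow : OrdGE v ((n : ℤ) + 2) (t ^ (n + 2)) := by
        have := ht1.pow (n + 2)
        simpa using this
      have h1 : OrdGE v 0 (t ^ (n + 2) * f) := by
        have := hpow.mul hf
        push_cast at this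
        convert this using 1
        ring
      set c := val v (t ^ (n + 2) * f) with hc
      have hn : ((n : K) + 1) ≠ 0 := by exact_mod_cast Nat.succ_ne_zero n
      set h₀ : F := algebraMap K F (-c / ((n : K) + 1)) * t ^ (-((n : ℤ) + 1)) with hh₀
      have hd : dd (K := K) t h₀ = algebraMap K F c * t ^ (-((n : ℤ) + 2)) := by
        rw [hh₀, Derivation.leibniz, Derivation.map_algebraMap, Derivation.leibniz_zpow,
          dd_self htr]
        have e1 : (-((n : ℤ) + 1) - 1) = -((n : ℤ) + 2) := by ring
        rw [e1]
        simp only [smul_eq_mul, zsmul_eq_mul, mul_one, mul_zero, add_zero]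
        have e2 : algebraMap K F (-c / ((n : K) + 1)) * (((-((n : ℤ) + 1) : ℤ) : F)) =
            algebraMap K F c := by
          have : (((-((n : ℤ) + 1) : ℤ) : F)) = algebraMap K F (-((n : K) + 1)) := by
            push_cast
            simp
          rw [this, ← map_mul]
          congr 1
          field_simp
        rw [← mul_assoc, e2]
      have h2 : OrdGE v (-((n : ℤ) + 1)) (f - dd (K := K) t h₀) := by
        have hz : OrdGE v (-((n : ℤ) + 2)) (t ^ (-((n : ℤ) + 2))) :=
          Or.inr (by rw [v.ord_zpow, ht, mul_one])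
        have h3 := hz.mul (val_spec h1)
        have e : t ^ (-((n : ℤ) + 2)) * (t ^ (n + 2) * f - algebraMap K F c) =
            f - dd (K := K) t h₀ := by
          rw [hd, mul_sub, ← mul_assoc, ← zpow_natCast, ← zpow_add₀ ht0]
          push_cast
          rw [neg_add_cancel, zpow_zero, one_mul, mul_comm]
        rw [e] at h3
        convert h3 using 1
        ring
      obtain ⟨h', hh'⟩ := ih _ h2
      refine ⟨h₀ + h', ?_⟩
      rw [res_sub, res_dd, sub_zero] at hh'
      rw [map_add]
      convert hh' using 1
      ring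
  by_cases hf : f = 0
  · refine ⟨0, Or.inl ?_⟩
    have : res v t (0 : F) = 0 := res_of_regular (OrdGE.zero v 0)
    simp [hf, this]
  · refine key (-v.ord f).toNat f (Or.inr ?_)
    have := Int.self_le_toNat (-v.ord f)
    omega

/-- independence of the uniformizer -/
theorem res_change {v : Place K F} {t s : F} (ht : v.ord t = 1) (hs : v.ord s = 1) (f : F) :
    res v t (f * dd (K := K) t s) = res v s f := by
  have htr : Transcendental K t := transcendental_of_ord_ne_zero v (by rw [ht]; exact one_ne_zero)
  have hsr : Transcendental K s := transcendental_of_ord_ne_zero v (by rw [hs]; exact one_ne_zero)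
  have hs0 : s ≠ 0 := Fermat.Agent.S24.FF.ne_zero_of_ord_ne_zero v (by rw [hs]; exact one_ne_zero)
  obtain ⟨h, hh⟩ := exists_polar_primitive hs f
  set ρ := f - algebraMap K F (res v s f) * s⁻¹ - dd (K := K) s h with hρ
  have e : f * dd (K := K) t s = (res v s f) • (dd (K := K) t s / s) + dd (K := K) t h +
      ρ * dd (K := K) t s := by
    rw [dd_chain htr hsr h, hρ, Algebra.smul_def]
    field_simp
    ring
  have hs1 : OrdGE v 0 s := Or.inr (by rw [hs]; exact zero_le_one)
  have h5 : res v t (ρ * dd (K := K) t s) = 0 :=
    res_of_regular (by simpa using hh.mul (OrdGE.dd ht hs1))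
  rw [e, res_add, res_add, res_smul, res_dlog ht hs0, res_dd, hs, h5]
  simp

/-- `res_v (f dx)`. -/
noncomputable def resDx (x : F) (v : Place K F) (f : F) : K :=
  res v (unif v) (f * dd (K := K) (unif v) x)

theorem resDx_eq {x : F} (hx : Transcendental K x) {v : Place K F} {t : F} (ht : v.ord t = 1) (f : F) :
    resDx x v f = res v t (f * dd (K := K) t x) := by
  have hu := ord_unif v
  have hur : Transcendental K (unif v) :=
    transcendental_of_ord_ne_zero v (by rw [hu]; exact one_ne_zero)
  have htr : Transcendental K t := transcendental_of_ord_ne_zero v (by rw [ht]; exact one_ne_zero)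
  unfold resDx
  rw [← res_change ht hu, mul_assoc, ← dd_chain htr hur]

theorem resDx_add (x : F) (v : Place K F) (f g : F) : resDx x v (f + g) = resDx x v f + resDx x v g := by
  unfold resDx
  rw [add_mul, res_add]

theorem resDx_smul (x : F) (v : Place K F) (c : K) (f : F) : resDx x v (c • f) = c * resDx x v f := by
  unfold resDx
  rw [smul_mul_assoc, res_smul]

theorem resDx_of_regular {x : F} {v : Place K F} {f : F} (hf : f = 0 ∨ 0 ≤ v.ord f + ordDx x v) :
    resDx x v f = 0 := by
  unfold resDx
  apply res_of_regular
  rcases hf with rfl | hf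
  · exact Or.inl (zero_mul _)
  · by_cases hf0 : f = 0
    · exact Or.inl (by rw [hf0, zero_mul])
    by_cases hd : dd (K := K) (unif v) x = 0
    · exact Or.inl (by rw [hd, mul_zero])
    · exact Or.inr (by rw [v.ord_mul hf0 hd]; exact hf)

/-- change of the variable: `f dz = f (dz/dx) dx`. -/
theorem resDx_change {x z : F} (hx : Transcendental K x) (hz : Transcendental K z) (v : Place K F)
    (f : F) : resDx z v f = resDx x v (f * dd (K := K) x z) := by
  have hu := ord_unif v
  have hur : Transcendental K (unif v) :=
    transcendental_of_ord_ne_zero v (by rw [hu]; exact one_ne_zero)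
  unfold resDx
  rw [mul_assoc, ← dd_chain hur hx]

/-- exact differentials have no residues -/
theorem resDx_dd {x : F} (hx : Transcendental K x) (v : Place K F) (h : F) :
    resDx x v (dd (K := K) x h) = 0 := by
  have hu := ord_unif v
  have hur : Transcendental K (unif v) :=
    transcendental_of_ord_ne_zero v (by rw [hu]; exact one_ne_zero)
  unfold resDx
  rw [← dd_chain hur hx, res_dd]

theorem resDx_dlog {x : F} (hx : Transcendental K x) (v : Place K F) {g : F} (hg : g ≠ 0) :
    resDx x v (dd (K := K) x g / g) = (v.ord g : K) := by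
  have hu := ord_unif v
  have hur : Transcendental K (unif v) :=
    transcendental_of_ord_ne_zero v (by rw [hu]; exact one_ne_zero)
  unfold resDx
  rw [div_mul_eq_mul_div, ← dd_chain hur hx, res_dlog hu hg]

end Fermat.Agent.S27
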