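import Fermat.Agent.S27.A.Deriv

/-! # S27 / A / ExpandHom  (TASK S27/A2a): Laurent expansion at a place.

`IsExp v t f s`: the power series `s` is the `t`-adic expansion of `f ∈ O_v`, i.e.
`f ≡ (trunc n s)(t) mod t^n` for all `n`.  Existence by successive division, uniqueness, compatibility
with `+`, `*`, constants, `t ↦ X` and `d/dt`.  This gives an injective ring hom `O_v → K⟦X⟧`, which is
extended to `F = Frac O_v`. -/

set_option autoImplicit false

namespace Fermat.Agent.S27

open AlgebraicCurve Fermat.Agent.S26 IntermediateField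

variable {K F : Type*} [Field K] [Field F] [Algebra K F]

namespace Expand

open Polynomial in
/-- `s` is the `t`-adic expansion of `f` at `v`. -/
def IsExp (v : Place K F) (t : F) (f : F) (s : PowerSeries K) : Prop :=
  ∀ n : ℕ, OrdGE v n (f - Polynomial.aeval t (PowerSeries.trunc n s))

theorem ordGE_aeval {v : Place K F} {t : F} (ht : OrdGE v 0 t) (P : Polynomial K) :
    OrdGE v 0 (Polynomial.aeval t P) := by
  induction P using Polynomial.induction_on with
  | C a => simpa using OrdGE.algebraMap v a
  | add p q hp hq => simpa using hp.add hq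
  | monomial n a h =>
    have h1 : OrdGE v 0 (algebraMap K F a * t ^ (n + 1)) := by
      have := (OrdGE.algebraMap v a).mul (ht.pow (n + 1))
      simpa using this
    simpa using h1

theorem ordGE_aeval_of_dvd {v : Place K F} {t : F} (ht : OrdGE v 1 t) {n : ℕ} {R : Polynomial K}
    (h : Polynomial.X ^ n ∣ R) : OrdGE v n (Polynomial.aeval t R) := by
  obtain ⟨R', rfl⟩ := h
  have h1 := (ht.pow n).mul (ordGE_aeval (ht.mono zero_le_one) R')
  simpa using h1

theorem IsExp.unique {v : Place K F} {t : F} (ht : v.ord t = 1) {f : F} {s s' : PowerSeries K}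
    (h : IsExp v t f s) (h' : IsExp v t f s') : s = s' := by
  have ht0 : t ≠ 0 := Fermat.Agent.S24.FF.ne_zero_of_ord_ne_zero v (by rw [ht]; exact one_ne_zero)
  ext k
  induction k using Nat.strong_induction_on with
  | _ k ih =>
    have h1 : OrdGE v (k + 1 : ℕ) (Polynomial.aeval t (PowerSeries.trunc (k + 1) s) -
        Polynomial.aeval t (PowerSeries.trunc (k + 1) s')) := by
      have := (h' (k + 1)).sub (h (k + 1))
      convert this using 1
      ring
    have h2 : PowerSeries.trunc (k + 1) s - PowerSeries.trunc (k + 1) s' =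
        Polynomial.monomial k (PowerSeries.coeff k s - PowerSeries.coeff k s') := by
      ext m
      rw [Polynomial.coeff_sub, PowerSeries.coeff_trunc, PowerSeries.coeff_trunc,
        Polynomial.coeff_monomial]
      by_cases hm : m < k
      · rw [if_pos (by omega), if_pos (by omega), if_neg (by omega), ih m hm, sub_self]
      · by_cases hm' : m = k
        · subst hm'; simp
        · rw [if_neg (by omega), if_neg (by omega), if_neg (by omega), sub_self]
    rw [← map_sub, h2, Polynomial.aeval_monomial] at h1
    by_contra hne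
    have hd : PowerSeries.coeff k s - PowerSeries.coeff k s' ≠ 0 := sub_ne_zero.mpr hne
    have hd' : algebraMap K F (PowerSeries.coeff k s - PowerSeries.coeff k s') ≠ 0 :=
      (map_ne_zero (algebraMap K F)).mpr hd
    rcases h1 with h1 | h1
    · exact (mul_ne_zero hd' (pow_ne_zero k ht0)) h1
    · rw [v.ord_mul hd' (pow_ne_zero k ht0), Fermat.Agent.S24.FF.ord_algebraMap,
        Fermat.Agent.S24.FF.ord_pow, ht] at h1
      push_cast at h1
      omega

theorem IsExp.add {v : Place K F} {t : F} {f g : F} {s s' : PowerSeries K}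
    (h : IsExp v t f s) (h' : IsExp v t g s') : IsExp v t (f + g) (s + s') := by
  intro n
  have := (h n).add (h' n)
  rw [map_add, map_add]
  convert this using 1
  ring

theorem IsExp.mul {v : Place K F} {t : F} (ht : v.ord t = 1) {f g : F} {s s' : PowerSeries K}
    (hf : OrdGE v 0 f) (h : IsExp v t f s) (h' : IsExp v t g s') : IsExp v t (f * g) (s * s') := by
  intro n
  have ht1 : OrdGE v 1 t := Or.inr ht.ge
  set P := PowerSeries.trunc n s
  set Q := PowerSeries.trunc n s'
  have h1 : OrdGE v n ((f - Polynomial.aeval t P) * Polynomial.aeval t Q) := by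
    simpa using (h n).mul (ordGE_aeval (ht1.mono zero_le_one) Q)
  have h2 : OrdGE v n (f * (g - Polynomial.aeval t Q)) := by
    simpa using hf.mul (h' n)
  have h3 : OrdGE v n (Polynomial.aeval t (P * Q - PowerSeries.trunc n (s * s'))) := by
    apply ordGE_aeval_of_dvd ht1
    rw [Polynomial.X_pow_dvd_iff]
    intro d hd
    rw [Polynomial.coeff_sub, PowerSeries.coeff_trunc, if_pos hd,
      PowerSeries.coeff_mul_eq_coeff_trunc_mul_trunc s s' hd, ← Polynomial.coe_mul,
      Polynomial.coeff_coe, sub_self]
  have e : Polynomial.aeval t (P * Q - PowerSeries.trunc n (s * s')) =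
      Polynomial.aeval t P * Polynomial.aeval t Q -
        Polynomial.aeval t (PowerSeries.trunc n (s * s')) := by
    rw [map_sub, map_mul]
  rw [e] at h3
  have := (h1.add h2).add h3
  convert this using 1
  ring

theorem IsExp.algebraMap (v : Place K F) (t : F) (c : K) :
    IsExp v t (algebraMap K F c) (PowerSeries.C c) := by
  intro n
  cases n with
  | zero => simpa using OrdGE.algebraMap v c
  | succ n => left; simp [PowerSeries.trunc_C]

theorem IsExp.X {v : Place K F} {t : F} (ht : v.ord t = 1) : IsExp v t t PowerSeries.X := by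
  intro n
  match n with
  | 0 =>
    have h : OrdGE v 0 t := Or.inr (by rw [ht]; exact zero_le_one)
    simpa using h
  | 1 =>
    have h : OrdGE v 1 t := Or.inr ht.ge
    simpa using h
  | (n + 2) => left; simp

theorem IsExp.ordGE_zero {v : Place K F} {t : F} {f : F} {s : PowerSeries K} (h : IsExp v t f s) :
    OrdGE v 0 f := by
  simpa using h 0

theorem IsExp.val_eq {v : Place K F} {t : F} {f : F} {s : PowerSeries K} (h : IsExp v t f s) :
    val v f = PowerSeries.coeff 0 s := by
  apply val_eq_of
  have := h 1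
  simpa [PowerSeries.trunc_one_left] using this

theorem IsExp.eq_zero {v : Place K F} {t : F} {f : F} (h : IsExp v t f 0) : f = 0 := by
  by_contra hf
  have h1 := h (v.ord f).toNat.succ
  simp only [map_zero, sub_zero] at h1
  rcases h1 with h1 | h1
  · exact hf h1
  · have := Int.self_le_toNat (v.ord f)
    push_cast at h1
    omega


section FF

variable [IsAlgClosed K] [CharZero K] [FF1 K F]

/-- one step of the successive division -/
noncomputable def step (v : Place K F) (t : F) (f : F) : F := t⁻¹ * (f - algebraMap K F (val v f))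

theorem ordGE_step {v : Place K F} {t : F} (ht : v.ord t = 1) {f : F} (hf : OrdGE v 0 f) :
    OrdGE v 0 (step v t f) := by
  have ht0 : t ≠ 0 := Fermat.Agent.S24.FF.ne_zero_of_ord_ne_zero v (by rw [ht]; exact one_ne_zero)
  have h1 : OrdGE v (-1) t⁻¹ := Or.inr (by rw [v.ord_inv, ht])
  simpa [step] using h1.mul (val_spec hf)

theorem ordGE_iterate_step {v : Place K F} {t : F} (ht : v.ord t = 1) {f : F} (hf : OrdGE v 0 f)
    (n : ℕ) : OrdGE v 0 ((step v t)^[n] f) := by
  induction n with
  | zero => exact hf
  | succ n ih => rw [Function.iterate_succ_apply']; exact ordGE_step ht ih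

theorem exists_isExp {v : Place K F} {t : F} (ht : v.ord t = 1) {f : F} (hf : OrdGE v 0 f) :
    ∃ s : PowerSeries K, IsExp v t f s := by
  have ht0 : t ≠ 0 := Fermat.Agent.S24.FF.ne_zero_of_ord_ne_zero v (by rw [ht]; exact one_ne_zero)
  refine ⟨PowerSeries.mk fun k => val v ((step v t)^[k] f), ?_⟩
  have key : ∀ n : ℕ, f - Polynomial.aeval t
      (PowerSeries.trunc n (PowerSeries.mk fun k => val v ((step v t)^[k] f))) =
        t ^ n * (step v t)^[n] f := by
    intro n
    induction n with
    | zero => simp
    | succ n ih =>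
      rw [PowerSeries.trunc_succ, map_add, Polynomial.aeval_monomial, PowerSeries.coeff_mk,
        ← sub_sub, ih, Function.iterate_succ_apply', step]
      field_simp
      ring
  intro n
  rw [key n]
  have h1 : OrdGE v 1 t := Or.inr ht.ge
  simpa using (h1.pow n).mul (ordGE_iterate_step ht hf n)

theorem IsExp.dd {v : Place K F} {t : F} (ht : v.ord t = 1) {f : F} {s : PowerSeries K}
    (h : IsExp v t f s) :
    IsExp v t (Fermat.Agent.S27.dd (K := K) t f) (PowerSeries.derivative K s) := by
  intro n
  have htr : Transcendental K t := transcendental_of_ord_ne_zero v (by rw [ht]; exact one_ne_zero)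
  have h1 := OrdGE.dd' ht (h (n + 1))
  rw [map_sub, Derivation.map_aeval, dd_self htr, smul_eq_mul, mul_one,
    ← PowerSeries.trunc_derivative] at h1
  simpa using h1

/-- the expansion of an element of `O_v` -/
noncomputable def expFun (v : Place K F) (t : F) (ht : v.ord t = 1) (f : v.toValuationSubring) :
    PowerSeries K :=
  (exists_isExp ht (ordGE_zero_iff_mem.2 f.2)).choose

theorem isExp_expFun (v : Place K F) (t : F) (ht : v.ord t = 1) (f : v.toValuationSubring) :
    IsExp v t (f : F) (expFun v t ht f) :=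
  (exists_isExp ht (ordGE_zero_iff_mem.2 f.2)).choose_spec

/-- the expansion as a ring homomorphism -/
noncomputable def expHom (v : Place K F) (t : F) (ht : v.ord t = 1) :
    v.toValuationSubring →+* PowerSeries K where
  toFun := expFun v t ht
  map_one' := by
    refine (isExp_expFun v t ht 1).unique ht ?_
    have := IsExp.algebraMap v t (1 : K)
    simpa using this
  map_zero' := by
    refine (isExp_expFun v t ht 0).unique ht ?_
    have := IsExp.algebraMap v t (0 : K)
    simpa using this
  map_add' f g := (isExp_expFun v t ht (f + g)).unique ht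
    ((isExp_expFun v t ht f).add (isExp_expFun v t ht g))
  map_mul' f g := (isExp_expFun v t ht (f * g)).unique ht
    ((isExp_expFun v t ht f).mul ht (ordGE_zero_iff_mem.2 f.2) (isExp_expFun v t ht g))

theorem isExp_expHom (v : Place K F) (t : F) (ht : v.ord t = 1) (f : v.toValuationSubring) :
    IsExp v t (f : F) (expHom v t ht f) := isExp_expFun v t ht f

theorem expHom_injective (v : Place K F) (t : F) (ht : v.ord t = 1) :
    Function.Injective (expHom v t ht) := by
  rw [injective_iff_map_eq_zero]
  intro f hf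
  have := isExp_expHom v t ht f
  rw [hf] at this
  exact Subtype.ext this.eq_zero


/-- the expansion on `F`, as a ring homomorphism -/
noncomputable def lam (v : Place K F) (t : F) (ht : v.ord t = 1) : F →+* LaurentSeries K :=
  IsFractionRing.lift (A := v.toValuationSubring) (K := F)
    (g := (HahnSeries.ofPowerSeries ℤ K).comp (expHom v t ht))
    (HahnSeries.ofPowerSeries_injective.comp (expHom_injective v t ht))

theorem lam_of_isExp {v : Place K F} {t : F} (ht : v.ord t = 1) {f : F} {s : PowerSeries K}
    (h : IsExp v t f s) : lam v t ht f = (s : LaurentSeries K) := by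
  have hf : f ∈ v.toValuationSubring := ordGE_zero_iff_mem.1 h.ordGE_zero
  have h1 : lam v t ht (algebraMap v.toValuationSubring F ⟨f, hf⟩) =
      ((HahnSeries.ofPowerSeries ℤ K).comp (expHom v t ht)) ⟨f, hf⟩ :=
    IsFractionRing.lift_algebraMap _ _
  have h2 : expHom v t ht ⟨f, hf⟩ = s := (isExp_expHom v t ht ⟨f, hf⟩).unique ht h
  rw [RingHom.comp_apply, h2] at h1
  exact h1

theorem lam_t {v : Place K F} {t : F} (ht : v.ord t = 1) :
    lam v t ht t = HahnSeries.single 1 1 := by
  rw [lam_of_isExp ht (IsExp.X ht), PowerSeries.coe_X]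

theorem lam_algebraMap {v : Place K F} {t : F} (ht : v.ord t = 1) (c : K) :
    lam v t ht (algebraMap K F c) = algebraMap K (LaurentSeries K) c := by
  rw [lam_of_isExp ht (IsExp.algebraMap v t c), PowerSeries.coe_C, HahnSeries.algebraMap_apply',
    PowerSeries.algebraMap_apply]
  simp

theorem lam_t_pow {v : Place K F} {t : F} (ht : v.ord t = 1) (m : ℕ) :
    lam v t ht (t ^ m) = HahnSeries.single (m : ℤ) 1 := by
  rw [map_pow, lam_t ht, RatFunc.single_one_eq_pow]

theorem lam_t_zpow {v : Place K F} {t : F} (ht : v.ord t = 1) (m : ℤ) :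
    lam v t ht (t ^ m) = HahnSeries.single m 1 := by
  rw [map_zpow₀, lam_t ht, RatFunc.single_zpow m]

theorem order_coe_of_coeff_zero_ne_zero {s : PowerSeries K} (hs : PowerSeries.coeff 0 s ≠ 0) :
    (s : LaurentSeries K).order = 0 := by
  have h0 : (s : LaurentSeries K).coeff 0 ≠ 0 := by
    rw [PowerSeries.coeff_coe]; simpa using hs
  have hne : (s : LaurentSeries K) ≠ 0 := fun h => h0 (by rw [h]; rfl)
  refine le_antisymm (HahnSeries.order_le_of_coeff_ne_zero h0) ?_
  by_contra hlt
  push Not at hlt
  apply hne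
  rw [← HahnSeries.coeff_order_eq_zero, PowerSeries.coeff_coe, if_pos hlt]

theorem order_lam {v : Place K F} {t : F} (ht : v.ord t = 1) {f : F} (hf : f ≠ 0) :
    (lam v t ht f).order = v.ord f := by
  have ht0 : t ≠ 0 := Fermat.Agent.S24.FF.ne_zero_of_ord_ne_zero v (by rw [ht]; exact one_ne_zero)
  obtain ⟨g, hg, hfg⟩ := OrdGE.exists_eq_mul ht (n := v.ord f) (f := f) (Or.inr le_rfl)
  have hg0 : g ≠ 0 := by
    rintro rfl
    exact hf (by rw [hfg, mul_zero])
  have hordg : v.ord g = 0 := by
    have := congrArg v.ord hfg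
    rw [v.ord_mul (zpow_ne_zero _ ht0) hg0, v.ord_zpow, ht] at this
    omega
  obtain ⟨s, hs⟩ := exists_isExp ht hg
  have hs0 : PowerSeries.coeff 0 s ≠ 0 := by
    rw [← hs.val_eq]
    exact (val_ne_zero_iff hg).2 ⟨hg0, hordg⟩
  have hsne : (s : LaurentSeries K) ≠ 0 := by
    intro h
    have := order_coe_of_coeff_zero_ne_zero hs0
    apply hs0
    have h2 : (s : LaurentSeries K).coeff 0 = 0 := by rw [h]; rfl
    rw [PowerSeries.coeff_coe] at h2
    simpa using h2
  conv_lhs => rw [hfg]
  rw [map_mul, lam_t_zpow ht, lam_of_isExp ht hs,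
    HahnSeries.order_mul (HahnSeries.single_ne_zero one_ne_zero) hsne,
    HahnSeries.order_single one_ne_zero, order_coe_of_coeff_zero_ne_zero hs0, add_zero]

theorem coeff_lam_dd_of_ordGE {v : Place K F} {t : F} (ht : v.ord t = 1) {a : F} (ha : OrdGE v 0 a)
    (j : ℤ) : (lam v t ht (Fermat.Agent.S27.dd (K := K) t a)).coeff j =
      ((j : K) + 1) * (lam v t ht a).coeff (j + 1) := by
  obtain ⟨s, hs⟩ := exists_isExp ht ha
  rw [lam_of_isExp ht hs, lam_of_isExp ht (hs.dd ht), PowerSeries.coeff_coe, PowerSeries.coeff_coe]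
  rcases lt_trichotomy j (-1) with hj | hj | hj
  · rw [if_pos (by omega), if_pos (by omega), mul_zero]
  · subst hj
    simp
  · obtain ⟨k, rfl⟩ := Int.eq_ofNat_of_zero_le (show 0 ≤ j by omega)
    rw [if_neg (by omega), if_neg (by omega), PowerSeries.coeff_derivative]
    have : ((k : ℤ) + 1).natAbs = k + 1 := by omega
    rw [this, Int.natAbs_natCast]
    push_cast
    ring

theorem t_mul_dd {t : F} (htt : Fermat.Agent.S27.dd (K := K) t t = 1) (f : F) (m : ℕ) :
    t * Fermat.Agent.S27.dd (K := K) t (t ^ m * f) =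
      t ^ (m + 1) * Fermat.Agent.S27.dd (K := K) t f + m * (t ^ m * f) := by
  induction m with
  | zero => simp
  | succ m ih =>
    have e : t ^ (m + 1) * f = t * (t ^ m * f) := by ring
    rw [e, Derivation.leibniz, htt, smul_eq_mul, smul_eq_mul, mul_add, ih]
    push_cast
    ring

theorem coeff_lam_dd {v : Place K F} {t : F} (ht : v.ord t = 1) (f : F) (n : ℤ) :
    (lam v t ht (Fermat.Agent.S27.dd (K := K) t f)).coeff n =
      ((n : K) + 1) * (lam v t ht f).coeff (n + 1) := by
  have htr : Transcendental K t := transcendental_of_ord_ne_zero v (by rw [ht]; exact one_ne_zero)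
  have ht0 : t ≠ 0 := Fermat.Agent.S24.FF.ne_zero_of_ord_ne_zero v (by rw [ht]; exact one_ne_zero)
  -- clear the pole
  obtain ⟨m, ha⟩ : ∃ m : ℕ, OrdGE v 0 (t ^ m * f) := by
    by_cases hf : f = 0
    · exact ⟨0, Or.inl (by simp [hf])⟩
    · refine ⟨(-v.ord f).toNat, Or.inr ?_⟩
      rw [v.ord_mul (pow_ne_zero _ ht0) hf, Fermat.Agent.S24.FF.ord_pow, ht]
      have := Int.self_le_toNat (-v.ord f)
      omega
  have h1 := congrArg (fun x => (lam v t ht x).coeff (n + m + 1)) (t_mul_dd (dd_self htr) f m)
  simp only [map_mul, map_add, map_natCast, lam_t ht, lam_t_pow ht] at h1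
  have h2 := coeff_lam_dd_of_ordGE ht ha (n + m)
  rw [map_mul (lam v t ht), lam_t_pow ht] at h2
  have e1 : ∀ (x : LaurentSeries K), (HahnSeries.single (1 : ℤ) (1 : K) * x).coeff (n + m + 1) =
      x.coeff (n + m) := fun x => by
    rw [HahnSeries.coeff_single_mul_add, one_mul]
  have e2 : ∀ (x : LaurentSeries K),
      (HahnSeries.single ((m + 1 : ℕ) : ℤ) (1 : K) * x).coeff (n + m + 1) = x.coeff n := fun x => by
    have : n + (m : ℤ) + 1 = n + ((m + 1 : ℕ) : ℤ) := by push_cast; ring
    rw [this, HahnSeries.coeff_single_mul_add, one_mul]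
  have e3 : ∀ (x : LaurentSeries K),
      (HahnSeries.single (m : ℤ) (1 : K) * x).coeff (n + m + 1) = x.coeff (n + 1) := fun x => by
    have : n + (m : ℤ) + 1 = (n + 1) + (m : ℤ) := by ring
    rw [this, HahnSeries.coeff_single_mul_add, one_mul]
  have e4 : ∀ (x : LaurentSeries K), ((m : LaurentSeries K) * x).coeff (n + m + 1) =
      (m : K) * x.coeff (n + m + 1) := fun x => by
    have : (m : LaurentSeries K) = HahnSeries.C (m : K) := by simp
    rw [this, HahnSeries.C_apply, HahnSeries.coeff_single_mul, sub_zero]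
  rw [e1, HahnSeries.coeff_add, e2, e4, e3, h2, e3] at h1
  push_cast at h1
  linear_combination -h1

end FF

end Expand

variable [IsAlgClosed K] [CharZero K] [FF1 K F]

theorem exists_expand (v : Place K F) (t : F) (ht : v.ord t = 1) :
    ∃ Λ : F →ₐ[K] LaurentSeries K, Λ t = HahnSeries.single 1 1 ∧
      (∀ f : F, f ≠ 0 → (Λ f).order = v.ord f) ∧
      (∀ (f : F) (n : ℤ), (Λ (dd (K := K) t f)).coeff n = ((n : K) + 1) * (Λ f).coeff (n + 1)) :=
  ⟨{ Expand.lam v t ht with commutes' := Expand.lam_algebraMap ht }, Expand.lam_t ht,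
    fun _ hf => Expand.order_lam ht hf, fun f n => Expand.coeff_lam_dd ht f n⟩

end Fermat.Agent.S27
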