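import Fermat.Agent.S27.A.RR

/-! # S27 / A / Generic  (TASK S27/A7): generic points impose independent conditions; good tuples. -/

set_option autoImplicit false
set_option linter.unusedSectionVars false
set_option linter.style.haveILetI false

namespace Fermat.Agent.S27

open AlgebraicCurve Fermat.Agent.S26 IntermediateField

variable {K F : Type*} [Field K] [Field F] [Algebra K F]

theorem sumDiv_apply_of_forall_ne {ι : Type*} [Fintype ι] (R : ι → Place K F) {v : Place K F}
    (h : ∀ i, v ≠ R i) : sumDiv R v = 0 := by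
  unfold sumDiv
  rw [Finsupp.finsetSum_apply]
  exact Finset.sum_eq_zero fun i _ => Finsupp.single_eq_of_ne (h i)

theorem sumDiv_apply_of_injective {ι : Type*} [Fintype ι] {R : ι → Place K F}
    (hR : Function.Injective R) (i : ι) : sumDiv R (R i) = 1 := by
  classical
  unfold sumDiv
  rw [Finsupp.finsetSum_apply, Finset.sum_eq_single i]
  · simp
  · intro j _ hj
    exact Finsupp.single_eq_of_ne fun h => hj (hR h.symm)
  · intro h
    exact absurd (Finset.mem_univ i) h

theorem sumDiv_nonneg {ι : Type*} [Fintype ι] (R : ι → Place K F) (v : Place K F) :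
    0 ≤ sumDiv R v := by
  classical
  unfold sumDiv
  rw [Finsupp.finsetSum_apply]
  refine Finset.sum_nonneg fun i _ => ?_
  rw [Finsupp.single_apply]
  split_ifs <;> simp

theorem sumDiv_cons {n : ℕ} (P : Place K F) (R : Fin n → Place K F) :
    sumDiv (Fin.cons P R : Fin (n + 1) → Place K F) = Finsupp.single P 1 + sumDiv R := by
  unfold sumDiv
  rw [Fin.sum_univ_succ]
  simp

variable [IsAlgClosed K] [CharZero K] [FF1 K F]

/-- If `Ω(D) ≠ 0`, all but finitely many `P` satisfy `dim Ω(D + P) = dim Ω(D) - 1`.
(Take `ω ≠ 0` in `Ω(D)`; exclude the finitely many `P` with `ord_P ω + ordDx x P ≠ D P`.) -/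
theorem finite_not_drop {x : F} (hx : Transcendental K x) (D : Divisor K F) (h : Omega x D ≠ ⊥) :
    {P : Place K F | Module.finrank K (Omega x (D + Finsupp.single P 1)) + 1
      ≠ Module.finrank K (Omega x D)}.Finite := by
  obtain ⟨ω, hω, hω0⟩ := Submodule.exists_mem_ne_zero_of_ne_bot h
  have hfin : ({P : Place K F | P.ord ω ≠ 0} ∪ {P : Place K F | ordDx x P ≠ 0} ∪
      (D.support : Set (Place K F))).Finite :=
    ((finite_ord_ne_zero hω0).union (finite_ordDx_ne_zero hx)).union D.support.finite_toSet
  refine hfin.subset fun P hP => ?_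
  by_contra hcon
  simp only [Set.mem_union, Set.mem_ofPred_eq, not_or, not_not, Finset.mem_coe,
    Finsupp.mem_support_iff] at hcon
  obtain ⟨⟨h1, h2⟩, h3⟩ := hcon
  apply hP
  have hle : Omega x (D + Finsupp.single P 1) ≤ Omega x D := Omega_anti (fun v => by
    rw [Finsupp.add_apply]
    have : 0 ≤ (Finsupp.single P (1 : ℤ)) v := by
      classical
      rw [Finsupp.single_apply]
      split_ifs <;> simp
    omega)
  have hlt : Omega x (D + Finsupp.single P 1) < Omega x D := by
    refine lt_of_le_of_ne hle fun heq => ?_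
    rw [← heq, mem_Omega] at hω
    have := (hω.resolve_left hω0) P
    rw [Finsupp.add_apply, Finsupp.single_eq_same, h1, h2, h3] at this
    omega
  have h4 := Submodule.finrank_lt_finrank_of_lt hlt
  have h5 := finrank_Omega_add_single_ge hx D P
  omega

/-- Adding `dim Ω(D)` general points of an infinite set `T` kills `Ω`. -/
theorem exists_points_Omega_eq_bot {x : F} (hx : Transcendental K x) (D : Divisor K F)
    (T : Set (Place K F)) (hT : T.Infinite) (n : ℕ) (hn : Module.finrank K (Omega x D) = n) :
    ∃ R : Fin n → Place K F, Function.Injective R ∧ (∀ i, R i ∈ T) ∧ Omega x (D + sumDiv R) = ⊥ := by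
  induction n generalizing D T with
  | zero =>
    refine ⟨Fin.elim0, fun i => i.elim0, fun i => i.elim0, ?_⟩
    have : sumDiv (Fin.elim0 : Fin 0 → Place K F) = 0 := by simp [sumDiv]
    rw [this, add_zero]
    exact Submodule.finrank_eq_zero.1 hn
  | succ n ih =>
    have hne : Omega x D ≠ ⊥ := by
      intro h
      rw [h, finrank_bot] at hn
      omega
    obtain ⟨P, hPT, hP⟩ := (hT.sdiff (finite_not_drop hx D hne)).nonempty
    have hP' : Module.finrank K (Omega x (D + Finsupp.single P 1)) + 1
        = Module.finrank K (Omega x D) := by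
      by_contra hcon
      exact hP hcon
    obtain ⟨R, hRinj, hRT, hR⟩ := ih (D + Finsupp.single P 1) (T \ {P})
      (hT.sdiff (Set.finite_singleton P)) (by omega)
    refine ⟨Fin.cons P R, ?_, ?_, ?_⟩
    · rw [Fin.cons_injective_iff]
      refine ⟨?_, hRinj⟩
      rintro ⟨i, hi⟩
      exact (hRT i).2 hi
    · intro i
      refine Fin.cases ?_ (fun j => ?_) i
      · simpa using hPT
      · simpa using (hRT j).1
    · rw [sumDiv_cons, ← add_assoc]
      exact hR

/-- A *good tuple*: `g` distinct places on which no nonzero holomorphic differential vanishes. -/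
def IsGood (x : F) {ι : Type*} [Fintype ι] (R : ι → Place K F) : Prop :=
  Function.Injective R ∧ Omega x (sumDiv R) = ⊥

theorem infinite_compl_finset (S : Finset (Place K F)) : ((S : Set (Place K F))ᶜ).Infinite := by
  haveI := infinite_place K F
  exact S.finite_toSet.infinite_compl

theorem exists_good {x : F} (hx : Transcendental K x) (S : Finset (Place K F)) :
    ∃ R : Fin (genusFF K F) → Place K F, IsGood x R ∧ ∀ i, R i ∉ S := by
  obtain ⟨R, h1, h2, h3⟩ := exists_points_Omega_eq_bot hx 0 _ (infinite_compl_finset S) _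
    (finrank_Omega_zero hx)
  rw [zero_add] at h3
  exact ⟨R, ⟨h1, h3⟩, fun i => by simpa using h2 i⟩

theorem exists_good_through {x : F} (hx : Transcendental K x) (S : Finset (Place K F)) (Q : Place K F)
    (hg : 0 < genusFF K F) :
    ∃ R : Fin (genusFF K F) → Place K F, IsGood x R ∧ R ⟨0, hg⟩ = Q ∧
      ∀ i, i ≠ ⟨0, hg⟩ → R i ∉ S := by
  classical
  have key : ∀ (n : ℕ) (_ : genusFF K F = n) (hg : 0 < n), ∃ R : Fin n → Place K F,
      IsGood x R ∧ R ⟨0, hg⟩ = Q ∧ ∀ i, i ≠ ⟨0, hg⟩ → R i ∉ S := by
    intro n hn hg'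
    cases n with
    | zero => omega
    | succ m =>
      have h0 := finrank_Omega_single hx hg Q
      obtain ⟨R, h1, h2, h3⟩ := exists_points_Omega_eq_bot hx (Finsupp.single Q 1) _
        (infinite_compl_finset (insert Q S)) m (by omega)
      refine ⟨Fin.cons Q R, ⟨?_, ?_⟩, rfl, ?_⟩
      · rw [Fin.cons_injective_iff]
        refine ⟨?_, h1⟩
        rintro ⟨i, hi⟩
        have := h2 i
        rw [hi] at this
        simp at this
      · rw [sumDiv_cons]
        exact h3
      · intro i
        refine Fin.cases ?_ (fun j => ?_) i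
        · intro h
          exact absurd rfl h
        · intro _
          have := h2 j
          simp only [Finset.coe_insert, Set.mem_compl_iff, Set.mem_insert_iff, Finset.mem_coe,
            not_or] at this
          simpa using this.2
  exact key _ rfl hg

theorem finrank_LSpace_of_isGood {x : F} (hx : Transcendental K x)
    {R : Fin (genusFF K F) → Place K F} (hR : IsGood x R) :
    Module.finrank K (LSpace (sumDiv R)) = 1 := by
  have h := riemann_roch hx (sumDiv R)
  rw [hR.2, finrank_bot, degree_sumDiv, Fintype.card_fin] at h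
  push_cast at h
  omega

/-- `L(∑ R i) = K` for a good tuple. -/
theorem mem_range_of_mem_LSpace_of_isGood {x : F} (hx : Transcendental K x)
    {R : Fin (genusFF K F) → Place K F} (hR : IsGood x R) {f : F} (hf : f ∈ LSpace (sumDiv R)) :
    f ∈ Set.range (algebraMap K F) := by
  have h1 : (1 : F) ∈ LSpace (sumDiv R) := by
    rw [mem_LSpace]
    right
    intro v
    have := sumDiv_nonneg R v
    simpa using this
  have h2 := finrank_LSpace_of_isGood hx hR
  have hne : (⟨1, h1⟩ : LSpace (sumDiv R)) ≠ 0 := by
    intro h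
    have := congrArg Subtype.val h
    simp at this
  obtain ⟨c, hc⟩ := (finrank_eq_one_iff_of_nonzero' _ hne).1 h2 ⟨f, hf⟩
  refine ⟨c, ?_⟩
  have := congrArg Subtype.val hc
  simpa [Algebra.smul_def] using this

/-- evaluation of holomorphic differentials at a good tuple is injective. -/
theorem eq_zero_of_val_eq_zero_of_isGood {x : F} (hx : Transcendental K x) {ι : Type*} [Fintype ι]
    {R : ι → Place K F} (hR : IsGood x R) (t : ι → F) (ht : ∀ i, (R i).ord (t i) = 1)
    {ω : F} (hω : ω ∈ Omega x (0 : Divisor K F))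
    (h : ∀ i, val (R i) (ω * dd (K := K) (t i) x) = 0) : ω = 0 := by
  by_contra hω0
  have hmem : ω ∈ Omega x (sumDiv R) := by
    rw [mem_Omega]
    right
    intro v
    by_cases hv : ∃ i, v = R i
    · obtain ⟨i, rfl⟩ := hv
      rw [sumDiv_apply_of_injective hR.1]
      have h1 := ordGE_of_mem_Omega hx hω (ht i)
      rw [Finsupp.zero_apply] at h1
      have h2 := (val_eq_zero_iff h1).1 (h i)
      have htr : Transcendental K (t i) :=
        transcendental_of_ord_ne_zero (R i) (by rw [ht i]; exact one_ne_zero)
      have h3 : dd (K := K) (t i) x ≠ 0 := dd_ne_zero htr hx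
      rw [ordGE_iff (mul_ne_zero hω0 h3), (R i).ord_mul hω0 h3, ordDx_eq hx (ht i)] at h2
      exact h2
    · rw [not_exists] at hv
      rw [sumDiv_apply_of_forall_ne R hv]
      have := (hω.resolve_left hω0) v
      simpa using this
  rw [hR.2, Submodule.mem_bot] at hmem
  exact hω0 hmem

/-- Given finitely many distinct places `Q` with `#Q ≥ 2g` there is `b₀` with simple zeros exactly... :
`b₀ ≠ 0`, `ord_{Q q} b₀ = 1`, and the pole divisor `D∞ := ∑ Q q - div b₀` is effective and disjoint from the `Q q`. -/
theorem exists_section_simple_zeros {ι : Type*} [Fintype ι] (Q : ι → Place K F)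
    (hQ : Function.Injective Q) (hcard : 2 * genusFF K F ≤ Fintype.card ι) :
    ∃ b₀ : F, b₀ ≠ 0 ∧ (∀ q, (Q q).ord b₀ = 1) ∧
      ∀ v : Place K F, (∀ q, v ≠ Q q) → v.ord b₀ ≤ 0 := by
  classical
  by_cases hι : IsEmpty ι
  · exact ⟨1, one_ne_zero, fun q => (hι.false q).elim, fun v _ => by simp⟩
  rw [not_isEmpty_iff] at hι
  haveI : Infinite K := IsAlgClosed.instInfinite
  set D := sumDiv Q with hD
  have hdeg : Divisor.degree D = Fintype.card ι := degree_sumDiv Q
  have hcard' : 0 < Fintype.card ι := Fintype.card_pos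
  have hl : (Module.finrank K (LSpace D) : ℤ) = Fintype.card ι + 1 - genusFF K F := by
    rw [finrank_LSpace_of_degree (by rw [hdeg]; omega), hdeg]
  have hlq : ∀ q, (Module.finrank K (LSpace (D - Finsupp.single (Q q) 1)) : ℤ)
      = Fintype.card ι - genusFF K F := by
    intro q
    have hd : Divisor.degree (D - Finsupp.single (Q q) 1) = Fintype.card ι - 1 := by
      rw [map_sub, hdeg, Divisor.degree_single, deg_eq_one]
      simp
    rw [finrank_LSpace_of_degree (by rw [hd]; omega), hd]
    ring
  -- a section outside all the hyperplanes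
  let p : ι → Subspace K (LSpace D) := fun q =>
    (LSpace (D - Finsupp.single (Q q) 1)).comap (LSpace D).subtype
  have hp : ∀ q, p q ≠ ⊤ := by
    intro q htop
    have hle : LSpace D ≤ LSpace (D - Finsupp.single (Q q) 1) := by
      intro f hf
      have : (⟨f, hf⟩ : LSpace D) ∈ p q := by rw [htop]; trivial
      exact this
    have := Submodule.finrank_mono hle
    have h1 := hl
    have h2 := hlq q
    omega
  have hcov : ⋃ q, (p q : Set (LSpace D)) ≠ Set.univ := by
    intro h
    obtain ⟨q, hq⟩ := Subspace.exists_eq_top_of_iUnion_eq_univ h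
    exact hp q hq
  obtain ⟨⟨h, hhD⟩, hh⟩ := (Set.ne_univ_iff_exists_notMem _).1 hcov
  rw [Set.mem_iUnion, not_exists] at hh
  have hh' : ∀ q, h ∉ LSpace (D - Finsupp.single (Q q) 1) := fun q hq => hh q hq
  have hh0 : h ≠ 0 := by
    rintro rfl
    exact hh' hι.some (zero_mem _)
  have hord := (mem_LSpace.1 hhD).resolve_left hh0
  refine ⟨h⁻¹, inv_ne_zero hh0, fun q => ?_, fun v hv => ?_⟩
  · rw [(Q q).ord_inv]
    have h1 := hord (Q q)
    rw [hD, sumDiv_apply_of_injective hQ] at h1
    by_contra hcon
    apply hh' q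
    rw [mem_LSpace]
    right
    intro v
    rw [Finsupp.sub_apply]
    by_cases hv : v = Q q
    · subst hv
      rw [hD, sumDiv_apply_of_injective hQ, Finsupp.single_eq_same]
      omega
    · rw [Finsupp.single_eq_of_ne hv, sub_zero]
      exact hord v
  · rw [v.ord_inv]
    have h1 := hord v
    rw [hD, sumDiv_apply_of_forall_ne Q hv] at h1
    omega

end Fermat.Agent.S27
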