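import Fermat.Agent.S27.A.Duality

/-! # S27 / A / RR  (TASK S27/A6): Riemann–Roch and its corollaries — **the interface of Part A for Parts B and C**
(together with `A/Basic`, `A/Deriv`, `sum_residues_simple` of `A/Residue` and `Fermat.Agent.S26.FF.Basic`). -/

set_option autoImplicit false
set_option linter.unusedSectionVars false

namespace Fermat.Agent.S27

open AlgebraicCurve Fermat.Agent.S26 IntermediateField

variable {K F : Type*} [Field K] [Field F] [Algebra K F] [IsAlgClosed K] [CharZero K] [FF1 K F]

namespace RR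

omit [CharZero K] [FF1 K F] in
/-- for a constant `x` the (junk) order of `dx` is `0`. -/
theorem ordDx_of_not_transcendental {x : F} (hx : ¬ Transcendental K x) (v : Place K F) :
    ordDx x v = 0 := by
  have halg : IsAlgebraic K x := not_not.mp hx
  obtain ⟨c, rfl⟩ := Fermat.Agent.S24.FF.DegOne.exists_algebraMap_eq_of_isAlgebraic K halg
  unfold ordDx
  rw [Derivation.map_algebraMap]
  simp

omit [CharZero K] [FF1 K F] in
theorem Omega_eq_LSpace_neg {x : F} (hx : ¬ Transcendental K x) (D : Divisor K F) :
    Omega x D = LSpace (-D) := by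
  ext ω
  rw [mem_Omega, mem_LSpace]
  refine or_congr Iff.rfl (forall_congr' fun v => ?_)
  rw [ordDx_of_not_transcendental hx, Finsupp.neg_apply]
  constructor <;> intro h <;> omega

/-- an effective divisor of degree `0` is `0`. -/
theorem eq_zero_of_nonneg_of_degree {E : Divisor K F} (hE : ∀ v, 0 ≤ E v) (hd : Divisor.degree E = 0) :
    E = 0 := by
  rw [degree_eq_sum, Finsupp.sum] at hd
  have h := (Finset.sum_eq_zero_iff_of_nonneg (fun v _ => hE v)).mp hd
  ext v
  by_cases hv : v ∈ E.support
  · exact h v hv
  · simpa using hv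

theorem degree_single (v : Place K F) (n : ℤ) :
    Divisor.degree (Finsupp.single v n : Divisor K F) = n := by
  rw [Divisor.degree_single, deg_eq_one]
  simp

/-- an effective divisor of degree `d` is the sum of `d` places. -/
theorem exists_sumDiv_eq : ∀ (d : ℕ) (E : Divisor K F), (∀ v, 0 ≤ E v) → Divisor.degree E = d →
    ∃ Q : Fin d → Place K F, E = sumDiv Q := by
  intro d
  induction d with
  | zero =>
    intro E hE hd
    refine ⟨Fin.elim0, ?_⟩
    rw [eq_zero_of_nonneg_of_degree hE (by simpa using hd)]
    simp [sumDiv]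
  | succ d ih =>
    intro E hE hd
    have hne : E ≠ 0 := by
      rintro rfl
      rw [map_zero] at hd
      push_cast at hd
      omega
    obtain ⟨v, hv⟩ : ∃ v, E v ≠ 0 := by
      by_contra h
      push Not at h
      exact hne (Finsupp.ext h)
    have hv' : 0 < E v := lt_of_le_of_ne (hE v) (Ne.symm hv)
    obtain ⟨Q, hQ⟩ := ih (E - Finsupp.single v 1) (by
      intro w
      rw [Finsupp.sub_apply]
      by_cases hw : w = v
      · subst hw
        rw [Finsupp.single_eq_same]
        omega
      · rw [Finsupp.single_eq_of_ne hw, sub_zero]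
        exact hE w) (by
      rw [map_sub, hd, degree_single]
      push_cast
      ring)
    refine ⟨Fin.cons v Q, ?_⟩
    unfold sumDiv at hQ ⊢
    rw [Fin.sum_univ_succ]
    simp only [Fin.cons_zero, Fin.cons_succ]
    rw [← hQ]
    abel

theorem exists_ne_zero_of_finrank_pos {D : Divisor K F} (h : 0 < Module.finrank K (LSpace D)) :
    ∃ f : F, f ≠ 0 ∧ f ∈ LSpace D := by
  have : Nontrivial (LSpace D) := Module.nontrivial_of_finrank_pos (R := K) h
  obtain ⟨z, hz⟩ := exists_ne (0 : LSpace D)
  exact ⟨z, fun h0 => hz (Subtype.ext h0), z.2⟩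

omit [IsAlgClosed K] [CharZero K] [FF1 K F] in
theorem linearIndependent_pow {f : F} (hf : Transcendental K f) :
    LinearIndependent K (fun n : ℕ => f ^ n) := by
  have h1 := (Polynomial.basisMonomials K).linearIndependent.map' (Polynomial.aeval f).toLinearMap
    (LinearMap.ker_eq_bot.mpr (transcendental_iff_injective.mp hf))
  have h2 : (fun n : ℕ => f ^ n) =
      (Polynomial.aeval f).toLinearMap ∘ (Polynomial.basisMonomials K) := by
    funext n
    simp
  rw [h2]
  exact h1

/-- an element of `L(nP)` which is not constant -/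
theorem exists_not_const {D : Divisor K F} (h : 2 ≤ Module.finrank K (LSpace D)) :
    ∃ f ∈ LSpace D, Transcendental K f := by
  have := finite_LSpace (Ω := K) D
  by_contra hcon
  push Not at hcon
  have hle : LSpace D ≤ K ∙ (1 : F) := by
    intro f hf
    have h1 := hcon f hf
    rw [transcendental_iff, not_not] at h1
    obtain ⟨c, rfl⟩ := h1
    rw [Submodule.mem_span_singleton]
    exact ⟨c, by rw [Algebra.smul_def, mul_one]⟩
  have h2 := Submodule.finrank_mono hle
  rw [finrank_span_singleton (one_ne_zero : (1 : F) ≠ 0)] at h2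
  omega

end RR

open RR

instance finite_Omega (x : F) (D : Divisor K F) : Module.Finite K (Omega x D) := by
  by_cases hx : Transcendental K x
  · rw [Omega_eq_LSpace hx]
    exact finite_LSpace _
  · rw [Omega_eq_LSpace_neg hx]
    exact finite_LSpace _

instance finite_LSpace' (D : Divisor K F) : Module.Finite K (LSpace D) := finite_LSpace D

/-- **Riemann–Roch.** -/
theorem riemann_roch {x : F} (hx : Transcendental K x) (D : Divisor K F) :
    (Module.finrank K (LSpace D) : ℤ)
      = Divisor.degree D + 1 - genusFF K F + Module.finrank K (Omega x D) := by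
  have h1 := rr_adelic D
  have h2 := finrank_H1_eq_finrank_Omega hx D
  omega

theorem finrank_Omega_zero {x : F} (hx : Transcendental K x) :
    Module.finrank K (Omega x (0 : Divisor K F)) = genusFF K F := by
  have h := riemann_roch hx (0 : Divisor K F)
  rw [finrank_LSpace_zero, map_zero] at h
  push_cast at h
  omega

theorem degree_divDx {x : F} (hx : Transcendental K x) :
    Divisor.degree (divDx hx) = 2 * (genusFF K F : ℤ) - 2 := by
  have h := riemann_roch hx (divDx hx)
  have h1 : LSpace (divDx hx) = Omega x (0 : Divisor K F) := by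
    rw [Omega_eq_LSpace hx, sub_zero]
  have h2 : Omega x (divDx hx) = LSpace (0 : Divisor K F) := by
    rw [Omega_eq_LSpace hx, sub_self]
  rw [h1, h2, finrank_Omega_zero hx, finrank_LSpace_zero] at h
  push_cast at h
  omega

theorem Omega_eq_bot_of_degree {x : F} (hx : Transcendental K x) {D : Divisor K F}
    (hD : 2 * (genusFF K F : ℤ) - 2 < Divisor.degree D) : Omega x D = ⊥ := by
  rw [Omega_eq_LSpace hx]
  apply LSpace_eq_bot_of_degree_neg
  rw [map_sub, degree_divDx hx]
  omega

theorem finrank_LSpace_of_degree {D : Divisor K F}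
    (hD : 2 * (genusFF K F : ℤ) - 2 < Divisor.degree D) :
    (Module.finrank K (LSpace D) : ℤ) = Divisor.degree D + 1 - genusFF K F := by
  obtain ⟨x, hx⟩ := exists_transcendental K F
  have h := riemann_roch hx D
  rw [Omega_eq_bot_of_degree hx hD, finrank_bot] at h
  simpa using h

theorem riemann_inequality (D : Divisor K F) :
    Divisor.degree D + 1 - genusFF K F ≤ (Module.finrank K (LSpace D) : ℤ) := by
  have h1 := rr_adelic D
  omega

omit [IsAlgClosed K] [CharZero K] [FF1 K F] in
theorem Omega_anti {x : F} {D D' : Divisor K F} (h : ∀ v, D v ≤ D' v) : Omega x D' ≤ Omega x D := by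
  intro ω hω
  rcases hω with hω | hω
  · exact Or.inl hω
  · exact Or.inr fun v => (h v).trans (hω v)

theorem finrank_Omega_add_single_ge {x : F} (hx : Transcendental K x) (D : Divisor K F) (v : Place K F) :
    Module.finrank K (Omega x D) ≤ Module.finrank K (Omega x (D + Finsupp.single v 1)) + 1 := by
  rw [Omega_eq_LSpace hx, Omega_eq_LSpace hx]
  have h := finrank_LSpace_add_single_le (divDx hx - (D + Finsupp.single v 1)) v
  rw [deg_eq_one] at h
  have e : divDx hx - (D + Finsupp.single v 1) + Finsupp.single v 1 = divDx hx - D := by abel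
  rwa [e] at h

/-- a nonzero element of `L(D)`, `deg D = 0`, has divisor exactly `-D`. -/
theorem divisorOf_eq_neg_of_mem_LSpace {D : Divisor K F} (hD : Divisor.degree D = 0) {f : F} (hf : f ≠ 0)
    (hfD : f ∈ LSpace D) : divisorOf f = -D := by
  have h1 : ∀ v, 0 ≤ (divisorOf f + D : Divisor K F) v := by
    intro v
    rw [Finsupp.add_apply, divisorOf_apply]
    exact (hfD.resolve_left hf) v
  have h2 := eq_zero_of_nonneg_of_degree h1 (by rw [map_add, degree_divisorOf, hD, add_zero])
  exact eq_neg_of_add_eq_zero_left h2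

/-- more generally: `f ∈ L(D)` nonzero, `E ≥ 0`, `deg E = deg D`, `f` vanishes on `E` (i.e. `f ∈ L(D - E)`) ⇒ `div f = E - D`. -/
theorem divisorOf_eq_of_mem_LSpace {D E : Divisor K F} (hD : Divisor.degree E = Divisor.degree D) {f : F}
    (hf : f ≠ 0) (hfD : f ∈ LSpace (D - E)) : divisorOf f = E - D := by
  rw [divisorOf_eq_neg_of_mem_LSpace (by rw [map_sub, hD, sub_self]) hf hfD, neg_sub]

/-- a function with a pole only at `P`. -/
theorem exists_pole_only (P : Place K F) :
    ∃ f : F, Transcendental K f ∧ P.ord f < 0 ∧ ∀ v : Place K F, v ≠ P → 0 ≤ v.ord f := by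
  have h1 := riemann_inequality (Finsupp.single P ((genusFF K F : ℤ) + 1) : Divisor K F)
  rw [degree_single] at h1
  obtain ⟨f, hfL, hf⟩ := exists_not_const (D := (Finsupp.single P ((genusFF K F : ℤ) + 1) : Divisor K F))
    (by omega)
  have hf0 : f ≠ 0 := by
    rintro rfl
    exact hf (isAlgebraic_zero)
  have hreg : ∀ v : Place K F, v ≠ P → 0 ≤ v.ord f := by
    intro v hv
    have := (hfL.resolve_left hf0) v
    rwa [Finsupp.single_eq_of_ne hv, add_zero] at this
  refine ⟨f, hf, ?_, hreg⟩
  by_contra hP
  push Not at hP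
  have hmem : f ∈ LSpace (0 : Divisor K F) := by
    right
    intro v
    by_cases hv : v = P
    · subst hv; simpa using hP
    · simpa using hreg v hv
  rw [LSpace_zero_eq, Submodule.mem_span_singleton] at hmem
  obtain ⟨c, rfl⟩ := hmem
  apply hf
  rw [Algebra.smul_def, mul_one]
  exact isAlgebraic_algebraMap c

/-- genus zero: every divisor of degree zero is principal. -/
theorem isPrincipal_of_genus_zero (hg : genusFF K F = 0) (D : Divisor K F) (hD : Divisor.degree D = 0) :
    Divisor.IsPrincipal D := by
  have h1 := riemann_inequality (-D)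
  rw [map_neg, hD, hg] at h1
  obtain ⟨f, hf, hfD⟩ := exists_ne_zero_of_finrank_pos (D := -D) (by
    have : (0 : ℤ) < Module.finrank K (LSpace (-D)) := by
      push_cast at h1
      omega
    exact_mod_cast this)
  have h2 := divisorOf_eq_neg_of_mem_LSpace (by rw [map_neg, hD, neg_zero]) hf hfD
  rw [neg_neg] at h2
  exact ⟨f, hf, fun v => by rw [← h2, divisorOf_apply]⟩

/-- `g ≥ 1`: no function has a single simple pole. -/
theorem finrank_LSpace_single (hg : 0 < genusFF K F) (P : Place K F) :
    Module.finrank K (LSpace (Finsupp.single P 1 : Divisor K F)) = 1 := by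
  have hle : Module.finrank K (LSpace (Finsupp.single P 1 : Divisor K F)) ≤ 2 := by
    have h := finrank_LSpace_add_single_le (0 : Divisor K F) P
    rw [zero_add, finrank_LSpace_zero, deg_eq_one] at h
    exact h
  have hge : 1 ≤ Module.finrank K (LSpace (Finsupp.single P 1 : Divisor K F)) := by
    have h := finrank_LSpace_mono (Ω := K) (D := (0 : Divisor K F))
      (D' := (Finsupp.single P 1 : Divisor K F)) (by
        intro v
        by_cases hv : v = P
        · subst hv; simp
        · rw [Finsupp.single_eq_of_ne hv]; simp)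
    rwa [finrank_LSpace_zero] at h
  by_contra hne
  have h2 : 2 ≤ Module.finrank K (LSpace (Finsupp.single P 1 : Divisor K F)) := by omega
  obtain ⟨f, hfL, hf⟩ := exists_not_const h2
  have hf0 : f ≠ 0 := by
    rintro rfl
    exact hf (isAlgebraic_zero)
  -- `1, f, …, f^n ∈ L(nP)`
  set n : ℕ := 2 * genusFF K F with hn
  have hmem : ∀ i : Fin (n + 1), f ^ (i : ℕ) ∈ LSpace (Finsupp.single P (n : ℤ) : Divisor K F) := by
    intro i
    right
    intro v
    have h3 := (hfL.resolve_left hf0) v
    rw [Fermat.Agent.S24.FF.ord_pow]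
    have hi : ((i : ℕ) : ℤ) ≤ n := by exact_mod_cast Nat.lt_succ_iff.mp i.2
    have hi0 : (0 : ℤ) ≤ ((i : ℕ) : ℤ) := Int.natCast_nonneg _
    by_cases hv : v = P
    · subst hv
      rw [Finsupp.single_eq_same] at h3 ⊢
      nlinarith
    · rw [Finsupp.single_eq_of_ne hv] at h3 ⊢
      rw [add_zero] at h3 ⊢
      positivity
  have hli : LinearIndependent K (fun i : Fin (n + 1) =>
      (⟨f ^ (i : ℕ), hmem i⟩ : LSpace (Finsupp.single P (n : ℤ) : Divisor K F))) := by
    refine LinearIndependent.of_comp (LSpace _).subtype ?_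
    exact (linearIndependent_pow hf).comp (fun i : Fin (n + 1) => (i : ℕ)) Fin.val_injective
  have h4 := hli.fintype_card_le_finrank
  rw [Fintype.card_fin] at h4
  have h5 := finrank_LSpace_of_degree (D := (Finsupp.single P (n : ℤ) : Divisor K F)) (by
    rw [degree_single, hn]
    push_cast
    omega)
  rw [degree_single] at h5
  omega

theorem finrank_Omega_single {x : F} (hx : Transcendental K x) (hg : 0 < genusFF K F) (P : Place K F) :
    Module.finrank K (Omega x (Finsupp.single P 1 : Divisor K F)) + 1 = genusFF K F := by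
  have h := riemann_roch hx (Finsupp.single P 1 : Divisor K F)
  rw [finrank_LSpace_single hg P, degree_single] at h
  push_cast at h
  omega

/-- every class of degree `g` is effective: for `deg D = 0` and `P₀`, there are `g` places with `D + g P₀ ∼ ∑ Q i`. -/
theorem exists_effective_rep (D : Divisor K F) (hD : Divisor.degree D = 0) (P₀ : Place K F) :
    ∃ (Q : Fin (genusFF K F) → Place K F) (f : F), f ≠ 0 ∧
      D + (genusFF K F : ℤ) • Finsupp.single P₀ (1 : ℤ) + divisorOf f = sumDiv Q := by
  have hdeg : Divisor.degree (D + (genusFF K F : ℤ) • Finsupp.single P₀ (1 : ℤ)) = genusFF K F := by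
    rw [map_add, hD, map_zsmul, degree_single]
    simp
  have h1 := riemann_inequality (D + (genusFF K F : ℤ) • Finsupp.single P₀ (1 : ℤ))
  rw [hdeg] at h1
  obtain ⟨f, hf, hfD⟩ := exists_ne_zero_of_finrank_pos
    (D := D + (genusFF K F : ℤ) • Finsupp.single P₀ (1 : ℤ)) (by omega)
  obtain ⟨Q, hQ⟩ := exists_sumDiv_eq (genusFF K F)
    (D + (genusFF K F : ℤ) • Finsupp.single P₀ (1 : ℤ) + divisorOf f) (by
      intro v
      have := (hfD.resolve_left hf) v
      rw [Finsupp.add_apply, divisorOf_apply]
      omega) (by rw [map_add, hdeg, degree_divisorOf, add_zero])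
  exact ⟨Q, f, hf, hQ⟩

end Fermat.Agent.S27
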