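import Fermat.Agent.S27.A.TraceFormula

/-! # S27 / A / Residue  (TASKS S27/A4*): the residue theorem.

* A4a `residue_theorem_rational`: for `r ∈ K(x)`.  By `mem_span_partialFractions` and linearity reduce to `r = x^m`
  (`= dd x (x^(m+1)/(m+1))`, exact), `r = (x-a)^-(k+1)`, `k ≥ 1` (exact) and `r = (x-a)⁻¹ = dd x (x-a)/(x-a)` (`resDx_dlog`:
  residue `ord_v (x-a)`; the sum is `deg div (x-a) = 0`, `Fermat.Agent.S26.degree_divisorOf`).
* A4b `residue_theorem`: group the places by the value `a = x(v) ∈ K ∪ {∞}`; the fibre over `a` is `zeros (x - a)`, over `∞` it is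
  `zeros x⁻¹`; `K⟮x - a⟯ = K⟮x⟯ = K⟮x⁻¹⟯` (`Fermat.Agent.S24.FF.adjoin_simple_sub_algebraMap`, `adjoin_simple_inv`), `trF_congr`,
  `resDx_change`; `trace_formula` gives `n ∑_{v | a} res_v (f dx) = ∑_{v | a} res_v (Tr f dx)`; sum over `a` and use A4a. -/

set_option autoImplicit false

namespace Fermat.Agent.S27

open AlgebraicCurve Fermat.Agent.S26 IntermediateField

variable {K F : Type*} [Field K] [Field F] [Algebra K F] [IsAlgClosed K] [CharZero K] [FF1 K F]

theorem finite_resDx_ne_zero {x : F} (hx : Transcendental K x) (f : F) :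
    {v : Place K F | resDx x v f ≠ 0}.Finite := by
  by_cases hf : f = 0
  · have : {v : Place K F | resDx x v f ≠ 0} = ∅ := by
      ext v
      simp [hf, TraceFormula.resDx_zero]
    rw [this]; exact Set.finite_empty
  refine ((finite_ord_ne_zero (Ω := K) hf).union (finite_ordDx_ne_zero hx)).subset ?_
  intro v hv
  by_contra hcon
  simp only [Set.mem_union, Set.mem_ofPred_eq, not_or, not_not] at hcon
  exact hv (resDx_of_regular (Or.inr (by rw [hcon.1, hcon.2]; simp)))

namespace Residue

theorem support_finite {x : F} (hx : Transcendental K x) (f : F) :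
    (Function.support fun v : Place K F => resDx x v f).Finite :=
  finite_resDx_ne_zero hx f

/-- the total residue, as a linear map -/
theorem tot_add {x : F} (hx : Transcendental K x) (f g : F) :
    ∑ᶠ v : Place K F, resDx x v (f + g)
      = ∑ᶠ v : Place K F, resDx x v f + ∑ᶠ v : Place K F, resDx x v g := by
  rw [← finsum_add_distrib (support_finite hx f) (support_finite hx g)]
  exact finsum_congr fun v => resDx_add x v f g

theorem tot_smul (x : F) (c : K) (f : F) :
    ∑ᶠ v : Place K F, resDx x v (c • f) = c * ∑ᶠ v : Place K F, resDx x v f := by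
  rw [mul_finsum]
  exact finsum_congr fun v => resDx_smul x v c f

theorem tot_exact {x : F} (hx : Transcendental K x) (h : F) :
    ∑ᶠ v : Place K F, resDx x v (dd (K := K) x h) = 0 := by
  rw [finsum_congr fun v => resDx_dd hx v h]
  exact finsum_zero

theorem tot_dlog {x : F} (hx : Transcendental K x) {g : F} (hg : g ≠ 0) :
    ∑ᶠ v : Place K F, resDx x v (dd (K := K) x g / g) = 0 := by
  rw [finsum_congr fun v => resDx_dlog hx v hg]
  have h1 : (Function.support fun v : Place K F => ((v.ord g : ℤ) : K))
      ⊆ ((divisorOf (Ω := K) g).support : Set (Place K F)) := by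
    intro v hv
    simp only [Function.mem_support, ne_eq, Int.cast_eq_zero] at hv
    simp only [Finset.mem_coe, Finsupp.mem_support_iff, divisorOf_apply]
    exact hv
  rw [finsum_eq_sum_of_support_subset _ h1]
  have h2 := degree_divisorOf (Ω := K) g
  rw [degree_eq_sum, Finsupp.sum] at h2
  have h3 : ((∑ v ∈ (divisorOf (Ω := K) g).support, divisorOf (Ω := K) g v : ℤ) : K) = 0 := by
    rw [h2]; simp
  push_cast at h3
  rw [← h3]
  exact Finset.sum_congr rfl fun v _ => by rw [divisorOf_apply]

theorem tot_pow {x : F} (hx : Transcendental K x) (m : ℕ) :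
    ∑ᶠ v : Place K F, resDx x v (x ^ m) = 0 := by
  have h1 : x ^ m = dd (K := K) x (((m : K) + 1)⁻¹ • x ^ (m + 1)) := by
    have hm : ((m : K) + 1) ≠ 0 := by exact_mod_cast Nat.succ_ne_zero m
    rw [Derivation.map_smul, Derivation.leibniz_pow, dd_self hx]
    simp only [Nat.add_sub_cancel, smul_eq_mul, mul_one]
    rw [← Nat.cast_smul_eq_nsmul K, smul_smul]
    push_cast
    rw [inv_mul_cancel₀ hm, one_smul]
  rw [h1]
  exact tot_exact hx _

theorem tot_inv_pow {x : F} (hx : Transcendental K x) (a : K) (k : ℕ) :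
    ∑ᶠ v : Place K F, resDx x v ((x - algebraMap K F a) ^ (k + 1))⁻¹ = 0 := by
  set y := x - algebraMap K F a with hy
  have hyt : Transcendental K y := Fermat.Agent.S24.FF.transcendental_sub_algebraMap K hx a
  have hy0 : y ≠ 0 := fun h => hyt (h ▸ isAlgebraic_zero)
  have hdy : dd (K := K) x y = 1 := by
    rw [hy, map_sub, dd_self hx, Derivation.map_algebraMap, sub_zero]
  rcases Nat.eq_zero_or_pos k with rfl | hk
  · have := tot_dlog hx hy0
    rw [hdy] at this
    simpa using this
  · have hk0 : (k : K) ≠ 0 := by exact_mod_cast hk.ne'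
    have h1 : (y ^ (k + 1))⁻¹ = dd (K := K) x ((-(k : K)⁻¹) • (y ^ k)⁻¹) := by
      rw [Derivation.map_smul, Derivation.leibniz_inv, Derivation.leibniz_pow, hdy]
      simp only [smul_eq_mul, mul_one]
      rw [← Nat.cast_smul_eq_nsmul K, Algebra.smul_def, Algebra.smul_def]
      have hk0' : algebraMap K F (k : K) ≠ 0 := (map_ne_zero _).2 hk0
      rw [map_neg, map_inv₀]
      obtain ⟨j, rfl⟩ : ∃ j, k = j + 1 := ⟨k - 1, by omega⟩
      simp only [Nat.add_sub_cancel]
      field_simp
      ring
    rw [h1]
    exact tot_exact hx _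

/-- the fibres of `x` -/
noncomputable def fib (x : F) : Option K → Finset (Place K F)
  | none => zeros K x⁻¹
  | some a => zeros K (x - algebraMap K F a)

open Classical in
/-- the value of `x` at a place, in `K ∪ {∞}` -/
noncomputable def lab (x : F) (v : Place K F) : Option K :=
  if v.ord x < 0 then none else some (val v x)

theorem mem_fib_lab {x : F} (hx : Transcendental K x) (v : Place K F) : v ∈ fib x (lab x v) := by
  unfold lab
  split_ifs with h
  · simp only [fib, mem_zeros, v.ord_inv]; omega
  · simp only [fib, mem_zeros]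
    have h1 : OrdGE v 0 x := Or.inr (not_lt.1 h)
    have h2 := val_spec h1
    have h3 : x - algebraMap K F (val v x) ≠ 0 := fun h0 =>
      (Fermat.Agent.S24.FF.transcendental_sub_algebraMap K hx (val v x)) (h0 ▸ isAlgebraic_zero)
    have := (ordGE_iff h3).1 h2
    omega

theorem eq_lab_of_mem_fib {x : F} (hx : Transcendental K x) {v : Place K F} {b : Option K}
    (h : v ∈ fib x b) : b = lab x v := by
  have hx0 : x ≠ 0 := fun h => hx (h ▸ isAlgebraic_zero)
  cases b with
  | none =>
    simp only [fib, mem_zeros, v.ord_inv] at h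
    unfold lab
    rw [if_pos (by omega)]
  | some a =>
    simp only [fib, mem_zeros] at h
    have h1 : OrdGE v 1 (x - algebraMap K F a) := Or.inr (by omega)
    have h2 : OrdGE v 0 x := by
      have := (h1.mono zero_le_one).add (OrdGE.algebraMap v a)
      simpa using this
    have h3 : 0 ≤ v.ord x := (ordGE_iff hx0).1 h2
    unfold lab
    rw [if_neg (by omega), val_eq_of h1]

theorem sum_eq_sum_fib {x : F} (hx : Transcendental K x) (φ : Place K F → K)
    (hφ : (Function.support φ).Finite) :
    ∃ B₀ : Finset (Option K), ∀ B : Finset (Option K), B₀ ⊆ B →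
      ∑ᶠ v, φ v = ∑ b ∈ B, ∑ v ∈ fib x b, φ v := by
  classical
  refine ⟨hφ.toFinset.image (lab x), fun B hB => ?_⟩
  rw [← Finset.sum_biUnion]
  · refine finsum_eq_sum_of_support_subset _ ?_
    intro v hv
    simp only [Finset.coe_biUnion, Set.mem_iUnion, Finset.mem_coe]
    exact ⟨lab x v, hB (Finset.mem_image_of_mem _ (hφ.mem_toFinset.2 hv)), mem_fib_lab hx v⟩
  · intro b _ b' _ hbb'
    rw [Function.onFun, Finset.disjoint_left]
    intro v hv hv'
    exact hbb' ((eq_lab_of_mem_fib hx hv).trans (eq_lab_of_mem_fib hx hv').symm)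

/-- the trace formula for a variable `u` generating the same rational function field as `x`. -/
theorem trace_formula_of {x u : F} (hx : Transcendental K x) (hu : Transcendental K u)
    (h : K⟮u⟯ = K⟮x⟯) (hd : dd (K := K) u x ∈ K⟮u⟯) (f : F) :
    ∑ v ∈ zeros K u, resDx x v (trF K x f)
      = (Module.finrank K⟮x⟯ F : K) * ∑ v ∈ zeros K u, resDx x v f := by
  have h1 := TraceFormula.main hu (f * dd (K := K) u x)
  rw [Fermat.Agent.S24.FF.finrank_congr K h] at h1
  rw [Finset.sum_congr rfl fun v _ => resDx_change hu hx v f,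
    Finset.sum_congr rfl fun v _ => resDx_change hu hx v (trF K x f), ← h1]
  refine Finset.sum_congr rfl fun v _ => ?_
  rw [mul_comm f, trF_mul_of_mem hd, trF_congr h, mul_comm]

theorem trace_formula_fib {x : F} (hx : Transcendental K x) (f : F) (b : Option K) :
    ∑ v ∈ fib x b, resDx x v (trF K x f)
      = (Module.finrank K⟮x⟯ F : K) * ∑ v ∈ fib x b, resDx x v f := by
  have hx0 : x ≠ 0 := fun h => hx (h ▸ isAlgebraic_zero)
  cases b with
  | none =>
    have hu := Fermat.Agent.S24.FF.transcendental_inv K hx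
    refine trace_formula_of hx hu (Fermat.Agent.S24.FF.adjoin_simple_inv K x) ?_ f
    have h1 := dd_mul_dd hu hx
    have h2 : dd (K := K) x x⁻¹ = -(x⁻¹) ^ 2 := by
      rw [Derivation.leibniz_inv, dd_self hx]; simp
    have h3 : dd (K := K) x⁻¹ x = (-(x⁻¹) ^ 2)⁻¹ := by
      rw [h2] at h1
      exact eq_inv_of_mul_eq_one_left h1
    rw [h3]
    exact inv_mem (neg_mem (pow_mem (mem_adjoin_simple_self K _) 2))
  | some a =>
    have hu := Fermat.Agent.S24.FF.transcendental_sub_algebraMap K hx a
    refine trace_formula_of hx hu (Fermat.Agent.S24.FF.adjoin_simple_sub_algebraMap K x a) ?_ f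
    rw [dd_sub_algebraMap, dd_self hx]
    exact one_mem _

end Residue

open Residue

theorem residue_theorem_rational {x : F} (hx : Transcendental K x) {r : F} (hr : r ∈ K⟮x⟯) :
    ∑ᶠ v : Place K F, resDx x v r = 0 := by
  have h := mem_span_partialFractions x r hr
  clear hr
  induction h using Submodule.span_induction with
  | mem f hf =>
    rcases hf with ⟨m, rfl⟩ | ⟨a, k, rfl⟩
    · exact tot_pow hx m
    · exact tot_inv_pow hx a k
  | zero =>
    rw [finsum_congr fun v => TraceFormula.resDx_zero x v]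
    exact finsum_zero
  | add f g _ _ hf hg => rw [tot_add hx, hf, hg, add_zero]
  | smul c f _ hf => rw [tot_smul, hf, mul_zero]

theorem residue_theorem_finsum {x : F} (hx : Transcendental K x) (f : F) :
    ∑ᶠ v : Place K F, resDx x v f = 0 := by
  classical
  have := finiteDimensional_adjoin hx
  obtain ⟨B₁, hB₁⟩ := sum_eq_sum_fib hx (fun v => resDx x v f) (support_finite hx f)
  obtain ⟨B₂, hB₂⟩ := sum_eq_sum_fib hx (fun v => resDx x v (trF K x f))
    (support_finite hx (trF K x f))
  have h1 := hB₁ (B₁ ∪ B₂) Finset.subset_union_left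
  have h2 := hB₂ (B₁ ∪ B₂) Finset.subset_union_right
  rw [residue_theorem_rational hx (trF_mem x f),
    Finset.sum_congr rfl fun b _ => trace_formula_fib hx f b, ← Finset.mul_sum, ← h1] at h2
  have hn : (Module.finrank K⟮x⟯ F : K) ≠ 0 := by
    exact_mod_cast (Module.finrank_pos (R := K⟮x⟯) (M := F)).ne'
  exact (mul_eq_zero.1 h2.symm).resolve_left hn

/-- **Residue theorem.** -/
theorem residue_theorem {x : F} (hx : Transcendental K x) (f : F) (S : Finset (Place K F))
    (hS : ∀ v ∉ S, f = 0 ∨ 0 ≤ v.ord f + ordDx x v) : ∑ v ∈ S, resDx x v f = 0 := by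
  rw [← residue_theorem_finsum hx f]
  refine (finsum_eq_sum_of_support_subset _ ?_).symm
  intro v hv
  by_contra hvS
  exact hv (resDx_of_regular (hS v hvS))

/-- **Residue theorem, simple poles** (the form used in Parts B and C). -/
theorem sum_residues_simple {x : F} (hx : Transcendental K x) (f : F) (S : Finset (Place K F))
    (t : Place K F → F) (ht : ∀ v ∈ S, v.ord (t v) = 1)
    (hS : ∀ v ∈ S, OrdGE v (-1) (f * dd (K := K) (t v) x))
    (hreg : ∀ v ∉ S, f = 0 ∨ 0 ≤ v.ord f + ordDx x v) :
    ∑ v ∈ S, val v (t v * (f * dd (K := K) (t v) x)) = 0 := by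
  rw [← residue_theorem hx f S hreg]
  refine Finset.sum_congr rfl fun v hv => ?_
  rw [resDx_eq hx (ht v hv), res_simple (ht v hv) (hS v hv)]

end Fermat.Agent.S27
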