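import Fermat.Agent.S27.A.TraceBasic
import Fermat.Agent.S27.A.Charpoly

/-! # S27 / A / Trace  (TASKS S27/A3*): the trace `F → K(u)`, reduction mod `u`, the local trace formula.

`trF u f` is `Tr_{F/K(u)} f`, viewed in `F`.   `zeros u` = the finite set of zeros of `u`.

* A3a `trF_congr`, `trF_add`, `trF_smul`, `trF_mul_of_mem`, `trF_of_mem`, `trF_mem`, `trF_dd` (from `Gen/TraceDeriv`;
  `dd u` maps `K⟮u⟯` into itself: it is `d/du` on rational functions).
* A3b **`trF_ordGE`** (the key lemma "TR").  Let `R = K[u]` (`Fermat.Agent.S24.FF.Ry`), `S` its integral closure in `F`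
  (`Fermat.Agent.S24.FF.Sy`: Dedekind, finite free over the PID `R`), `p = (u)` (`pY`).
  (i) reduce to `φ ∈ S`: there is `d ∈ K[u]`, `d(0) ≠ 0`, with `d φ ∈ S`
      (`IsDedekindDomain.HeightOneSpectrum.mem_integers_of_valuation_le_one`).
  (ii) `Tr_{S/R}(s) mod p = Tr_{(S/pS)/K}(s)` (`Algebra.trace_quotient_mk` in `Mathlib/RingTheory/Trace/Quotient.lean`).
  (iii) `S/pS ≅ ∏_P S/P^{e_P}` (CRT), on `S/P^e` (of `K`-dimension `e`, cf. `Ideal.sum_ramification_inertia` and its
      lemmas, and `Fermat.Agent.S24.FF.SumFormula`) `s - s(P)` is nilpotent, so the trace is `e_P s(P)`.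
  So `Tr s - ∑ e_P s(P) ∈ u K[u]`.
* A3c **`trace_formula`**.  Let `Z = zeros u`, `e_P = ord_P u`, `n = [F:K(u)] = ∑ e_P`.  By weak approximation
  (`Fermat.Agent.S26.exists_approx`) choose `φ_Q` (`Q ∈ Z`) with `φ_Q ≡ δ_{PQ}` mod `t_P^N` at all `P ∈ Z` and `h` with
  `h ≡ h_P` mod `t_P^N`, `h_P` from `exists_polar_primitive` applied to `f · dd t_P u`.  Then
  `f = ∑_Q (c_Q / e_Q) φ_Q / u + dd u h + f'` with `c_Q = resDx u Q f` and `f' du` regular on `Z`, i.e. `ord_P (u f') ≥ 1`.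
  Apply `trF u`: `trF (dd u h) = dd u (trF h)` has no residues; `trF (u f') = u trF f'` has `ord_P ≥ e_P` by `trF_ordGE`
  (value `0`), so `trF f'` is regular on `Z` and so is `trF f' du`;  `trF φ_Q = e_Q + u ρ`, `ρ` regular on `Z`, so
  `res_P (trF φ_Q du/u) = e_Q e_P`.  Summing over `P ∈ Z`: `∑_P res_P (trF f du) = ∑_Q (c_Q/e_Q) e_Q n = n ∑_Q c_Q`. -/

set_option autoImplicit false

namespace Fermat.Agent.S27

open AlgebraicCurve Fermat.Agent.S26 IntermediateField

variable {K F : Type*} [Field K] [Field F] [Algebra K F] [IsAlgClosed K] [CharZero K] [FF1 K F]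

-- (A3a: `trF`, `zeros`, ... now live in `A/TraceBasic.lean`, sorry-free.)

-- (A3b: `charpoly_ordGE`, `trF_ordGE` now live in `A/Charpoly.lean`, sorry-free.)

-- (A3c: `trace_formula` now lives in `A/TraceFormula.lean`, which imports this file.)

end Fermat.Agent.S27
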