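import Fermat.Agent.S27.A.Expand
import Fermat.Agent.S27.Gen.TraceDeriv
import Fermat.Agent.S27.Gen.PartialFractions

/-! # S27 / A / TraceBasic  (TASK S27/A3a): the trace `trF u f = Tr_{F/K(u)} f`, the zeros of `u`, the order at `u = 0`
of an element of `K(u)` (`exists_ordU`, `ordGE_zero_of_mem`, `ordGE_ord_of_mem`, `ord_dvd_of_mem`), `trF_dd`.
Sorry-free (modulo `A/Deriv.lean`).  `A/Trace.lean` imports this file. -/

set_option autoImplicit false
set_option linter.unusedSectionVars false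
set_option linter.style.haveILetI false

namespace Fermat.Agent.S27

open AlgebraicCurve Fermat.Agent.S26 IntermediateField

variable {K F : Type*} [Field K] [Field F] [Algebra K F]

/-- `Tr_{F/K(u)} f`, viewed in `F`. -/
noncomputable def trF (K : Type*) {F : Type*} [Field K] [Field F] [Algebra K F] (u f : F) : F :=
  algebraMap K⟮u⟯ F (Algebra.trace K⟮u⟯ F f)

theorem trF_congr {u u' : F} (h : K⟮u⟯ = K⟮u'⟯) (f : F) : trF K u f = trF K u' f := by
  have key : ∀ E E' : IntermediateField K F, E = E' →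
      algebraMap E F (Algebra.trace E F f) = algebraMap E' F (Algebra.trace E' F f) := by
    rintro E E' rfl
    rfl
  exact key _ _ h

theorem trF_mem (u f : F) : trF K u f ∈ K⟮u⟯ := (Algebra.trace K⟮u⟯ F f).2

theorem trF_add (u f g : F) : trF K u (f + g) = trF K u f + trF K u g := by
  simp [trF]

theorem trF_mul_of_mem {u r : F} (hr : r ∈ K⟮u⟯) (f : F) : trF K u (r * f) = r * trF K u f := by
  unfold trF
  have h1 : r * f = (⟨r, hr⟩ : K⟮u⟯) • f := rfl
  rw [h1, map_smul, smul_eq_mul, map_mul]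
  rfl

theorem trF_smul (u : F) (c : K) (f : F) : trF K u (c • f) = c • trF K u f := by
  rw [Algebra.smul_def, Algebra.smul_def]
  exact trF_mul_of_mem (IntermediateField.algebraMap_mem _ c) f

theorem trF_sum (u : F) {ι : Type*} (s : Finset ι) (f : ι → F) :
    trF K u (∑ i ∈ s, f i) = ∑ i ∈ s, trF K u (f i) := by
  simp [trF]

theorem trF_of_mem {u r : F} (hr : r ∈ K⟮u⟯) : trF K u r = (Module.finrank K⟮u⟯ F : F) * r := by
  unfold trF
  have h1 : r = algebraMap K⟮u⟯ F ⟨r, hr⟩ := rfl
  conv_lhs => rw [h1]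
  rw [Algebra.trace_algebraMap, nsmul_eq_mul, map_mul, map_natCast]
  rfl

/-! ### the order at `u = 0` of an element of `K(u)` -/

theorem ordGE_aeval {v : Place K F} {u : F} (hu : OrdGE v 0 u) (p : Polynomial K) :
    OrdGE v 0 (Polynomial.aeval u p) := by
  rw [Polynomial.aeval_eq_sum_range]
  refine OrdGE.sum _ _ fun i _ => ?_
  have := (hu.pow i).smul (p.coeff i)
  simpa using this

theorem ord_aeval_of_coeff_zero_ne {v : Place K F} {u : F} (hu : 0 < v.ord u) {p : Polynomial K}
    (hp : p.coeff 0 ≠ 0) : Polynomial.aeval u p ≠ 0 ∧ v.ord (Polynomial.aeval u p) = 0 := by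
  have h1 : Polynomial.aeval u p = Polynomial.aeval u p.divX * u + algebraMap K F (p.coeff 0) := by
    conv_lhs => rw [← Polynomial.divX_mul_X_add p]
    simp
  have hu1 : OrdGE v 1 u := Or.inr (by omega)
  have h2 : OrdGE v 1 (Polynomial.aeval u p.divX * u) := by
    simpa using (ordGE_aeval (hu1.mono zero_le_one) p.divX).mul hu1
  have hc : algebraMap K F (p.coeff 0) ≠ 0 := by simpa using hp
  have hc0 : v.ord (algebraMap K F (p.coeff 0)) = 0 := Fermat.Agent.S24.FF.ord_algebraMap v _
  by_cases h3 : Polynomial.aeval u p.divX * u = 0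
  · rw [h1, h3, zero_add]
    exact ⟨hc, hc0⟩
  · have h4 := (ordGE_iff h3).1 h2
    have h5 := Fermat.Agent.S24.FF.ord_add_eq_of_lt v hc h3 (by omega)
    rw [add_comm] at h5
    rw [h1]
    refine ⟨?_, by rw [h5, hc0]⟩
    intro h0
    have h6 : Polynomial.aeval u p.divX * u = - algebraMap K F (p.coeff 0) := eq_neg_of_add_eq_zero_left h0
    rw [h6, Fermat.Agent.S24.FF.ord_neg, hc0] at h4
    omega

theorem exists_ordU_aeval {u : F} {p : Polynomial K} (hp : p ≠ 0) :
    ∃ k : ℕ, ∀ v : Place K F, 0 < v.ord u →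
      Polynomial.aeval u p ≠ 0 ∧ v.ord (Polynomial.aeval u p) = k * v.ord u := by
  obtain ⟨q, hq, hq0⟩ : ∃ q : Polynomial K, p = Polynomial.X ^ p.natTrailingDegree * q ∧ q.coeff 0 ≠ 0 := by
    obtain ⟨q, hq⟩ := (Polynomial.X_pow_dvd_iff (f := p) (n := p.natTrailingDegree)).2
      (fun d hd => Polynomial.coeff_eq_zero_of_lt_natTrailingDegree hd)
    refine ⟨q, hq, ?_⟩
    have h1 : p.coeff p.natTrailingDegree ≠ 0 := by
      rw [← Polynomial.trailingCoeff]
      exact Polynomial.trailingCoeff_nonzero_iff_nonzero.2 hp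
    intro h0
    apply h1
    have := Polynomial.coeff_X_pow_mul q p.natTrailingDegree 0
    rw [zero_add, ← hq] at this
    rw [this, h0]
  refine ⟨p.natTrailingDegree, fun v hv => ?_⟩
  obtain ⟨h1, h2⟩ := ord_aeval_of_coeff_zero_ne hv hq0
  have hu0 : u ≠ 0 := Fermat.Agent.S24.FF.ne_zero_of_ord_ne_zero v hv.ne'
  have h3 : Polynomial.aeval u p = u ^ p.natTrailingDegree * Polynomial.aeval u q := by
    conv_lhs => rw [hq]
    simp
  rw [h3]
  refine ⟨mul_ne_zero (pow_ne_zero _ hu0) h1, ?_⟩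
  rw [v.ord_mul (pow_ne_zero _ hu0) h1, h2, Fermat.Agent.S24.FF.ord_pow, add_zero]

/-- an element `r ≠ 0` of `K(u)` has a well defined order `k` at `u = 0`: `ord_v r = k ord_v u` at all zeros `v` of `u`. -/
theorem exists_ordU {u r : F} (hr : r ∈ K⟮u⟯) (hr0 : r ≠ 0) :
    ∃ k : ℤ, ∀ v : Place K F, 0 < v.ord u → v.ord r = k * v.ord u := by
  obtain ⟨p, q, rfl⟩ := (IntermediateField.mem_adjoin_simple_iff K r).1 hr
  have hp : p ≠ 0 := by
    rintro rfl
    simp at hr0
  have hq : q ≠ 0 := by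
    rintro rfl
    simp at hr0
  obtain ⟨k, hk⟩ := exists_ordU_aeval (F := F) (u := u) hp
  obtain ⟨l, hl⟩ := exists_ordU_aeval (F := F) (u := u) hq
  refine ⟨k - l, fun v hv => ?_⟩
  rw [Fermat.Agent.S24.FF.ord_div v (hk v hv).1 (hl v hv).1, (hk v hv).2, (hl v hv).2]
  ring

/-- an element of `K(u)` regular at one zero of `u` is regular at all zeros of `u`. -/
theorem ordGE_zero_of_mem {u r : F} (hr : r ∈ K⟮u⟯) {w : Place K F} (hw : 0 < w.ord u)
    (h : OrdGE w 0 r) {v : Place K F} (hv : 0 < v.ord u) : OrdGE v 0 r := by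
  by_cases hr0 : r = 0
  · exact Or.inl hr0
  obtain ⟨k, hk⟩ := exists_ordU hr hr0
  have h1 := (ordGE_iff hr0).1 h
  rw [hk w hw] at h1
  have hk0 : 0 ≤ k := by
    by_contra hcon
    have : k * w.ord u < 0 := mul_neg_of_neg_of_pos (not_le.mp hcon) hw
    omega
  refine Or.inr ?_
  rw [hk v hv]
  positivity

/-- an element of `K(u)` vanishing at one zero of `u` is divisible by `u` at all zeros of `u`. -/
theorem ordGE_ord_of_mem {u r : F} (hr : r ∈ K⟮u⟯) {w : Place K F} (hw : 0 < w.ord u)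
    (h : OrdGE w 1 r) {v : Place K F} (hv : 0 < v.ord u) : OrdGE v (v.ord u) r := by
  by_cases hr0 : r = 0
  · exact Or.inl hr0
  obtain ⟨k, hk⟩ := exists_ordU hr hr0
  have h1 := (ordGE_iff hr0).1 h
  rw [hk w hw] at h1
  have hk0 : 1 ≤ k := by
    by_contra hcon
    have : k * w.ord u ≤ 0 := mul_nonpos_of_nonpos_of_nonneg (by omega) hw.le
    omega
  refine Or.inr ?_
  rw [hk v hv]
  nlinarith

variable [IsAlgClosed K] [CharZero K] [FF1 K F]

theorem finite_zeros (u : F) : {v : Place K F | 0 < v.ord u}.Finite := by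
  by_cases hu : u = 0
  · subst hu
    simp
  · exact finite_ord_pos hu

/-- the zeros of `u` -/
noncomputable def zeros (K : Type*) {F : Type*} [Field K] [Field F] [Algebra K F] [IsAlgClosed K]
    [CharZero K] [FF1 K F] (u : F) : Finset (Place K F) := (finite_zeros (K := K) u).toFinset

@[simp] theorem mem_zeros {u : F} {v : Place K F} : v ∈ zeros K u ↔ 0 < v.ord u := by
  simp [zeros]

theorem sum_ord_zeros {u : F} (hu : Transcendental K u) :
    ∑ v ∈ zeros K u, v.ord u = (Module.finrank K⟮u⟯ F : ℤ) := by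
  rw [← degree_zeroDivisor hu, DivisorOf.degree_zeroDivisor_eq_sum]
  have hs : (zeroDivisor (Ω := K) u).support = zeros K u := by
    ext v
    rw [mem_zeros, Finsupp.mem_support_iff, zeroDivisor_apply]
    omega
  rw [hs]
  refine Finset.sum_congr rfl fun v _ => ?_
  rw [deg_eq_one]
  simp

theorem dd_mem_adjoin {u : F} (hu : Transcendental K u) {a : F} (ha : a ∈ K⟮u⟯) :
    dd (K := K) u a ∈ K⟮u⟯ := by
  induction ha using IntermediateField.adjoin_induction with
  | mem x hx =>
    rw [Set.mem_singleton_iff] at hx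
    rw [hx, dd_self hu]
    exact one_mem _
  | algebraMap x =>
    rw [Derivation.map_algebraMap]
    exact zero_mem _
  | add x y _ _ hx hy =>
    rw [map_add]
    exact add_mem hx hy
  | inv x hx hx' =>
    rw [Derivation.leibniz_inv]
    exact mul_mem (neg_mem (pow_mem (inv_mem hx) _)) hx'
  | mul x y hx hy hx' hy' =>
    rw [Derivation.leibniz]
    exact add_mem (mul_mem hx hy') (mul_mem hy hx')

/-- the restriction of `d/du` to `K(u)`. -/
noncomputable def ddU {u : F} (hu : Transcendental K u) : Derivation K K⟮u⟯ K⟮u⟯ :=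
  Derivation.mk'
    { toFun := fun a => ⟨dd (K := K) u a, dd_mem_adjoin hu a.2⟩
      map_add' := fun a b => Subtype.ext (by simp)
      map_smul' := fun c a => Subtype.ext (by simp) }
    (fun a b => Subtype.ext (by
      simp [Derivation.leibniz]))

theorem trF_dd {u : F} (hu : Transcendental K u) (f : F) :
    trF K u (dd (K := K) u f) = dd (K := K) u (trF K u f) := by
  haveI := finiteDimensional_adjoin hu
  unfold trF
  rw [trace_derivation (ddU hu) (dd (K := K) u) (fun a => rfl) f]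
  rfl

/-- elements of `K(u)` have order divisible by `ord_w u` at a zero `w` of `u`. -/
theorem ord_dvd_of_mem {u r : F} (hr : r ∈ K⟮u⟯) {w : Place K F} (hw : 0 < w.ord u) :
    w.ord u ∣ w.ord r := by
  by_cases hr0 : r = 0
  · subst hr0
    simp
  obtain ⟨k, hk⟩ := exists_ordU hr hr0
  rw [hk w hw]
  exact Dvd.intro_left k rfl

end Fermat.Agent.S27
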