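import Fermat.Agent.S27.A.Trace

/-! # S27 / A / TraceFormula  (TASK S27/A3c): proof of the local trace formula.

`trace_formula` (= `TraceFormula.main`) has verbatim the statement of the former stub in `A/Trace.lean`. -/

set_option autoImplicit false

namespace Fermat.Agent.S27

open AlgebraicCurve Fermat.Agent.S26 IntermediateField

variable {K F : Type*} [Field K] [Field F] [Algebra K F] [IsAlgClosed K] [CharZero K] [FF1 K F]

namespace TraceFormula

omit [IsAlgClosed K] [CharZero K] [FF1 K F] in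
theorem ordGE_of_ord_eq {v : Place K F} {n : ℤ} {f : F} (h : v.ord f = n) : OrdGE v n f :=
  Or.inr h.ge

theorem resDx_zero (x : F) (v : Place K F) : resDx x v (0 : F) = 0 :=
  resDx_of_regular (Or.inl rfl)

theorem resDx_sum (x : F) (v : Place K F) {ι : Type*} (s : Finset ι) (f : ι → F) :
    resDx x v (∑ i ∈ s, f i) = ∑ i ∈ s, resDx x v (f i) := by
  classical
  induction s using Finset.induction_on with
  | empty => simpa using resDx_zero x v
  | insert a s ha ih => rw [Finset.sum_insert ha, Finset.sum_insert ha, resDx_add, ih]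

/-- data at a zero `P` of `u`. -/
theorem ord_dd_unif_u {u : F} {P : Place K F} (hP : 0 < P.ord u) :
    P.ord (dd (K := K) (unif P) u) = P.ord u - 1 :=
  ord_dd (ord_unif P) hP.ne'

theorem dd_unif_ne_zero {u : F} (hu : Transcendental K u) (P : Place K F) :
    dd (K := K) (unif P) u ≠ 0 :=
  dd_ne_zero (transcendental_of_ord_ne_zero P (by rw [ord_unif]; exact one_ne_zero)) hu

/-- `u / (du/dt)` has order one. -/
theorem ordGE_u_div {u : F} (hu : Transcendental K u) {P : Place K F} (hP : 0 < P.ord u) :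
    OrdGE P 1 (u * (dd (K := K) (unif P) u)⁻¹) := by
  have hu0 : u ≠ 0 := Fermat.Agent.S24.FF.ne_zero_of_ord_ne_zero P hP.ne'
  refine Or.inr ?_
  rw [P.ord_mul hu0 (inv_ne_zero (dd_unif_ne_zero hu P)), P.ord_inv, ord_dd_unif_u hP]
  omega

/-- `du/u = e dt/t + regular`. -/
theorem dlog_regular {u : F} (hu : Transcendental K u) {P : Place K F} (hP : 0 < P.ord u) :
    OrdGE P 0 (dd (K := K) (unif P) u * u⁻¹ - algebraMap K F (P.ord u : K) * (unif P)⁻¹) := by
  set t := unif P with ht
  have ht1 : P.ord t = 1 := ord_unif P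
  have ht0 : t ≠ 0 := Fermat.Agent.S24.FF.ne_zero_of_ord_ne_zero P (by rw [ht1]; exact one_ne_zero)
  have hu0 : u ≠ 0 := Fermat.Agent.S24.FF.ne_zero_of_ord_ne_zero P hP.ne'
  have hD0 := dd_unif_ne_zero hu P
  have h1 : OrdGE P (-1) (dd (K := K) t u / u) := by
    refine Or.inr ?_
    rw [Fermat.Agent.S24.FF.ord_div P hD0 hu0, ord_dd_unif_u hP]
    omega
  have h2 : res P t (dd (K := K) t u / u) = (P.ord u : K) := res_dlog ht1 hu0
  have h3 := res_simple ht1 h1
  have h4 : OrdGE P 0 (t * (dd (K := K) t u / u)) := by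
    have := (ordGE_of_ord_eq ht1).mul h1
    simpa using this
  have h5 := val_spec h4
  rw [← h3, h2] at h5
  have h6 : OrdGE P (-1) t⁻¹ := Or.inr (by rw [P.ord_inv, ht1])
  have h7 := h6.mul h5
  have h8 : t⁻¹ * (t * (dd (K := K) t u / u) - algebraMap K F (P.ord u : K))
      = dd (K := K) t u * u⁻¹ - algebraMap K F (P.ord u : K) * t⁻¹ := by
    field_simp
  rw [h8] at h7
  simpa using h7

/-- **local decomposition** `f du = (c/e) du/u + dh + regular`. -/
theorem exists_local {u : F} (hu : Transcendental K u) {P : Place K F} (hP : 0 < P.ord u) (f : F) :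
    ∃ h : F, OrdGE P 1
      (u * (f - algebraMap K F (resDx u P f / (P.ord u : K)) * u⁻¹ - dd (K := K) u h)) := by
  set t := unif P with ht
  have ht1 : P.ord t = 1 := ord_unif P
  have htt : Transcendental K t :=
    transcendental_of_ord_ne_zero P (by rw [ht1]; exact one_ne_zero)
  have hu0 : u ≠ 0 := Fermat.Agent.S24.FF.ne_zero_of_ord_ne_zero P hP.ne'
  have hD0 := dd_unif_ne_zero hu P
  have he : (P.ord u : K) ≠ 0 := by exact_mod_cast hP.ne'
  obtain ⟨h, hh⟩ := exists_polar_primitive ht1 (f * dd (K := K) t u)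
  refine ⟨h, ?_⟩
  have hc : res P t (f * dd (K := K) t u) = resDx u P f := rfl
  rw [hc, dd_chain htt hu h] at hh
  have h1 := dlog_regular hu hP
  have h2 := hh.sub ((OrdGE.algebraMap P (resDx u P f / (P.ord u : K))).mul h1)
  have h3 := (ordGE_u_div hu hP).mul h2
  have h4 : u * (dd (K := K) (unif P) u)⁻¹ *
      (f * dd (K := K) t u - algebraMap K F (resDx u P f) * t⁻¹ - dd (K := K) u h * dd (K := K) t u -
        algebraMap K F (resDx u P f / (P.ord u : K)) *
          (dd (K := K) (unif P) u * u⁻¹ - algebraMap K F (P.ord u : K) * (unif P)⁻¹))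
      = u * (f - algebraMap K F (resDx u P f / (P.ord u : K)) * u⁻¹ - dd (K := K) u h) := by
    have he' : algebraMap K F (P.ord u : K) ≠ 0 := (map_ne_zero (algebraMap K F)).2 he
    have hD0' : dd (K := K) t u ≠ 0 := hD0
    have ht0 : t ≠ 0 :=
      Fermat.Agent.S24.FF.ne_zero_of_ord_ne_zero P (by rw [ht1]; exact one_ne_zero)
    rw [map_div₀]
    rw [← ht]
    field_simp
    ring
  rw [h4] at h3
  simpa using h3

/-- `u · d/du` maps functions vanishing at a zero `P` of `u` to functions vanishing at `P`. -/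
theorem ordGE_u_mul_dd {u : F} (hu : Transcendental K u) {P : Place K F} (hP : 0 < P.ord u) {g : F}
    (hg : OrdGE P 1 g) : OrdGE P 1 (u * dd (K := K) u g) := by
  have ht1 : P.ord (unif P) = 1 := ord_unif P
  have htt : Transcendental K (unif P) :=
    transcendental_of_ord_ne_zero P (by rw [ht1]; exact one_ne_zero)
  have hD0 := dd_unif_ne_zero hu P
  have h1 : OrdGE P 0 (dd (K := K) (unif P) g) := by simpa using OrdGE.dd' ht1 hg
  have h2 := (ordGE_u_div hu hP).mul h1
  rw [dd_chain htt hu g] at h2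
  have h3 : u * (dd (K := K) (unif P) u)⁻¹ * (dd (K := K) u g * dd (K := K) (unif P) u)
      = u * dd (K := K) u g := by
    field_simp
  rw [h3] at h2
  simpa using h2

/-- regular functions at a zero of `u` have no residue w.r.t. `du`. -/
theorem resDx_of_ordGE_zero {u : F} (hu : Transcendental K u) {P : Place K F} (hP : 0 < P.ord u)
    {g : F} (hg : OrdGE P 0 g) : resDx u P g = 0 := by
  refine resDx_of_regular ?_
  rcases hg with hg | hg
  · exact Or.inl hg
  · exact Or.inr (add_nonneg hg (ordDx_nonneg hu hP.le))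

theorem resDx_inv {u : F} (hu : Transcendental K u) (P : Place K F) :
    resDx u P u⁻¹ = (P.ord u : K) := by
  have hu0 : u ≠ 0 := fun h => hu (h ▸ isAlgebraic_zero)
  have := resDx_dlog hu P hu0
  rwa [dd_self hu, one_div] at this

/-- if `φ` is regular on the zeros of `u`, then `res_w (Tr φ du / u) = e_w ∑ e_v φ(v)`. -/
theorem resDx_inv_mul_trF {u : F} (hu : Transcendental K u) {φ : F}
    (hφ : ∀ v : Place K F, 0 < v.ord u → OrdGE v 0 φ) {w : Place K F} (hw : 0 < w.ord u) :
    resDx u w (u⁻¹ * trF K u φ) = (w.ord u : K) * ∑ v ∈ zeros K u, (v.ord u : K) * val v φ := by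
  have hu0 : u ≠ 0 := fun h => hu (h ▸ isAlgebraic_zero)
  set c : K := ∑ v ∈ zeros K u, (v.ord u : K) * val v φ with hc
  have h1 := trF_ordGE hu hφ hw
  rw [← hc] at h1
  have h2 : OrdGE w (-(w.ord u)) u⁻¹ := Or.inr (by rw [w.ord_inv])
  have h3 : OrdGE w 0 (u⁻¹ * (trF K u φ - algebraMap K F c)) := by simpa using h2.mul h1
  have h4 : u⁻¹ * trF K u φ = u⁻¹ * (trF K u φ - algebraMap K F c) + c • u⁻¹ := by
    rw [Algebra.smul_def]; ring
  rw [h4, resDx_add, resDx_of_ordGE_zero hu hw h3, resDx_smul, resDx_inv hu, zero_add, mul_comm]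

/-- if `u f'` vanishes on the zeros of `u`, then `Tr f' du` has no residue there. -/
theorem resDx_trF_eq_zero {u : F} (hu : Transcendental K u) {f' : F}
    (hf' : ∀ v : Place K F, 0 < v.ord u → OrdGE v 1 (u * f')) {w : Place K F} (hw : 0 < w.ord u) :
    resDx u w (trF K u f') = 0 := by
  have hu0 : u ≠ 0 := fun h => hu (h ▸ isAlgebraic_zero)
  have h1 := trF_ordGE hu (fun v hv => (hf' v hv).mono zero_le_one) hw
  have h0 : ∑ v ∈ zeros K u, (v.ord u : K) * val v (u * f') = 0 := by
    refine Finset.sum_eq_zero fun v hv => ?_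
    have hv' : 0 < v.ord u := mem_zeros.1 hv
    rw [(val_eq_zero_iff ((hf' v hv').mono zero_le_one)).2 (hf' v hv'), mul_zero]
  rw [h0, map_zero, sub_zero, trF_mul_of_mem (mem_adjoin_simple_self K u)] at h1
  have h2 : OrdGE w (-(w.ord u)) u⁻¹ := Or.inr (by rw [w.ord_inv])
  have h3 := h2.mul h1
  rw [← mul_assoc, inv_mul_cancel₀ hu0, one_mul] at h3
  exact resDx_of_ordGE_zero hu hw (by simpa using h3)

/-- **local trace formula** over the point `u = 0`. -/
theorem main {u : F} (hu : Transcendental K u) (f : F) :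
    ∑ v ∈ zeros K u, resDx u v (trF K u f)
      = (Module.finrank K⟮u⟯ F : K) * ∑ v ∈ zeros K u, resDx u v f := by
  classical
  have hu0 : u ≠ 0 := fun h => hu (h ▸ isAlgebraic_zero)
  set Z := zeros K u with hZ
  -- local primitives
  have hloc : ∀ P : Place K F, ∃ h : F, 0 < P.ord u → OrdGE P 1
      (u * (f - algebraMap K F (resDx u P f / (P.ord u : K)) * u⁻¹ - dd (K := K) u h)) := by
    intro P
    by_cases hP : 0 < P.ord u
    · obtain ⟨h, hh⟩ := exists_local hu hP f
      exact ⟨h, fun _ => hh⟩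
    · exact ⟨0, fun h => absurd h hP⟩
  choose hP hhP using hloc
  -- global approximations
  obtain ⟨h, hh⟩ := exists_approx Z hP (fun _ => 1)
  have hφ : ∀ Q : Place K F, ∃ φ : F, ∀ v ∈ Z, OrdGE v 1 (φ - if v = Q then 1 else 0) := by
    intro Q
    obtain ⟨φ, h⟩ := exists_approx Z (fun v => if v = Q then 1 else 0) (fun _ => 1)
    refine ⟨φ, fun v hv => ?_⟩
    rcases h v hv with h | h
    · exact Or.inl (sub_eq_zero.2 h)
    · exact Or.inr h
  choose φ hφ using hφ
  have hh' : ∀ v ∈ Z, OrdGE v 1 (h - hP v) := by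
    intro v hv
    rcases hh v hv with h | h
    · exact Or.inl (sub_eq_zero.2 h)
    · exact Or.inr h
  set c : Place K F → K := fun Q => resDx u Q f / (Q.ord u : K) with hc
  set f' : F := f - ∑ Q ∈ Z, c Q • (u⁻¹ * φ Q) - dd (K := K) u h with hf'
  -- `u f'` vanishes on `Z`
  have hf'Z : ∀ v : Place K F, 0 < v.ord u → OrdGE v 1 (u * f') := by
    intro P hPu
    have hPZ : P ∈ Z := mem_zeros.2 hPu
    have h1 := hhP P hPu
    have h2 : OrdGE P 1 (∑ Q ∈ Z, c Q • (φ Q - if P = Q then 1 else 0)) :=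
      OrdGE.sum _ _ fun Q _ => (hφ Q P hPZ).smul _
    have h3 := ordGE_u_mul_dd hu hPu (hh' P hPZ)
    have h4 : u * f' = u * (f - algebraMap K F (resDx u P f / (P.ord u : K)) * u⁻¹
          - dd (K := K) u (hP P)) - (∑ Q ∈ Z, c Q • (φ Q - if P = Q then 1 else 0))
          - u * dd (K := K) u (h - hP P) := by
      have e1 : ∑ Q ∈ Z, c Q • (φ Q - if P = Q then (1 : F) else 0)
          = ∑ Q ∈ Z, c Q • φ Q - algebraMap K F (c P) := by
        simp only [smul_sub, Finset.sum_sub_distrib]
        congr 1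
        rw [Finset.sum_eq_single P]
        · simp [Algebra.smul_def]
        · intro Q _ hQ
          simp [Ne.symm hQ]
        · intro h; exact absurd hPZ h
      have e2 : u * ∑ Q ∈ Z, c Q • (u⁻¹ * φ Q) = ∑ Q ∈ Z, c Q • φ Q := by
        rw [Finset.mul_sum]
        refine Finset.sum_congr rfl fun Q _ => ?_
        rw [mul_smul_comm, ← mul_assoc, mul_inv_cancel₀ hu0, one_mul]
      rw [e1, hf', map_sub]
      have e3 : u * (f - ∑ Q ∈ Z, c Q • (u⁻¹ * φ Q) - dd (K := K) u h)
          = u * f - u * ∑ Q ∈ Z, c Q • (u⁻¹ * φ Q) - u * dd (K := K) u h := by ring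
      rw [e3, e2]
      have e4 : u * (f - algebraMap K F (resDx u P f / (P.ord u : K)) * u⁻¹ - dd (K := K) u (hP P))
          = u * f - algebraMap K F (c P) - u * dd (K := K) u (hP P) := by
        have e5 : c P = resDx u P f / (P.ord u : K) := rfl
        rw [e5]
        field_simp
      rw [e4]
      ring
    rw [h4]
    exact (h1.sub h2).sub h3
  -- the regularity of the `φ Q`
  have hφreg : ∀ Q, ∀ v : Place K F, 0 < v.ord u → OrdGE v 0 (φ Q) := by
    intro Q v hv
    have h1 := (hφ Q v (mem_zeros.2 hv)).mono zero_le_one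
    have h2 : OrdGE v 0 (if v = Q then (1 : F) else 0) := by
      split_ifs
      · exact Or.inr (by simp)
      · exact OrdGE.zero _ _
    simpa using h1.add h2
  have hφval : ∀ Q, ∀ v ∈ Z, val v (φ Q) = if v = Q then 1 else 0 := by
    intro Q v hv
    refine val_eq_of ?_
    have := hφ Q v hv
    split_ifs with hvQ
    · simpa [hvQ] using this
    · simpa [hvQ] using this
  -- decomposition of the trace
  have hdec : trF K u f = ∑ Q ∈ Z, c Q • (u⁻¹ * trF K u (φ Q)) + dd (K := K) u (trF K u h)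
      + trF K u f' := by
    have e1 : f = ∑ Q ∈ Z, c Q • (u⁻¹ * φ Q) + dd (K := K) u h + f' := by rw [hf']; ring
    conv_lhs => rw [e1]
    rw [trF_add, trF_add, trF_sum, trF_dd hu]
    congr 2
    refine Finset.sum_congr rfl fun Q _ => ?_
    rw [trF_smul, trF_mul_of_mem (inv_mem (mem_adjoin_simple_self K u))]
  have hres : ∀ w ∈ Z, resDx u w (trF K u f) = (w.ord u : K) * ∑ Q ∈ Z, resDx u Q f := by
    intro w hw
    have hw' : 0 < w.ord u := mem_zeros.1 hw
    rw [hdec, resDx_add, resDx_add, resDx_dd hu, resDx_trF_eq_zero hu hf'Z hw', add_zero, add_zero,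
      resDx_sum, Finset.mul_sum]
    refine Finset.sum_congr rfl fun Q hQ => ?_
    have hQ' : 0 < Q.ord u := mem_zeros.1 hQ
    have he : (Q.ord u : K) ≠ 0 := by exact_mod_cast hQ'.ne'
    rw [resDx_smul, resDx_inv_mul_trF hu (hφreg Q) hw']
    have e1 : ∑ v ∈ zeros K u, (v.ord u : K) * val v (φ Q) = (Q.ord u : K) := by
      rw [Finset.sum_eq_single Q]
      · rw [hφval Q Q hQ]; simp
      · intro v hv hvQ
        rw [hφval Q v hv]; simp [hvQ]
      · intro h; exact absurd hQ h
    rw [e1, hc]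
    field_simp
  rw [Finset.sum_congr rfl hres, ← Finset.sum_mul]
  congr 1
  have := sum_ord_zeros (K := K) hu
  have h2 : ((∑ v ∈ zeros K u, v.ord u : ℤ) : K) = ((Module.finrank K⟮u⟯ F : ℤ) : K) := by rw [this]
  push_cast at h2
  exact h2

end TraceFormula

/-- **local trace formula** over the point `u = 0`. -/
theorem trace_formula {u : F} (hu : Transcendental K u) (f : F) :
    ∑ v ∈ zeros K u, resDx u v (trF K u f)
      = (Module.finrank K⟮u⟯ F : K) * ∑ v ∈ zeros K u, resDx u v f :=
  TraceFormula.main hu f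

end Fermat.Agent.S27
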